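/-
S55 (Poitou–Tate), package C6 (first inequality), helper50.

**Chevalley's formula** for the Herbrand quotient of a cyclic group of prime order `p`
(the `q_{0,p}` formula of Artin–Tate).  Let `σ` be an endomorphism of an abelian group `A` with
`σ^p = 1`, `A₀ → A` an injection onto the fixed points and `nm : A → A₀` the norm.  If `A / pA`
and `A[p]` are finite, then

  `[A₀ : nm A]^(p-1) · [A : pA] · #A₀[p]^p = [ker nm : (σ - 1) A]^(p-1) · #A[p] · [A₀ : pA₀]^p`

and all indices are finite.  The proof applies the landed Herbrand lemma (helper84) to the pairs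
`(σ - 1, norm)` and `(0, p)` on `0 → A₀ → A → (σ - 1) A → 0`, and on `M = (σ - 1) A` (where the
norm vanishes) uses `p = (1 - σ)^(p-1) · w` with `w` invertible (cyclotomic identity).

Mathlib and `H84/Herbrand` only.
-/
import Mathlib
import Fermat.Agent.S55.H84.Herbrand

set_option autoImplicit false

namespace Fermat.Agent.S55.H50

open Polynomial Finset Fermat.Agent.S55.H84

/-- The cyclotomic identity `∏_{1 ≤ i < p} (1 - X^i) ≡ p` modulo `1 + X + ⋯ + X^(p-1)`. -/
theorem exists_prod_one_sub_X_pow (p : ℕ) (hp : p.Prime) :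
    ∃ Q : ℤ[X], ∏ i ∈ range (p - 1), (1 - X ^ (i + 1) : ℤ[X])
      = C (p : ℤ) + (∑ i ∈ range p, X ^ i) * Q := by
  have : Fact p.Prime := ⟨hp⟩
  obtain ⟨n, rfl⟩ : ∃ n, p = n + 1 := ⟨p - 1, (Nat.succ_pred_eq_of_pos hp.pos).symm⟩
  have hζ : IsPrimitiveRoot (Complex.exp (2 * Real.pi * Complex.I / ((n + 1 : ℕ) : ℂ))) (n + 1) :=
    Complex.isPrimitiveRoot_exp (n + 1) (Nat.succ_ne_zero n)
  set ζ : ℂ := Complex.exp (2 * Real.pi * Complex.I / ((n + 1 : ℕ) : ℂ)) with hζdef
  have hcyc : cyclotomic (n + 1) ℤ = minpoly ℤ ζ := cyclotomic_eq_minpoly hζ (Nat.succ_pos n)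
  have hval : aeval ζ (∏ i ∈ range (n + 1 - 1), (1 - X ^ (i + 1) : ℤ[X]) - C ((n + 1 : ℕ) : ℤ))
      = 0 := by
    have h := hζ.prod_one_sub_pow_eq_order
    simp only [Nat.add_sub_cancel, map_sub, map_prod, map_one, map_pow, aeval_X, aeval_C]
    rw [h]
    simp
  have hdvd := minpoly.isIntegrallyClosed_dvd (hζ.isIntegral (Nat.succ_pos n)) hval
  rw [← hcyc, cyclotomic_prime] at hdvd
  obtain ⟨Q, hQ⟩ := hdvd
  exact ⟨Q, by rw [← hQ]; ring⟩

/-- `1 + X + ⋯ + X^(i-1)` is invertible modulo `1 + X + ⋯ + X^(p-1)` for `0 < i < p`. -/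
theorem exists_geom_sum_mul_eq (p : ℕ) (hp : p.Prime) (i : ℕ) (hi0 : 0 < i) (hip : i < p) :
    ∃ W R : ℤ[X], (∑ l ∈ range i, X ^ l) * W = 1 + (∑ l ∈ range p, X ^ l) * R := by
  have hcop : Nat.Coprime i p :=
    ((Nat.Prime.coprime_iff_not_dvd hp).2 (Nat.not_dvd_of_pos_of_lt hi0 hip)).symm
  obtain ⟨j, -, hj⟩ := Nat.exists_mul_mod_eq_one_of_coprime hcop hp.one_lt
  have hij : i * j = p * (i * j / p) + 1 := by
    have := Nat.div_add_mod (i * j) p
    rw [hj] at this
    exact this.symm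
  set m := i * j / p with hm
  refine ⟨∑ l ∈ range j, (X ^ i) ^ l, X * ∑ l ∈ range m, (X ^ p) ^ l, ?_⟩
  apply mul_left_cancel₀ (Polynomial.X_sub_C_ne_zero (1 : ℤ))
  have e1 : (X - C (1 : ℤ)) * ((∑ l ∈ range i, X ^ l) * ∑ l ∈ range j, (X ^ i) ^ l)
      = X ^ (i * j) - 1 := by
    rw [← mul_assoc, C_1, mul_geom_sum, mul_geom_sum, ← pow_mul]
  have e2 : (X - C (1 : ℤ)) * (1 + (∑ l ∈ range p, X ^ l) * (X * ∑ l ∈ range m, (X ^ p) ^ l))
      = X ^ (p * m + 1) - 1 := by
    have : (X - C (1 : ℤ)) * (1 + (∑ l ∈ range p, X ^ l) * (X * ∑ l ∈ range m, (X ^ p) ^ l))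
        = (X - 1) + X * (((X : ℤ[X]) ^ p - 1) * ∑ l ∈ range m, (X ^ p) ^ l) := by
      rw [C_1, ← mul_geom_sum (X : ℤ[X]) p]
      ring
    rw [this, mul_geom_sum, ← pow_mul]
    ring
  rw [e1, e2, hij]

section Comp

variable {M : Type*} [AddCommGroup M]

/-- Multiplicativity of `#coker / #ker` under composition, as an identity of natural numbers
(indices and cardinalities being `0` when infinite). -/
theorem range_index_comp_mul (φ ψ : M →+ M) :
    (φ.comp ψ).range.index * Nat.card φ.ker * Nat.card ψ.ker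
      = φ.range.index * ψ.range.index * Nat.card (φ.comp ψ).ker := by
  have h1 : (φ.comp ψ).range.index = (ψ.range ⊔ φ.ker).index * φ.range.index := by
    have hle : (φ.comp ψ).range ≤ φ.range := by
      rintro _ ⟨x, rfl⟩
      exact ⟨ψ x, rfl⟩
    rw [← AddSubgroup.relIndex_mul_index hle]
    congr 1
    have e1 : (φ.comp ψ).range = ψ.range.map φ := (AddMonoidHom.map_range φ ψ).symm
    have e2 : φ.range = (⊤ : AddSubgroup M).map φ := AddMonoidHom.range_eq_map φ
    rw [e1, e2, AddSubgroup.relIndex_map_map, top_sup_eq, AddSubgroup.relIndex_top_right]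
  have h3 : ψ.range.index = (ψ.range ⊓ φ.ker).relIndex φ.ker * (ψ.range ⊔ φ.ker).index := by
    rw [← AddSubgroup.relIndex_mul_index (le_sup_left : ψ.range ≤ ψ.range ⊔ φ.ker)]
    congr 1
    rw [AddSubgroup.relIndex_sup_left, AddSubgroup.inf_relIndex_right]
  have h4 : Nat.card φ.ker
      = Nat.card ↥(ψ.range ⊓ φ.ker) * (ψ.range ⊓ φ.ker).relIndex φ.ker := by
    have := AddSubgroup.relIndex_mul_relIndex (⊥ : AddSubgroup M) (ψ.range ⊓ φ.ker) φ.ker
      bot_le inf_le_right
    rw [AddSubgroup.relIndex_bot_left, AddSubgroup.relIndex_bot_left] at this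
    exact this.symm
  have h5 : Nat.card (φ.comp ψ).ker = Nat.card ψ.ker * Nat.card ↥(ψ.range ⊓ φ.ker) := by
    have hk : (φ.comp ψ).ker = φ.ker.comap ψ := (AddMonoidHom.comap_ker φ ψ).symm
    have hle : ψ.ker ≤ φ.ker.comap ψ := fun x hx => by
      rw [AddSubgroup.mem_comap, (AddMonoidHom.mem_ker).1 hx]
      exact φ.ker.zero_mem
    have := AddSubgroup.relIndex_mul_relIndex (⊥ : AddSubgroup M) ψ.ker (φ.ker.comap ψ)
      bot_le hle
    rw [AddSubgroup.relIndex_bot_left, AddSubgroup.relIndex_bot_left] at this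
    rw [hk, ← this]
    congr 1
    have e := AddSubgroup.relIndex_map_map ψ (⊥ : AddSubgroup M) (φ.ker.comap ψ)
    rw [AddSubgroup.map_bot, AddSubgroup.map_comap_eq, bot_sup_eq, sup_of_le_left hle,
      AddSubgroup.relIndex_bot_left] at e
    exact e.symm
  rw [h1, h3, h4, h5]
  ring

theorem hIdx_zero_left (θ : M →+ M) : hIdx (0 : M →+ M) θ = θ.range.index := by
  unfold hIdx
  rw [AddMonoidHom.ker_zero, AddSubgroup.relIndex_top_right]

theorem hIdx_zero_right (θ : M →+ M) : hIdx θ (0 : M →+ M) = Nat.card θ.ker := by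
  unfold hIdx
  rw [AddMonoidHom.range_zero, AddSubgroup.relIndex_bot_left]

end Comp

/-- `p = w · (1 - X)^(p-1)` modulo `1 + X + ⋯ + X^(p-1)`, with `w` invertible modulo it. -/
theorem exists_unit_poly (p : ℕ) (hp : p.Prime) :
    ∃ W W' Q R : ℤ[X], W * (1 - X) ^ (p - 1) = C (p : ℤ) + (∑ i ∈ range p, X ^ i) * Q ∧
      W * W' = 1 + (∑ i ∈ range p, X ^ i) * R := by
  obtain ⟨Q, hQ⟩ := exists_prod_one_sub_X_pow p hp
  have hW : ∃ W' R : ℤ[X], (∏ i ∈ range (p - 1), ∑ l ∈ range (i + 1), (X : ℤ[X]) ^ l) * W'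
      = 1 + (∑ i ∈ range p, X ^ i) * R := by
    apply Finset.prod_induction (fun i => ∑ l ∈ range (i + 1), (X : ℤ[X]) ^ l)
      (fun P => ∃ W' R : ℤ[X], P * W' = 1 + (∑ i ∈ range p, X ^ i) * R)
    · rintro a b ⟨a', Ra, ha⟩ ⟨b', Rb, hb⟩
      refine ⟨a' * b', Ra + Rb + (∑ i ∈ range p, X ^ i) * Ra * Rb, ?_⟩
      calc a * b * (a' * b') = (a * a') * (b * b') := by ring
        _ = _ := by rw [ha, hb]; ring
    · exact ⟨1, 0, by simp⟩
    · intro i hi
      exact exists_geom_sum_mul_eq p hp (i + 1) (Nat.succ_pos i)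
        (by have := mem_range.1 hi; omega)
  obtain ⟨W', R, hW'⟩ := hW
  refine ⟨_, W', Q, R, ?_, hW'⟩
  rw [← hQ]
  have : ((1 : ℤ[X]) - X) ^ (p - 1) = ∏ _i ∈ range (p - 1), ((1 : ℤ[X]) - X) := by simp
  rw [this, ← Finset.prod_mul_distrib]
  exact Finset.prod_congr rfl (fun i _ => geom_sum_mul_neg X (i + 1))

section StepD

variable {M : Type*} [AddCommGroup M]

/-- An element of the endomorphism ring, as an additive homomorphism. -/
def toHom (θ : AddMonoid.End M) : M →+ M := θ

theorem toHom_apply (θ : AddMonoid.End M) (x : M) : toHom θ x = θ x := rfl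

theorem toHom_mul (φ ψ : AddMonoid.End M) : toHom (φ * ψ) = (toHom φ).comp (toHom ψ) := rfl

theorem toHom_mul_apply (φ ψ : AddMonoid.End M) (x : M) :
    toHom (φ * ψ) x = toHom φ (toHom ψ x) := rfl

theorem toHom_one_apply (x : M) : toHom (1 : AddMonoid.End M) x = x := rfl

theorem toHom_sum_apply {ι : Type*} (s : Finset ι) (θ : ι → AddMonoid.End M) (x : M) :
    toHom (∑ j ∈ s, θ j) x = ∑ j ∈ s, toHom (θ j) x := by
  classical
  induction s using Finset.induction_on with
  | empty => simp only [Finset.sum_empty]; rfl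
  | insert a s ha ih =>
    rw [Finset.sum_insert ha, Finset.sum_insert ha, ← ih]
    rfl

/-- cokernel count of an endomorphism -/
noncomputable def cok (θ : AddMonoid.End M) : ℕ := (toHom θ).range.index

/-- kernel count of an endomorphism -/
noncomputable def kerc (θ : AddMonoid.End M) : ℕ := Nat.card (toHom θ).ker

theorem cok_mul_kerc (φ ψ : AddMonoid.End M) :
    cok (φ * ψ) * kerc φ * kerc ψ = cok φ * cok ψ * kerc (φ * ψ) :=
  range_index_comp_mul (toHom φ) (toHom ψ)

theorem cok_one : cok (1 : AddMonoid.End M) = 1 := by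
  unfold cok
  have : (toHom (1 : AddMonoid.End M)).range = ⊤ := by
    rw [AddMonoidHom.range_eq_top]
    exact fun x => ⟨x, rfl⟩
  rw [this, AddSubgroup.index_top]

theorem kerc_one : kerc (1 : AddMonoid.End M) = 1 := by
  unfold kerc
  have : (toHom (1 : AddMonoid.End M)).ker = ⊥ := by
    rw [AddMonoidHom.ker_eq_bot_iff]
    exact fun x y h => h
  rw [this]
  simp

theorem kerc_dvd_of_mul (φ ψ : AddMonoid.End M) : kerc ψ ∣ kerc (φ * ψ) := by
  unfold kerc
  apply AddSubgroup.card_dvd_of_le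
  intro x hx
  rw [AddMonoidHom.mem_ker] at hx ⊢
  rw [toHom_mul_apply, hx, map_zero]

theorem cok_dvd_of_mul (φ ψ : AddMonoid.End M) : cok φ ∣ cok (φ * ψ) := by
  unfold cok
  apply AddSubgroup.index_dvd_of_le
  rintro _ ⟨x, rfl⟩
  exact ⟨toHom ψ x, rfl⟩

theorem cok_pow_mul_kerc_pow (φ : AddMonoid.End M) (n : ℕ) (hn : kerc (φ ^ n) ≠ 0) :
    cok (φ ^ n) * kerc φ ^ n = cok φ ^ n * kerc (φ ^ n) := by
  induction n with
  | zero => simp [cok_one, kerc_one]
  | succ n ih =>
    have hn' : kerc (φ ^ n) ≠ 0 := by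
      intro h0
      apply hn
      have := kerc_dvd_of_mul φ (φ ^ n)
      rw [h0, zero_dvd_iff, ← pow_succ'] at this
      exact this
    have ih' := ih hn'
    have hc := cok_mul_kerc φ (φ ^ n)
    rw [← pow_succ'] at hc
    apply Nat.eq_of_mul_eq_mul_right (Nat.pos_of_ne_zero hn')
    calc cok (φ ^ (n + 1)) * kerc φ ^ (n + 1) * kerc (φ ^ n)
        = (cok (φ ^ (n + 1)) * kerc φ * kerc (φ ^ n)) * kerc φ ^ n := by ring
      _ = (cok φ * cok (φ ^ n) * kerc (φ ^ (n + 1))) * kerc φ ^ n := by rw [hc]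
      _ = cok φ * kerc (φ ^ (n + 1)) * (cok (φ ^ n) * kerc φ ^ n) := by ring
      _ = cok φ * kerc (φ ^ (n + 1)) * (cok φ ^ n * kerc (φ ^ n)) := by rw [ih']
      _ = cok φ ^ (n + 1) * kerc (φ ^ (n + 1)) * kerc (φ ^ n) := by ring

/-- If `w` is invertible then `cok (θ * w) = cok θ`. -/
theorem cok_mul_unit (θ w w' : AddMonoid.End M) (h : w * w' = 1) : cok (θ * w) = cok θ := by
  unfold cok
  congr 1
  apply le_antisymm
  · rintro _ ⟨x, rfl⟩
    exact ⟨toHom w x, rfl⟩
  · rintro _ ⟨x, rfl⟩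
    refine ⟨toHom w' x, ?_⟩
    rw [toHom_mul_apply, ← toHom_mul_apply w w', h, toHom_one_apply]

/-- If `w` is invertible then `kerc (w * θ) = kerc θ`. -/
theorem kerc_unit_mul (θ w w' : AddMonoid.End M) (h : w' * w = 1) : kerc (w * θ) = kerc θ := by
  unfold kerc
  have : (toHom (w * θ)).ker = (toHom θ).ker := by
    ext x
    rw [AddMonoidHom.mem_ker, AddMonoidHom.mem_ker, toHom_mul_apply]
    constructor
    · intro hx
      have := congrArg (toHom w') hx
      rwa [← toHom_mul_apply w' w, h, toHom_one_apply, map_zero] at this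
    · intro hx
      rw [hx, map_zero]
  rw [this]

/-- **Key step.**  On a group killed by `1 + τ + ⋯ + τ^(p-1)`, the (coker/ker)-count of
multiplication by `p` is the `(p-1)`-st power of that of `1 - τ`. -/
theorem cok_natCast_mul_kerc_pow (p : ℕ) (hp : p.Prime) (τ : AddMonoid.End M)
    (hτ : ∑ i ∈ range p, τ ^ i = 0) (hk : kerc (p : AddMonoid.End M) ≠ 0)
    (hc : cok (p : AddMonoid.End M) ≠ 0) :
    cok (1 - τ) ≠ 0 ∧ kerc (1 - τ) ≠ 0 ∧
      cok (p : AddMonoid.End M) * kerc (1 - τ) ^ (p - 1)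
        = kerc (p : AddMonoid.End M) * cok (1 - τ) ^ (p - 1) := by
  obtain ⟨W, W', Q, R, h1, h2⟩ := exists_unit_poly p hp
  have hG : aeval τ (∑ i ∈ range p, X ^ i : ℤ[X]) = 0 := by
    simpa only [map_sum, map_pow, aeval_X] using hτ
  have e1 : aeval τ W * (1 - τ) ^ (p - 1) = (p : AddMonoid.End M) := by
    have := congrArg (aeval τ) h1
    simpa only [map_mul, map_pow, map_sub, map_one, aeval_X, map_add, hG, zero_mul, add_zero,
      aeval_C, eq_intCast, Int.cast_natCast, map_natCast] using this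
  have e1' : (1 - τ) ^ (p - 1) * aeval τ W = (p : AddMonoid.End M) := by
    rw [← e1]
    have := congrArg (aeval τ) (mul_comm ((1 - X : ℤ[X]) ^ (p - 1)) W)
    simpa only [map_mul, map_pow, map_sub, map_one, aeval_X] using this
  have e2 : aeval τ W * aeval τ W' = 1 := by
    have := congrArg (aeval τ) h2
    simpa only [map_mul, map_add, map_one, hG, zero_mul, add_zero] using this
  have e2' : aeval τ W' * aeval τ W = 1 := by
    rw [← e2, ← map_mul, ← map_mul, mul_comm]
  set φ : AddMonoid.End M := 1 - τ with hφ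
  set w : AddMonoid.End M := aeval τ W with hw
  set w' : AddMonoid.End M := aeval τ W' with hw'
  have hcp : cok (p : AddMonoid.End M) = cok (φ ^ (p - 1)) := by
    rw [← e1']
    exact cok_mul_unit _ w w' e2
  have hkp : kerc (p : AddMonoid.End M) = kerc (φ ^ (p - 1)) := by
    rw [← e1]
    exact kerc_unit_mul _ w w' e2'
  have hk' : kerc (φ ^ (p - 1)) ≠ 0 := hkp ▸ hk
  have hc' : cok (φ ^ (p - 1)) ≠ 0 := hcp ▸ hc
  have hpow := cok_pow_mul_kerc_pow φ (p - 1) hk'
  have hp1 : p - 1 = (p - 2) + 1 := by have := hp.two_le; omega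
  have hcφ : cok φ ≠ 0 := by
    intro h0
    apply hc'
    have := cok_dvd_of_mul φ (φ ^ (p - 2))
    rw [h0, zero_dvd_iff, ← pow_succ', ← hp1] at this
    exact this
  have hkφ : kerc φ ≠ 0 := by
    intro h0
    apply hk'
    have := kerc_dvd_of_mul (φ ^ (p - 2)) φ
    rw [h0, zero_dvd_iff, ← pow_succ, ← hp1] at this
    exact this
  refine ⟨hcφ, hkφ, ?_⟩
  apply Nat.eq_of_mul_eq_mul_right (Nat.pos_of_ne_zero hk')
  rw [hcp, hkp]
  calc cok (φ ^ (p - 1)) * kerc φ ^ (p - 1) * kerc (φ ^ (p - 1))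
      = (cok φ ^ (p - 1) * kerc (φ ^ (p - 1))) * kerc (φ ^ (p - 1)) := by rw [hpow]
    _ = kerc (φ ^ (p - 1)) * cok φ ^ (p - 1) * kerc (φ ^ (p - 1)) := by ring

end StepD

section Main

variable {A A₀ : Type*} [AddCommGroup A] [AddCommGroup A₀]

/-- An additive homomorphism, as an element of the endomorphism ring. -/
def ofHom (θ : A →+ A) : AddMonoid.End A := θ

theorem toHom_ofHom (θ : A →+ A) : toHom (ofHom θ) = θ := rfl

theorem ofHom_pow_apply (θ : A →+ A) (n : ℕ) (x : A) : toHom (ofHom θ ^ n) x = θ^[n] x := rfl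

theorem cok_neg (θ : AddMonoid.End A) : cok (-θ) = cok θ := by
  unfold cok
  congr 1
  apply le_antisymm
  · rintro _ ⟨x, rfl⟩
    exact ⟨-x, by rw [toHom_apply, toHom_apply, map_neg]; rfl⟩
  · rintro _ ⟨x, rfl⟩
    exact ⟨-x, by rw [toHom_apply, toHom_apply, map_neg]; exact neg_neg (θ x)⟩

theorem kerc_neg (θ : AddMonoid.End A) : kerc (-θ) = kerc θ := by
  unfold kerc
  have : (toHom (-θ)).ker = (toHom θ).ker := by
    ext x
    rw [AddMonoidHom.mem_ker, AddMonoidHom.mem_ker, toHom_apply, toHom_apply]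
    exact neg_eq_zero (a := θ x)
  rw [this]

/-- Multiplication by `p` as an additive endomorphism. -/
abbrev pMul (p : ℕ) (B : Type*) [AddCommGroup B] : B →+ B := nsmulAddMonoidHom p

theorem toHom_natCast (p : ℕ) : toHom (p : AddMonoid.End A) = pMul p A := rfl

/-- **Chevalley's formula** (`q_{0,p}`), additive form.  Let `σ` be an endomorphism of an abelian
group `A` with `σ^p = 1`, `p` prime, let `i : A₀ → A` be an injection onto the fixed points of
`σ` and `nm : A → A₀` the norm (`i (nm x) = ∑_{j<p} σ^j x`).  If `A / pA` and `A[p]` are finite,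
then all the indices below are finite (nonzero) and
`[A₀ : nm A]^(p-1) · [A : pA] · #A₀[p]^p = [ker nm : (σ - 1) A]^(p-1) · #A[p] · [A₀ : pA₀]^p`. -/
theorem chevalley_add (p : ℕ) (hp : p.Prime) (σ : A →+ A) (hσ : ∀ x, σ^[p] x = x)
    (i : A₀ →+ A) (hi : Function.Injective i) (hfix : ∀ x, σ x = x ↔ x ∈ i.range)
    (nm : A →+ A₀) (hnm : ∀ x, i (nm x) = ∑ j ∈ range p, σ^[j] x)
    (hk : Nat.card (pMul p A).ker ≠ 0) (hc : (pMul p A).range.index ≠ 0) :
    nm.range.index ≠ 0 ∧ (σ - AddMonoidHom.id A).range.relIndex nm.ker ≠ 0 ∧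
      (pMul p A₀).range.index ≠ 0 ∧ Nat.card (pMul p A₀).ker ≠ 0 ∧
      nm.range.index ^ (p - 1) * (pMul p A).range.index * Nat.card (pMul p A₀).ker ^ p
        = (σ - AddMonoidHom.id A).range.relIndex nm.ker ^ (p - 1) * Nat.card (pMul p A).ker
          * (pMul p A₀).range.index ^ p := by
  classical
  -- the two endomorphisms `f = σ - 1`, `g = 1 + σ + ⋯ + σ^(p-1)`
  set s : AddMonoid.End A := ofHom σ with hs
  have hsp : s ^ p = 1 := by
    apply AddMonoidHom.ext
    intro x
    exact hσ x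
  set f : A →+ A := toHom (s - 1) with hf
  set g : A →+ A := toHom (∑ j ∈ range p, s ^ j) with hg
  have hf_apply : ∀ x, f x = σ x - x := fun x => rfl
  have hf_eq : f = σ - AddMonoidHom.id A := rfl
  have hg_apply : ∀ x, g x = i (nm x) := by
    intro x
    rw [hnm x, hg, toHom_sum_apply]
    rfl
  have hfg : ∀ b, f (g b) = 0 := by
    intro b
    have : (s - 1) * ∑ j ∈ range p, s ^ j = 0 := by rw [mul_geom_sum, hsp, sub_self]
    rw [hf, hg, ← toHom_mul_apply, this]
    rfl
  have hgf : ∀ b, g (f b) = 0 := by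
    intro b
    have : (∑ j ∈ range p, s ^ j) * (s - 1) = 0 := by rw [geom_sum_mul, hsp, sub_self]
    rw [hf, hg, ← toHom_mul_apply, this]
    rfl
  have hker : f.ker = i.range := by
    ext x
    rw [AddMonoidHom.mem_ker, hf_apply, sub_eq_zero]
    exact hfix x
  -- the quotient `M = (σ - 1) A`
  set π : A →+ f.range := f.rangeRestrict with hπdef
  have hπ : Function.Surjective π := f.rangeRestrict_surjective
  have hex : i.range = π.ker := by rw [hπdef, AddMonoidHom.ker_rangeRestrict, hker]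
  -- `σ` restricted to `M`
  have hσM : ∀ y : f.range, σ (y : A) ∈ f.range := by
    rintro ⟨_, ⟨b, rfl⟩⟩
    refine ⟨σ b, ?_⟩
    show f (σ b) = σ (f b)
    rw [hf_apply, hf_apply, map_sub]
  set τ : AddMonoid.End f.range := ofHom ((σ.comp f.range.subtype).codRestrict f.range hσM)
    with hτdef
  have hτ_apply : ∀ y : f.range, ((τ y : f.range) : A) = σ (y : A) := fun y => rfl
  have hτ_pow : ∀ (n : ℕ) (y : f.range), ((toHom (τ ^ n) y : f.range) : A) = σ^[n] (y : A) := by
    intro n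
    induction n with
    | zero => intro y; rfl
    | succ n ih =>
      intro y
      rw [pow_succ', Function.iterate_succ_apply', ← ih y]
      rfl
  have hτsum : ∑ j ∈ range p, τ ^ j = 0 := by
    have key : ∀ y, toHom (∑ j ∈ range p, τ ^ j) y = 0 := by
      intro y
      apply Subtype.ext
      rw [toHom_sum_apply, AddSubgroup.val_finsetSum]
      simp only [hτ_pow]
      obtain ⟨_, ⟨b, rfl⟩⟩ := y
      have := hgf b
      rw [hg_apply, hnm] at this
      exact this
    exact AddMonoidHom.ext key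
  -- multiplication by `p`
  have hkM : kerc (p : AddMonoid.End f.range) ≠ 0 := by
    show Nat.card (pMul p f.range).ker ≠ 0
    have : Finite (pMul p A).ker := Nat.finite_of_card_ne_zero hk
    have hinj : Function.Injective
        (fun y : (pMul p f.range).ker => (⟨((y : f.range) : A), by
          have h := y.2
          rw [AddMonoidHom.mem_ker] at h ⊢
          have := congrArg (Subtype.val) h
          exact this⟩ : (pMul p A).ker)) := by
      intro y z h
      apply Subtype.ext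
      apply Subtype.ext
      have h' := congrArg Subtype.val h
      exact h'
    have : Finite (pMul p f.range).ker := Finite.of_injective _ hinj
    exact Nat.card_pos.ne'
  have hk0 : Nat.card (pMul p A₀).ker ≠ 0 := by
    have : Finite (pMul p A).ker := Nat.finite_of_card_ne_zero hk
    have hinj : Function.Injective
        (fun y : (pMul p A₀).ker => (⟨i (y : A₀), by
          have h := y.2
          rw [AddMonoidHom.mem_ker] at h ⊢
          show p • i (y : A₀) = 0
          rw [← map_nsmul]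
          have h' : p • (y : A₀) = 0 := h
          rw [h', map_zero]⟩ : (pMul p A).ker)) := by
      intro y z h
      apply Subtype.ext
      apply hi
      have h' := congrArg Subtype.val h
      exact h'
    have : Finite (pMul p A₀).ker := Finite.of_injective _ hinj
    exact Nat.card_pos.ne'
  have hcM : cok (p : AddMonoid.End f.range) ≠ 0 := by
    show (pMul p f.range).range.index ≠ 0
    have hmap : (pMul p A).range.map π = (pMul p f.range).range := by
      ext y
      constructor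
      · rintro ⟨_, ⟨x, rfl⟩, rfl⟩
        exact ⟨π x, (map_nsmul π p x).symm⟩
      · rintro ⟨m, rfl⟩
        obtain ⟨x, rfl⟩ := hπ m
        exact ⟨p • x, ⟨x, rfl⟩, map_nsmul π p x⟩
    have := AddSubgroup.index_map_dvd (pMul p A).range hπ
    rw [hmap] at this
    exact fun h0 => hc (Nat.eq_zero_of_zero_dvd (h0 ▸ this))
  -- step D on `M`
  obtain ⟨hD1, hD2, hD3⟩ := cok_natCast_mul_kerc_pow p hp τ hτsum hkM hcM
  have hneg : (1 : AddMonoid.End f.range) - τ = -(τ - 1) := (neg_sub τ 1).symm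
  rw [hneg, cok_neg, kerc_neg] at hD3
  rw [hneg, cok_neg] at hD1
  rw [hneg, kerc_neg] at hD2
  -- the two Herbrand identities
  have hπf : ∀ b, π (f b) = toHom (τ - 1) (π b) := by
    intro b
    apply Subtype.ext
    show f (f b) = σ (f b) - f b
    rw [hf_apply (f b)]
  have hπg : ∀ b, π (g b) = (0 : f.range →+ f.range) (π b) := by
    intro b
    apply Subtype.ext
    show f (g b) = 0
    exact hfg b
  have hif : ∀ a, i ((0 : A₀ →+ A₀) a) = f (i a) := by
    intro a
    have : i a ∈ f.ker := hker ▸ ⟨a, rfl⟩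
    rw [AddMonoidHom.zero_apply, map_zero, (AddMonoidHom.mem_ker).1 this]
  have hig : ∀ a, i (pMul p A₀ a) = g (i a) := by
    intro a
    rw [hg_apply]
    have h1 : ∀ n : ℕ, σ^[n] (i a) = i a := by
      intro n
      induction n with
      | zero => rfl
      | succ n ih => rw [Function.iterate_succ_apply', ih]; exact (hfix (i a)).2 ⟨a, rfl⟩
    rw [hnm]
    simp only [h1, Finset.sum_const, Finset.card_range]
    exact map_nsmul i p a
  have E1 := hIdx_mul_of_exact (fA := (0 : A₀ →+ A₀)) (gA := pMul p A₀) (fB := f) (gB := g)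
    (fC := toHom (τ - 1)) (gC := (0 : f.range →+ f.range)) hi hπ hex hif hig hπf hπg hfg hgf
  have E2 := hIdx_mul_of_exact (fA := (0 : A₀ →+ A₀)) (gA := pMul p A₀)
    (fB := (0 : A →+ A)) (gB := pMul p A)
    (fC := (0 : f.range →+ f.range)) (gC := pMul p f.range) hi hπ hex
    (fun a => by simp) (fun a => map_nsmul i p a) (fun b => by simp)
    (fun b => map_nsmul π p b) (fun b => by simp) (fun b => by simp)
  rw [hIdx_zero_left, hIdx_zero_right, hIdx_zero_right, hIdx_zero_left] at E1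
  rw [hIdx_zero_left, hIdx_zero_left, hIdx_zero_right, hIdx_zero_right, hIdx_zero_right,
    hIdx_zero_left] at E2
  change (pMul p A₀).range.index * kerc (τ - 1) * hIdx g f
    = Nat.card (pMul p A₀).ker * cok (τ - 1) * hIdx f g at E1
  change (pMul p A₀).range.index * cok (p : AddMonoid.End f.range) * Nat.card (pMul p A).ker
    = Nat.card (pMul p A₀).ker * kerc (p : AddMonoid.End f.range) * (pMul p A).range.index at E2
  -- finiteness
  have hc0 : (pMul p A₀).range.index ≠ 0 := by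
    intro h0
    rw [h0, zero_mul, zero_mul] at E2
    exact (mul_ne_zero (mul_ne_zero hk0 hkM) hc) E2.symm
  obtain ⟨hH0, hH1⟩ := hIdx_ne_zero_of_exact (fA := (0 : A₀ →+ A₀)) (gA := pMul p A₀)
    (fB := f) (gB := g) (fC := toHom (τ - 1)) (gC := (0 : f.range →+ f.range))
    hi hπ hex hif hig hπf hπg hfg hgf
    (by rw [hIdx_zero_left]; exact hc0) (by rw [hIdx_zero_right]; exact hk0)
    (by rw [hIdx_zero_right]; exact hD2) (by rw [hIdx_zero_left]; exact hD1)
  -- translation of the two Herbrand indices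
  have hH0' : hIdx f g = nm.range.index := by
    unfold hIdx
    have e1 : g.range = nm.range.map i := by
      ext x
      constructor
      · rintro ⟨b, rfl⟩
        exact ⟨nm b, ⟨b, rfl⟩, (hg_apply b).symm⟩
      · rintro ⟨_, ⟨b, rfl⟩, rfl⟩
        exact ⟨b, hg_apply b⟩
    rw [e1, hker, AddMonoidHom.range_eq_map i, AddSubgroup.relIndex_map_map_of_injective _ _ hi,
      AddSubgroup.relIndex_top_right]
  have hH1' : hIdx g f = (σ - AddMonoidHom.id A).range.relIndex nm.ker := by
    unfold hIdx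
    have e1 : g.ker = nm.ker := by
      ext x
      rw [AddMonoidHom.mem_ker, AddMonoidHom.mem_ker, hg_apply]
      exact ⟨fun h => hi (by rw [h, map_zero]), fun h => by rw [h, map_zero]⟩
    rw [e1, hf_eq]
  rw [hH0'] at hH0 E1
  rw [hH1'] at hH1 E1
  refine ⟨hH0, hH1, hc0, hk0, ?_⟩
  -- the computation
  obtain ⟨n, rfl⟩ : ∃ n, p = n + 1 := ⟨p - 1, (Nat.succ_pred_eq_of_pos hp.pos).symm⟩
  rw [Nat.add_sub_cancel] at hD3 ⊢
  have hX : cok (τ - 1) ^ n * kerc ((n + 1 : ℕ) : AddMonoid.End f.range) ≠ 0 :=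
    mul_ne_zero (pow_ne_zero _ hD1) hkM
  apply Nat.eq_of_mul_eq_mul_right (Nat.pos_of_ne_zero hX)
  set H0 := nm.range.index
  set H1 := (σ - AddMonoidHom.id A).range.relIndex nm.ker
  set cA := (pMul (n + 1) A).range.index
  set kA := Nat.card (pMul (n + 1) A).ker
  set c0 := (pMul (n + 1) A₀).range.index
  set k0 := Nat.card (pMul (n + 1) A₀).ker
  set cM := cok ((n + 1 : ℕ) : AddMonoid.End f.range)
  set kM := kerc ((n + 1 : ℕ) : AddMonoid.End f.range)
  set cφ := cok (τ - 1)
  set kφ := kerc (τ - 1)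
  calc H0 ^ n * cA * k0 ^ (n + 1) * (cφ ^ n * kM)
      = (k0 * cφ * H0) ^ n * (k0 * kM * cA) := by ring
    _ = (c0 * kφ * H1) ^ n * (c0 * cM * kA) := by rw [← E1, ← E2]
    _ = H1 ^ n * kA * c0 ^ (n + 1) * (cM * kφ ^ n) := by ring
    _ = H1 ^ n * kA * c0 ^ (n + 1) * (kM * cφ ^ n) := by rw [hD3]
    _ = H1 ^ n * kA * c0 ^ (n + 1) * (cφ ^ n * kM) := by ring

end Main

end Fermat.Agent.S55.H50
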