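/-
S55 (Poitou–Tate), package C6 (first inequality), helper50.

1. `chevalley_mul`: Chevalley's `q_{0,p}` formula (`Chevalley.lean`) in multiplicative form.
2. `firstIneq_abstract`: the **first inequality** in helper8's model-independent idele-system
   language (`H8/KummerDefs`): from the arithmetic of the `S`-units `E` of the cyclic extension
   (Hilbert 90 for `S`-units, the index of `p`-th powers in `E` and in the `S`-units of the base,
   the count of places, "global norms are local norms", a local non-norm at each of the places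
   that do not split, and the triviality of the `S`-class group of the extension) it follows
   that not every idele is a principal idele times an everywhere-local-norm idele.

Mathlib, `H84/Herbrand`, `H50/Chevalley`, `H8/KummerDefs` only.
-/
import Mathlib
import Fermat.Agent.S55.H50.Chevalley
import Fermat.Agent.S55.H8.KummerDefs

set_option autoImplicit false

namespace Fermat.Agent.S55.H50

open Finset

section Transfer

variable {E E₀ : Type*} [CommGroup E] [CommGroup E₀]

theorem range_toAdditive_eq {G H : Type*} [Group G] [Group H] (f : G →* H) :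
    (MonoidHom.toAdditive f).range = Subgroup.toAddSubgroup f.range := rfl

theorem ker_toAdditive_eq {G H : Type*} [Group G] [Group H] (f : G →* H) :
    (MonoidHom.toAdditive f).ker = Subgroup.toAddSubgroup f.ker := rfl

theorem natCard_toAddSubgroup {G : Type*} [Group G] (K : Subgroup G) :
    Nat.card (Subgroup.toAddSubgroup K) = Nat.card K :=
  Nat.card_congr
    { toFun := fun x => ⟨Additive.toMul x.1, x.2⟩
      invFun := fun x => ⟨Additive.ofMul x.1, x.2⟩
      left_inv := fun _ => rfl
      right_inv := fun _ => rfl }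

theorem pMul_additive (p : ℕ) :
    pMul p (Additive E) = MonoidHom.toAdditive (powMonoidHom p : E →* E) := rfl

theorem iterate_toAdditive (σ : E →* E) (n : ℕ) (x : Additive E) :
    (MonoidHom.toAdditive σ)^[n] x = Additive.ofMul (σ^[n] (Additive.toMul x)) := by
  induction n with
  | zero => rfl
  | succ n ih => rw [Function.iterate_succ_apply', ih, Function.iterate_succ_apply']; rfl

/-- **Chevalley's formula**, multiplicative form: for an endomorphism `σ` of a commutative
group `E` with `σ^p = 1` (`p` prime), an injection `ι : E₀ → E` onto the fixed points and the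
norm `nm : E → E₀`:
`[E₀ : nm E]^(p-1) · [E : E^p] · #E₀[p]^p = [ker nm : {σ y / y}]^(p-1) · #E[p] · [E₀ : E₀^p]^p`,
all indices being finite as soon as `[E : E^p]` and `#E[p]` are. -/
theorem chevalley_mul (p : ℕ) (hp : p.Prime) (σ : E →* E) (hσ : ∀ x, σ^[p] x = x)
    (ι : E₀ →* E) (hι : Function.Injective ι) (hfix : ∀ x, σ x = x ↔ x ∈ ι.range)
    (nm : E →* E₀) (hnm : ∀ x, ι (nm x) = ∏ j ∈ range p, σ^[j] x)
    (hk : Nat.card (powMonoidHom p : E →* E).ker ≠ 0)
    (hc : (powMonoidHom p : E →* E).range.index ≠ 0) :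
    nm.range.index ≠ 0 ∧ (σ / MonoidHom.id E).range.relIndex nm.ker ≠ 0 ∧
      (powMonoidHom p : E₀ →* E₀).range.index ≠ 0 ∧
      Nat.card (powMonoidHom p : E₀ →* E₀).ker ≠ 0 ∧
      nm.range.index ^ (p - 1) * (powMonoidHom p : E →* E).range.index
          * Nat.card (powMonoidHom p : E₀ →* E₀).ker ^ p
        = (σ / MonoidHom.id E).range.relIndex nm.ker ^ (p - 1)
          * Nat.card (powMonoidHom p : E →* E).ker
          * (powMonoidHom p : E₀ →* E₀).range.index ^ p := by
  have hsub : MonoidHom.toAdditive σ - AddMonoidHom.id (Additive E)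
      = MonoidHom.toAdditive (σ / MonoidHom.id E) := rfl
  have key := chevalley_add (A := Additive E) (A₀ := Additive E₀) p hp (MonoidHom.toAdditive σ)
    (fun x => by rw [iterate_toAdditive, hσ]; rfl)
    (MonoidHom.toAdditive ι) hι
    (fun x => by
      constructor
      · intro h
        obtain ⟨y, hy⟩ := (hfix (Additive.toMul x)).1 (congrArg Additive.toMul h)
        exact ⟨Additive.ofMul y, congrArg Additive.ofMul hy⟩
      · rintro ⟨y, rfl⟩
        exact congrArg Additive.ofMul ((hfix (ι (Additive.toMul y))).2 ⟨_, rfl⟩))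
    (MonoidHom.toAdditive nm)
    (fun x => by
      apply Additive.toMul.injective
      rw [toMul_sum]
      simp only [iterate_toAdditive]
      exact hnm (Additive.toMul x))
    (by rw [pMul_additive, ker_toAdditive_eq, natCard_toAddSubgroup]; exact hk)
    (by rw [pMul_additive, range_toAdditive_eq, Subgroup.index_toAddSubgroup]; exact hc)
  rw [hsub] at key
  simp only [pMul_additive, range_toAdditive_eq, ker_toAdditive_eq, natCard_toAddSubgroup,
    Subgroup.index_toAddSubgroup, Subgroup.relIndex_toAddSubgroup] at key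
  exact key

end Transfer

section FirstInequality

open Fermat.Agent.S55.H8

variable {G : Type*} [CommGroup G] {V : Type*} {X : V → Type*} [∀ v, CommGroup (X v)]

/-- A nontrivial commutative group killed by a prime `p` is infinite or has at least `p`
elements. -/
theorem le_natCard_of_pow_eq_one {Q : Type*} [CommGroup Q] [Finite Q] (p : ℕ) (hp : p.Prime)
    (hpow : ∀ x : Q, x ^ p = 1) (hne : ∃ x : Q, x ≠ 1) : p ≤ Nat.card Q := by
  obtain ⟨x, hx⟩ := hne
  have h1 : orderOf x = p := @orderOf_eq_prime _ _ x p ⟨hp⟩ (hpow x) hx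
  have h2 : orderOf x ∣ Nat.card Q := orderOf_dvd_natCard x
  rw [h1] at h2
  exact Nat.le_of_dvd Nat.card_pos h2

/-- The arithmetic of Chevalley's count: `h^(p-1) · p^(a+pb) · p^p = p · (p^(a+b))^p` forces
`a = e + 1` and `h = p^e`. -/
theorem eq_pow_of_chevalley_count {p h a b : ℕ} (hp : p.Prime)
    (hh : h ^ (p - 1) * p ^ (a + p * b) * p ^ p = p * (p ^ (a + b)) ^ p) :
    ∃ e, a = e + 1 ∧ h = p ^ e := by
  obtain ⟨n, rfl⟩ : ∃ n, p = n + 1 := ⟨p - 1, (Nat.succ_pred_eq_of_pos hp.pos).symm⟩
  have hn : 1 ≤ n := by have := hp.two_le; omega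
  rw [Nat.add_sub_cancel] at hh
  have hdvd : h ∣ (n + 1) ^ (1 + (n + 1) * (a + b)) := by
    have h1 : h ∣ h ^ n := dvd_pow_self h (by omega)
    have h2 : h ^ n ∣ (n + 1) ^ (1 + (n + 1) * (a + b)) := by
      refine ⟨(n + 1) ^ (a + (n + 1) * b) * (n + 1) ^ (n + 1), ?_⟩
      rw [← mul_assoc, hh]
      ring
    exact h1.trans h2
  obtain ⟨e, -, rfl⟩ := (Nat.dvd_prime_pow hp).1 hdvd
  refine ⟨e, ?_, rfl⟩
  have h3 : (n + 1) ^ (e * n + (a + (n + 1) * b) + (n + 1))
      = (n + 1) ^ (1 + (n + 1) * (a + b)) := by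
    calc (n + 1) ^ (e * n + (a + (n + 1) * b) + (n + 1))
        = ((n + 1) ^ e) ^ n * (n + 1) ^ (a + (n + 1) * b) * (n + 1) ^ (n + 1) := by ring
      _ = (n + 1) * ((n + 1) ^ (a + b)) ^ (n + 1) := hh
      _ = (n + 1) ^ (1 + (n + 1) * (a + b)) := by ring
  have h4 := Nat.pow_right_injective hp.two_le h3
  -- `e n + a + (n+1) b + n + 1 = 1 + (n+1)(a+b)`, i.e. `(e + 1) n = a n`
  have h5 : (e + 1) * n = a * n := by nlinarith
  exact (Nat.eq_of_mul_eq_mul_right (by omega) h5).symm

/-- A criterion for the hypothesis `hclass` of `firstIneq_abstract`: it suffices that for every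
place `v` outside `S` there is a global element `c` which is a local norm at the places of `S`,
a unit at the places outside `S ∪ {v}`, and whose image at `v` generates the local norm group
`Nl v` modulo units. -/
theorem exists_of_generators (U : ∀ v, Subgroup (X v)) (loc : ∀ v, G →* X v)
    (Nl : ∀ v, Subgroup (X v)) (S : Finset V)
    (hgen : ∀ v, v ∉ S → ∃ c : G, (∀ v' ∈ S, loc v' c ∈ Nl v') ∧
      (∀ v', v' ∉ S → v' ≠ v → loc v' c ∈ U v') ∧
      (∀ x ∈ Nl v, ∃ m : ℤ, x / (loc v c) ^ m ∈ U v)) :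
    ∀ x ∈ NmLoc U Nl, ∃ c : G, (∀ v ∈ S, loc v c ∈ Nl v) ∧
      ∀ v, v ∉ S → x v / loc v c ∈ U v := by
  classical
  intro x hx
  obtain ⟨hxres, hxN⟩ := mem_NmLoc.1 hx
  have hfin : {v | x v ∉ U v}.Finite := mem_resProd.1 hxres
  -- the finite set of places outside `S` where `x` is not a unit
  set Tx : Finset V := hfin.toFinset.filter (fun v => v ∉ S) with hTx
  have hmemTx : ∀ v, v ∈ Tx ↔ x v ∉ U v ∧ v ∉ S := by
    intro v
    rw [hTx, Finset.mem_filter, Set.Finite.mem_toFinset]
    rfl
  choose cf hcf1 hcf2 hcf3 using hgen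
  -- the exponents
  have hm : ∀ v (hv : v ∉ S), ∃ m : ℤ, x v / (loc v (cf v hv)) ^ m ∈ U v :=
    fun v hv => hcf3 v hv (x v) (hxN v)
  choose mf hmf using hm
  let cc : V → G := fun v => if hv : v ∉ S then (cf v hv) ^ (mf v hv) else 1
  have hcc_S : ∀ v, ∀ v' ∈ S, loc v' (cc v) ∈ Nl v' := by
    intro v v' hv'
    by_cases hv : v ∉ S
    · have : cc v = (cf v hv) ^ (mf v hv) := dif_pos hv
      rw [this, map_zpow]
      exact (Nl v').zpow_mem (hcf1 v hv v' hv') _
    · have : cc v = 1 := dif_neg hv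
      rw [this, map_one]
      exact (Nl v').one_mem
  have hcc_U : ∀ v v', v' ∉ S → v' ≠ v → loc v' (cc v) ∈ U v' := by
    intro v v' hv' hne
    by_cases hv : v ∉ S
    · have : cc v = (cf v hv) ^ (mf v hv) := dif_pos hv
      rw [this, map_zpow]
      exact (U v').zpow_mem (hcf2 v hv v' hv' hne) _
    · have : cc v = 1 := dif_neg hv
      rw [this, map_one]
      exact (U v').one_mem
  have hcc_self : ∀ v, v ∉ S → x v / loc v (cc v) ∈ U v := by
    intro v hv
    have : cc v = (cf v hv) ^ (mf v hv) := dif_pos hv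
    rw [this, map_zpow]
    exact hmf v hv
  refine ⟨∏ v ∈ Tx, cc v, ?_, ?_⟩
  · intro v' hv'
    rw [map_prod]
    exact Subgroup.prod_mem _ (fun v _ => hcc_S v v' hv')
  · intro v₀ hv₀
    rw [map_prod]
    by_cases h0 : v₀ ∈ Tx
    · rw [← Finset.mul_prod_erase Tx _ h0, ← div_div]
      refine (U v₀).div_mem (hcc_self v₀ hv₀) (Subgroup.prod_mem _ ?_)
      intro v hv
      exact hcc_U v v₀ hv₀ (Finset.ne_of_mem_erase hv).symm
    · have hxU : x v₀ ∈ U v₀ := by
        by_contra hcon
        exact h0 ((hmemTx v₀).2 ⟨hcon, hv₀⟩)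
      refine (U v₀).div_mem hxU (Subgroup.prod_mem _ ?_)
      intro v hv
      exact hcc_U v v₀ hv₀ (fun h => h0 (h ▸ hv))

/-- **The first inequality, abstract form** (helper8's idele-system language).

`S` is a finite set of places, `E` the group of `S`-units of a cyclic extension of prime degree
`p` with generator `σ`, `ι` the inclusion of the `S`-units of the base and `nm` the norm;
`Nl v` are the local norm groups.  Hypotheses: Hilbert 90 for `S`-units (`h90`), the indices
of `p`-th powers and the `p`-torsion in `E` and in the `S`-units of the base (`hE`, `hEtors`,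
`hGS`, `hGStors`), the count of places (`hcount`: `T` = places of `S` with a single place above,
at which the local norm group is proper; the other `b` places have `p` places above),
"global norms are local norms" (`hlocnorm`), "`p`-th powers are local norms" (`hpow`), and the
triviality of the `S`-class group of the extension in the form `hclass` (see
`exists_of_generators` for a criterion by generators).
Conclusion: the ideles are not generated by the principal ideles and the norm ideles. -/
theorem firstIneq_abstract (p : ℕ) (hp : p.Prime) (U : ∀ v, Subgroup (X v))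
    (loc : ∀ v, G →* X v) (Nl : ∀ v, Subgroup (X v)) (S : Finset V)
    {E : Type*} [CommGroup E] (σ : E →* E) (ι : ↥(GS U loc (S : Set V)) →* E)
    (nm : E →* ↥(GS U loc (S : Set V))) (tN : ℕ)
    (hσ : ∀ x, σ^[p] x = x) (hι : Function.Injective ι)
    (hfix : ∀ x, σ x = x ↔ x ∈ ι.range)
    (hnm : ∀ x, ι (nm x) = ∏ j ∈ range p, σ^[j] x)
    (h90 : ∀ x, nm x = 1 → ∃ y, x = σ y / y)
    (hE : (powMonoidHom p : E →* E).range.index = p ^ tN)
    (hEtors : Nat.card (powMonoidHom p : E →* E).ker = p)
    (hGS : (powMonoidHom p : ↥(GS U loc (S : Set V)) →* ↥(GS U loc (S : Set V))).range.index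
      = p ^ S.card)
    (hGStors :
      Nat.card (powMonoidHom p : ↥(GS U loc (S : Set V)) →* ↥(GS U loc (S : Set V))).ker = p)
    (hcount : ∃ (T : Finset V) (b : ℕ), T ⊆ S ∧ (∀ v ∈ T, Nl v ≠ ⊤) ∧
      S.card = T.card + b ∧ tN = T.card + p * b)
    (hlocnorm : ∀ (x : E) (v : V), v ∈ S → loc v (nm x : G) ∈ Nl v)
    (hpow : ∀ v, pPow p (X v) ≤ Nl v)
    (hclass : ∀ x ∈ NmLoc U Nl, ∃ c : G, (∀ v ∈ S, loc v c ∈ Nl v) ∧
      ∀ v, v ∉ S → x v / loc v c ∈ U v) :
    ¬ (resProd U ≤ principal loc ⊔ NmLoc U Nl) := by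
  classical
  obtain ⟨T, b, hTS, hTne, hScard, htN⟩ := hcount
  -- Step 1: Chevalley's count
  have hp0 : p ≠ 0 := hp.ne_zero
  obtain ⟨hH0, -, -, -, hchev⟩ := chevalley_mul p hp σ hσ ι hι hfix nm hnm
    (by rw [hEtors]; exact hp0) (by rw [hE]; exact pow_ne_zero _ hp0)
  have hrel : (σ / MonoidHom.id E).range.relIndex nm.ker = 1 := by
    rw [Subgroup.relIndex_eq_one]
    intro x hx
    obtain ⟨y, hy⟩ := h90 x ((MonoidHom.mem_ker).1 hx)
    exact ⟨y, hy.symm⟩
  rw [hrel, one_pow, one_mul, hE, hEtors, hGS, hGStors, htN, hScard] at hchev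
  obtain ⟨e, hTe, hidx⟩ := eq_pow_of_chevalley_count hp hchev
  -- Step 2: the map to the product of the local norm residue groups at `T`
  intro hall
  let δ : ↥(GS U loc (S : Set V)) →* (∀ v : T, X (v : V) ⧸ Nl (v : V)) :=
    MonoidHom.pi (fun v : T =>
      (QuotientGroup.mk' (Nl (v : V))).comp ((loc (v : V)).comp (GS U loc (S : Set V)).subtype))
  have hδ_apply : ∀ (c : ↥(GS U loc (S : Set V))) (v : T),
      δ c v = QuotientGroup.mk (loc (v : V) (c : G)) := fun c v => rfl
  have hδker : nm.range ≤ δ.ker := by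
    rintro _ ⟨x, rfl⟩
    rw [MonoidHom.mem_ker]
    funext v
    rw [hδ_apply]
    exact (QuotientGroup.eq_one_iff _).2 (hlocnorm x v (hTS v.2))
  have hδsurj : Function.Surjective δ := by
    intro y
    choose x hx using fun v : T => QuotientGroup.mk_surjective (y v)
    -- the idele with components `x v` at `T` and `1` elsewhere
    let xt : ∀ v, X v := fun v => if h : v ∈ T then x ⟨v, h⟩ else 1
    have hxt_mem : xt ∈ resProd U := by
      rw [mem_resProd]
      refine T.finite_toSet.subset ?_
      intro v hv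
      by_contra hvT
      apply hv
      have : xt v = 1 := dif_neg hvT
      rw [this]
      exact (U v).one_mem
    obtain ⟨d, ⟨c₀, rfl⟩, n, hn, hdn⟩ := Subgroup.mem_sup.1 (hall hxt_mem)
    obtain ⟨c₁, hc₁, hc₁'⟩ := hclass n hn
    have hnN : ∀ v, n v ∈ Nl v := (mem_NmLoc.1 hn).2
    have hcomp : ∀ v, loc v c₀ * n v = xt v := fun v => congrFun hdn v
    have hcS : c₀ * c₁ ∈ GS U loc (S : Set V) := by
      rw [mem_GS]
      intro v hv
      have hvS : v ∉ S := fun h => hv (Finset.mem_coe.2 h)
      have hvT : v ∉ T := fun h => hvS (hTS h)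
      have h1 : loc v c₀ * n v = 1 := by rw [hcomp v]; exact dif_neg hvT
      have h2 : loc v (c₀ * c₁) = (n v / loc v c₁)⁻¹ := by
        rw [map_mul, eq_inv_of_mul_eq_one_left h1]
        rw [inv_div, div_eq_mul_inv, mul_comm]
      rw [h2]
      exact (U v).inv_mem (hc₁' v hvS)
    refine ⟨⟨c₀ * c₁, hcS⟩, ?_⟩
    funext v
    rw [hδ_apply, ← hx v]
    rw [QuotientGroup.eq]
    have h1 : loc (v : V) c₀ * n (v : V) = x v := by
      rw [hcomp (v : V)]
      exact dif_pos v.2
    show (loc (v : V) (c₀ * c₁))⁻¹ * x v ∈ Nl (v : V)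
    have h2 : (loc (v : V) (c₀ * c₁))⁻¹ * x v = (loc (v : V) c₁)⁻¹ * n (v : V) := by
      rw [← h1, map_mul]
      have : (loc (v : V) c₀ * loc (v : V) c₁)⁻¹ * (loc (v : V) c₀ * n (v : V))
          = (loc (v : V) c₁)⁻¹ * n (v : V) := by
        rw [mul_inv, mul_comm (loc (v : V) c₀)⁻¹, mul_assoc, inv_mul_cancel_left]
      exact this
    rw [h2]
    exact (Nl (v : V)).mul_mem ((Nl (v : V)).inv_mem (hc₁ (v : V) (hTS v.2))) (hnN (v : V))
  -- Step 3: count
  have hQdvd : Nat.card (∀ v : T, X (v : V) ⧸ Nl (v : V)) ∣ p ^ e := by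
    have h1 : δ.ker.index ∣ nm.range.index := Subgroup.index_dvd_of_le hδker
    rw [hidx, Subgroup.index_ker, MonoidHom.range_eq_top.2 hδsurj] at h1
    rwa [Subgroup.card_top] at h1
  have hQne : Nat.card (∀ v : T, X (v : V) ⧸ Nl (v : V)) ≠ 0 := fun h0 => by
    rw [h0] at hQdvd
    exact pow_ne_zero e hp0 (Nat.eq_zero_of_zero_dvd hQdvd)
  have hQfin : Finite (∀ v : T, X (v : V) ⧸ Nl (v : V)) := Nat.finite_of_card_ne_zero hQne
  have hfac : ∀ v : T, p ≤ Nat.card (X (v : V) ⧸ Nl (v : V)) := by
    intro v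
    have : Finite (X (v : V) ⧸ Nl (v : V)) :=
      Finite.of_surjective (fun f : (∀ w : T, X (w : V) ⧸ Nl (w : V)) => f v)
        (Function.surjective_eval v)
    apply le_natCard_of_pow_eq_one p hp
    · intro q
      obtain ⟨z, rfl⟩ := QuotientGroup.mk_surjective q
      rw [← QuotientGroup.mk_pow]
      exact (QuotientGroup.eq_one_iff _).2 (hpow (v : V) (pow_mem_pPow p z))
    · by_contra hcon
      have hcon' : ∀ q : X (v : V) ⧸ Nl (v : V), q = 1 :=
        fun q => by_contra (fun h => hcon ⟨q, h⟩)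
      apply hTne (v : V) v.2
      rw [eq_top_iff]
      intro z _
      exact (QuotientGroup.eq_one_iff z).1 (hcon' (QuotientGroup.mk z))
  have hge : p ^ T.card ≤ Nat.card (∀ v : T, X (v : V) ⧸ Nl (v : V)) := by
    rw [Nat.card_pi]
    have := Finset.pow_card_le_prod (Finset.univ : Finset T)
      (fun v : T => Nat.card (X (v : V) ⧸ Nl (v : V))) p (fun v _ => hfac v)
    rwa [Finset.card_univ, Fintype.card_coe] at this
  have hle : Nat.card (∀ v : T, X (v : V) ⧸ Nl (v : V)) ≤ p ^ e :=
    Nat.le_of_dvd (pow_pos hp.pos e) hQdvd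
  have : p ^ T.card ≤ p ^ e := hge.trans hle
  rw [hTe] at this
  exact absurd ((Nat.pow_le_pow_iff_right hp.one_lt).1 this) (by omega)

end FirstInequality

end Fermat.Agent.S55.H50
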