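/-
S55 (Poitou–Tate), package C6 (first inequality), helper50.

Variants of the abstract first inequality of `FirstIneqCore.lean`:

* `firstIneq_abstract_gen`: the index of `p`-th powers in the `S`-units of the base field is an
  arbitrary power `p ^ tk` (in the finite-place idele system of helper88 the exponent is
  `#InfinitePlace + #S`);
* `exists_of_local_generators`: the class-group hypothesis `hclass` from a place-by-place
  statement in which the global element may depend on the local norm to be matched.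
-/
import Mathlib
import Fermat.Agent.S55.H50.FirstIneqCore

set_option autoImplicit false

namespace Fermat.Agent.S55.H50

open Finset

section FirstInequalityGen

open Fermat.Agent.S55.H8

variable {G : Type*} [CommGroup G] {V : Type*} {X : V → Type*} [∀ v, CommGroup (X v)]

/-- **The first inequality, abstract form** (helper8's idele-system language), general
exponents: the index of `p`-th powers in the `S`-units of the base is `p ^ tk` (so that the
archimedean places need not be places of the system).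

`S` is a finite set of places, `E` the group of `S`-units of a cyclic extension of prime degree
`p` with generator `σ`, `ι` the inclusion of the `S`-units of the base and `nm` the norm;
`Nl v` are the local norm groups.  Hypotheses: Hilbert 90 for `S`-units (`h90`), the indices
of `p`-th powers and the `p`-torsion in `E` and in the `S`-units of the base (`hE`, `hEtors`,
`hGS`, `hGStors`), the count of places (`hcount`: `T` = places of `S` with a single place above,
at which the local norm group is proper; the other `b` places have `p` places above),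
"global norms are local norms" (`hlocnorm`), "`p`-th powers are local norms" (`hpow`), and the
triviality of the `S`-class group of the extension in the form `hclass` (see
`exists_of_generators` for a criterion by generators).
Conclusion: the ideles are not generated by the principal ideles and the norm ideles. -/
theorem firstIneq_abstract_gen (p : ℕ) (hp : p.Prime) (U : ∀ v, Subgroup (X v))
    (loc : ∀ v, G →* X v) (Nl : ∀ v, Subgroup (X v)) (S : Finset V)
    {E : Type*} [CommGroup E] (σ : E →* E) (ι : ↥(GS U loc (S : Set V)) →* E)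
    (nm : E →* ↥(GS U loc (S : Set V))) (tN tk : ℕ)
    (hσ : ∀ x, σ^[p] x = x) (hι : Function.Injective ι)
    (hfix : ∀ x, σ x = x ↔ x ∈ ι.range)
    (hnm : ∀ x, ι (nm x) = ∏ j ∈ range p, σ^[j] x)
    (h90 : ∀ x, nm x = 1 → ∃ y, x = σ y / y)
    (hE : (powMonoidHom p : E →* E).range.index = p ^ tN)
    (hEtors : Nat.card (powMonoidHom p : E →* E).ker = p)
    (hGS : (powMonoidHom p : ↥(GS U loc (S : Set V)) →* ↥(GS U loc (S : Set V))).range.index
      = p ^ tk)
    (hGStors :
      Nat.card (powMonoidHom p : ↥(GS U loc (S : Set V)) →* ↥(GS U loc (S : Set V))).ker = p)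
    (hcount : ∃ (T : Finset V) (b : ℕ), T ⊆ S ∧ (∀ v ∈ T, Nl v ≠ ⊤) ∧
      tk = T.card + b ∧ tN = T.card + p * b)
    (hlocnorm : ∀ (x : E) (v : V), v ∈ S → loc v (nm x : G) ∈ Nl v)
    (hpow : ∀ v, pPow p (X v) ≤ Nl v)
    (hclass : ∀ x ∈ NmLoc U Nl, ∃ c : G, (∀ v ∈ S, loc v c ∈ Nl v) ∧
      ∀ v, v ∉ S → x v / loc v c ∈ U v) :
    ¬ (resProd U ≤ principal loc ⊔ NmLoc U Nl) := by
  classical
  obtain ⟨T, b, hTS, hTne, hScard, htN⟩ := hcount
  -- Step 1: Chevalley's count
  have hp0 : p ≠ 0 := hp.ne_zero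
  obtain ⟨hH0, -, -, -, hchev⟩ := chevalley_mul p hp σ hσ ι hι hfix nm hnm
    (by rw [hEtors]; exact hp0) (by rw [hE]; exact pow_ne_zero _ hp0)
  have hrel : (σ / MonoidHom.id E).range.relIndex nm.ker = 1 := by
    rw [Subgroup.relIndex_eq_one]
    intro x hx
    obtain ⟨y, hy⟩ := h90 x ((MonoidHom.mem_ker).1 hx)
    exact ⟨y, hy.symm⟩
  rw [hrel, one_pow, one_mul, hE, hEtors, hGS, hGStors, htN, hScard] at hchev
  obtain ⟨e, hTe, hidx⟩ := eq_pow_of_chevalley_count hp hchev
  -- Step 2: the map to the product of the local norm residue groups at `T`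
  intro hall
  let δ : ↥(GS U loc (S : Set V)) →* (∀ v : T, X (v : V) ⧸ Nl (v : V)) :=
    MonoidHom.pi (fun v : T =>
      (QuotientGroup.mk' (Nl (v : V))).comp ((loc (v : V)).comp (GS U loc (S : Set V)).subtype))
  have hδ_apply : ∀ (c : ↥(GS U loc (S : Set V))) (v : T),
      δ c v = QuotientGroup.mk (loc (v : V) (c : G)) := fun c v => rfl
  have hδker : nm.range ≤ δ.ker := by
    rintro _ ⟨x, rfl⟩
    rw [MonoidHom.mem_ker]
    funext v
    rw [hδ_apply]
    exact (QuotientGroup.eq_one_iff _).2 (hlocnorm x v (hTS v.2))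
  have hδsurj : Function.Surjective δ := by
    intro y
    choose x hx using fun v : T => QuotientGroup.mk_surjective (y v)
    -- the idele with components `x v` at `T` and `1` elsewhere
    let xt : ∀ v, X v := fun v => if h : v ∈ T then x ⟨v, h⟩ else 1
    have hxt_mem : xt ∈ resProd U := by
      rw [mem_resProd]
      refine T.finite_toSet.subset ?_
      intro v hv
      by_contra hvT
      apply hv
      have : xt v = 1 := dif_neg hvT
      rw [this]
      exact (U v).one_mem
    obtain ⟨d, ⟨c₀, rfl⟩, n, hn, hdn⟩ := Subgroup.mem_sup.1 (hall hxt_mem)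
    obtain ⟨c₁, hc₁, hc₁'⟩ := hclass n hn
    have hnN : ∀ v, n v ∈ Nl v := (mem_NmLoc.1 hn).2
    have hcomp : ∀ v, loc v c₀ * n v = xt v := fun v => congrFun hdn v
    have hcS : c₀ * c₁ ∈ GS U loc (S : Set V) := by
      rw [mem_GS]
      intro v hv
      have hvS : v ∉ S := fun h => hv (Finset.mem_coe.2 h)
      have hvT : v ∉ T := fun h => hvS (hTS h)
      have h1 : loc v c₀ * n v = 1 := by rw [hcomp v]; exact dif_neg hvT
      have h2 : loc v (c₀ * c₁) = (n v / loc v c₁)⁻¹ := by
        rw [map_mul, eq_inv_of_mul_eq_one_left h1]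
        rw [inv_div, div_eq_mul_inv, mul_comm]
      rw [h2]
      exact (U v).inv_mem (hc₁' v hvS)
    refine ⟨⟨c₀ * c₁, hcS⟩, ?_⟩
    funext v
    rw [hδ_apply, ← hx v]
    rw [QuotientGroup.eq]
    have h1 : loc (v : V) c₀ * n (v : V) = x v := by
      rw [hcomp (v : V)]
      exact dif_pos v.2
    show (loc (v : V) (c₀ * c₁))⁻¹ * x v ∈ Nl (v : V)
    have h2 : (loc (v : V) (c₀ * c₁))⁻¹ * x v = (loc (v : V) c₁)⁻¹ * n (v : V) := by
      rw [← h1, map_mul]
      have : (loc (v : V) c₀ * loc (v : V) c₁)⁻¹ * (loc (v : V) c₀ * n (v : V))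
          = (loc (v : V) c₁)⁻¹ * n (v : V) := by
        rw [mul_inv, mul_comm (loc (v : V) c₀)⁻¹, mul_assoc, inv_mul_cancel_left]
      exact this
    rw [h2]
    exact (Nl (v : V)).mul_mem ((Nl (v : V)).inv_mem (hc₁ (v : V) (hTS v.2))) (hnN (v : V))
  -- Step 3: count
  have hQdvd : Nat.card (∀ v : T, X (v : V) ⧸ Nl (v : V)) ∣ p ^ e := by
    have h1 : δ.ker.index ∣ nm.range.index := Subgroup.index_dvd_of_le hδker
    rw [hidx, Subgroup.index_ker, MonoidHom.range_eq_top.2 hδsurj] at h1
    rwa [Subgroup.card_top] at h1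
  have hQne : Nat.card (∀ v : T, X (v : V) ⧸ Nl (v : V)) ≠ 0 := fun h0 => by
    rw [h0] at hQdvd
    exact pow_ne_zero e hp0 (Nat.eq_zero_of_zero_dvd hQdvd)
  have hQfin : Finite (∀ v : T, X (v : V) ⧸ Nl (v : V)) := Nat.finite_of_card_ne_zero hQne
  have hfac : ∀ v : T, p ≤ Nat.card (X (v : V) ⧸ Nl (v : V)) := by
    intro v
    have : Finite (X (v : V) ⧸ Nl (v : V)) :=
      Finite.of_surjective (fun f : (∀ w : T, X (w : V) ⧸ Nl (w : V)) => f v)
        (Function.surjective_eval v)
    apply le_natCard_of_pow_eq_one p hp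
    · intro q
      obtain ⟨z, rfl⟩ := QuotientGroup.mk_surjective q
      rw [← QuotientGroup.mk_pow]
      exact (QuotientGroup.eq_one_iff _).2 (hpow (v : V) (pow_mem_pPow p z))
    · by_contra hcon
      have hcon' : ∀ q : X (v : V) ⧸ Nl (v : V), q = 1 :=
        fun q => by_contra (fun h => hcon ⟨q, h⟩)
      apply hTne (v : V) v.2
      rw [eq_top_iff]
      intro z _
      exact (QuotientGroup.eq_one_iff z).1 (hcon' (QuotientGroup.mk z))
  have hge : p ^ T.card ≤ Nat.card (∀ v : T, X (v : V) ⧸ Nl (v : V)) := by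
    rw [Nat.card_pi]
    have := Finset.pow_card_le_prod (Finset.univ : Finset T)
      (fun v : T => Nat.card (X (v : V) ⧸ Nl (v : V))) p (fun v _ => hfac v)
    rwa [Finset.card_univ, Fintype.card_coe] at this
  have hle : Nat.card (∀ v : T, X (v : V) ⧸ Nl (v : V)) ≤ p ^ e :=
    Nat.le_of_dvd (pow_pos hp.pos e) hQdvd
  have : p ^ T.card ≤ p ^ e := hge.trans hle
  rw [hTe] at this
  exact absurd ((Nat.pow_le_pow_iff_right hp.one_lt).1 this) (by omega)

/-- A criterion for the hypothesis `hclass` of `firstIneq_abstract_gen`: for every place `v`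
outside `S` and every local norm `x` at `v` there is a global element `c` which is a local norm
at the places of `S`, a unit at the places outside `S ∪ {v}`, and equal to `x` at `v` up to a
local unit. -/
theorem exists_of_local_generators (U : ∀ v, Subgroup (X v)) (loc : ∀ v, G →* X v)
    (Nl : ∀ v, Subgroup (X v)) (S : Finset V)
    (hgen : ∀ v, v ∉ S → ∀ x ∈ Nl v, ∃ c : G, (∀ v' ∈ S, loc v' c ∈ Nl v') ∧
      (∀ v', v' ∉ S → v' ≠ v → loc v' c ∈ U v') ∧ x / loc v c ∈ U v) :
    ∀ x ∈ NmLoc U Nl, ∃ c : G, (∀ v ∈ S, loc v c ∈ Nl v) ∧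
      ∀ v, v ∉ S → x v / loc v c ∈ U v := by
  classical
  intro x hx
  obtain ⟨hxres, hxN⟩ := mem_NmLoc.1 hx
  have hfin : {v | x v ∉ U v}.Finite := mem_resProd.1 hxres
  set Tx : Finset V := hfin.toFinset.filter (fun v => v ∉ S) with hTx
  have hmemTx : ∀ v, v ∈ Tx ↔ x v ∉ U v ∧ v ∉ S := by
    intro v
    rw [hTx, Finset.mem_filter, Set.Finite.mem_toFinset]
    rfl
  have hex : ∀ v, ∃ c : G, v ∉ S → ((∀ v' ∈ S, loc v' c ∈ Nl v') ∧
      (∀ v', v' ∉ S → v' ≠ v → loc v' c ∈ U v') ∧ x v / loc v c ∈ U v) := by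
    intro v
    by_cases hv : v ∉ S
    · obtain ⟨c, hc⟩ := hgen v hv (x v) (hxN v)
      exact ⟨c, fun _ => hc⟩
    · exact ⟨1, fun h => absurd h hv⟩
  choose cc hcc using hex
  refine ⟨∏ v ∈ Tx, cc v, ?_, ?_⟩
  · intro v' hv'
    rw [map_prod]
    exact Subgroup.prod_mem _ (fun v hv => (hcc v ((hmemTx v).1 hv).2).1 v' hv')
  · intro v₀ hv₀
    rw [map_prod]
    by_cases h0 : v₀ ∈ Tx
    · rw [← Finset.mul_prod_erase Tx _ h0, ← div_div]
      refine (U v₀).div_mem (hcc v₀ hv₀).2.2 (Subgroup.prod_mem _ ?_)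
      intro v hv
      have hvTx : v ∈ Tx := Finset.mem_of_mem_erase hv
      exact (hcc v ((hmemTx v).1 hvTx).2).2.1 v₀ hv₀ (Finset.ne_of_mem_erase hv).symm
    · have hxU : x v₀ ∈ U v₀ := by
        by_contra hcon
        exact h0 ((hmemTx v₀).2 ⟨hcon, hv₀⟩)
      refine (U v₀).div_mem hxU (Subgroup.prod_mem _ ?_)
      intro v hv
      exact (hcc v ((hmemTx v).1 hv).2).2.1 v₀ hv₀ (fun h => h0 (h ▸ hv))

end FirstInequalityGen

end Fermat.Agent.S55.H50
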