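/-
S55 (Poitou–Tate), package C6 (first inequality), helper50: LEAF STATEMENTS and ASSEMBLY.

Model: helper88's embedding model (`H88/SemiLocalDefs`, `H88/SemiLocalSpec`): finite places
`FinPlace K` of a number field, completions `v.field`, the finite-place idele system
`finX K`, `finU K`, `finLoc K` in helper8's `KummerDefs` language, and helper8's local Kummer norm
groups `H8.kummerNormGroup`.

EXPORT (`FirstIneqStatement`): for a number field `k ∋ μ_p`, `p` an odd prime, and `g ∈ kˣ`
not a `p`-th power, the ideles of `k` are NOT generated by the principal ideles and the ideles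
that are everywhere local norms from `k(g^{1/p})`.

Every leaf is a closed `Prop` (`…Statement`); the assembly `firstIneqStatement_of_leaves` derives
the export from the leaves and the landed abstract core `firstIneq_abstract_gen`.
-/
import Mathlib
import Fermat.Agent.S55.H50.FirstIneqGen
import Fermat.Agent.S55.H8.NormGroup
import Fermat.Agent.S55.H83.KummerNormH8
import Fermat.Agent.S55.H88.SemiLocalSpec

set_option autoImplicit false

open NumberField

noncomputable section

namespace Fermat.Agent.S55.H50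

open Fermat.Agent.S55.H8 Fermat.Agent.S55.H88

universe u

/-- (Local instance, as in `H88/SemiLocalSpec`.) -/
local instance factOfPrimes' (q : Nat.Primes) : Fact (q : ℕ).Prime := ⟨q.2⟩

/-! ### Definitions -/

section Defs

/-- The local Kummer norm groups of `k(g^{1/p}) / k` at the finite places of `k`. -/
def kNl (k : Type u) [Field k] (p : ℕ) (g : kˣ) (v : FinPlace k) : Subgroup (finX k v) :=
  kummerNormGroup p (((finLoc k v g : finX k v)) : v.field)

/-- Restriction of finite places along `k → N`. -/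
def finRestrict (k N : Type u) [Field k] [Field N] [Algebra k N] (w : FinPlace N) : FinPlace k :=
  ⟨w.1, PlaceAbove.restrict (w.1 : ℕ) k N w.2⟩

/-- The finite places of `N` above a set of finite places of `k`. -/
def placesOver (k N : Type u) [Field k] [Field N] [Algebra k N] (S : Finset (FinPlace k)) :
    Set (FinPlace N) :=
  {w | finRestrict k N w ∈ S}

/-- The `S`-units of `k` (units outside the finite set `S` of finite places). -/
def sUnitsBase (k : Type u) [Field k] (S : Finset (FinPlace k)) : Subgroup kˣ :=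
  GS (finU k) (finLoc k) (S : Set (FinPlace k))

/-- The `S`-units of `N` (units outside the places above `S`). -/
def sUnitsTop (k N : Type u) [Field k] [Field N] [Algebra k N] (S : Finset (FinPlace k)) :
    Subgroup Nˣ :=
  GS (finU N) (finLoc N) (placesOver k N S)

/-- A Kummer layer `N = k(α)`, `α^p = g`, Galois of degree `p` with generator `σ`. -/
structure KummerLayer (k N : Type u) [Field k] [Field N] [Algebra k N] (p : ℕ) (g : kˣ) where
  /-- a `p`-th root of `g` -/
  α : N
  /-- a generator of the Galois group -/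
  σ : N ≃ₐ[k] N
  root : α ^ p = algebraMap k N (g : k)
  finrank_eq : Module.finrank k N = p
  isGalois : IsGalois k N
  gen : ∀ τ : N ≃ₐ[k] N, τ ∈ Subgroup.zpowers σ

end Defs

/-! ### The export -/

/-- **C6 export: the first inequality** for `k(g^{1/p}) / k` in the finite-place idele system. -/
def FirstIneqStatement : Prop :=
  ∀ (k : Type u) [Field k] [NumberField k] (p : ℕ), p.Prime → p ≠ 2 →
    ∀ ζ : k, IsPrimitiveRoot ζ p → ∀ g : kˣ, g ∉ pPow p kˣ →
      ¬ (resProd (finU k) ≤ principal (finLoc k) ⊔ NmLoc (finU k) (kNl k p g))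

/-! ### The leaves -/

/-- (KEX) The Kummer extension exists as a number field. -/
def KummerLayerExistsStatement : Prop :=
  ∀ (k : Type u) [Field k] [NumberField k] (p : ℕ), p.Prime →
    ∀ ζ : k, IsPrimitiveRoot ζ p → ∀ g : kˣ, g ∉ pPow p kˣ →
      ∃ (N : Type u) (_ : Field N) (_ : NumberField N) (_ : Algebra k N),
        Nonempty (KummerLayer k N p g)

/-- (STRUCT) The `S`-units of `N` are stable under the Galois group, contain exactly the
`S`-units of `k` among the elements of `kˣ`, and have norms in the `S`-units of `k`. -/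
def SUnitStructStatement : Prop :=
  ∀ (k N : Type u) [Field k] [NumberField k] [Field N] [NumberField N] [Algebra k N]
    [IsGalois k N] (S : Finset (FinPlace k)),
    (∀ (σ : N ≃ₐ[k] N) (x : Nˣ), x ∈ sUnitsTop k N S →
      Units.map (σ : N →* N) x ∈ sUnitsTop k N S) ∧
    (∀ c : kˣ, c ∈ sUnitsBase k S ↔
      Units.map (algebraMap k N : k →* N) c ∈ sUnitsTop k N S) ∧
    (∀ x : Nˣ, x ∈ sUnitsTop k N S →
      Units.map (Algebra.norm k : N →* k) x ∈ sUnitsBase k S)

/-- (H90S) Hilbert 90 for `S`-units, `S` large (trivial `S`-class group of `k`, and `N / k`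
unramified outside `S`). -/
def SUnitHilbert90Statement : Prop :=
  ∀ (k N : Type u) [Field k] [NumberField k] [Field N] [NumberField N] [Algebra k N] (p : ℕ),
    p.Prime → ∀ (g : kˣ) (L : KummerLayer k N p g),
    ∃ S₀ : Finset (FinPlace k), ∀ S : Finset (FinPlace k), S₀ ⊆ S →
      ∀ x : Nˣ, x ∈ sUnitsTop k N S → Algebra.norm k (x : N) = 1 →
        ∃ y : Nˣ, y ∈ sUnitsTop k N S ∧ (x : N) = L.σ (y : N) / (y : N)

/-- (INDEX) The index of `p`-th powers and the `p`-torsion of the `S`-units of `N` and of `k`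
(`S`-unit theorem, `μ_p ⊆ k`). -/
def SUnitIndexStatement : Prop :=
  ∀ (k N : Type u) [Field k] [NumberField k] [Field N] [NumberField N] [Algebra k N] (p : ℕ),
    p.Prime → ∀ ζ : k, IsPrimitiveRoot ζ p → ∀ S : Finset (FinPlace k),
    (powMonoidHom p : ↥(sUnitsTop k N S) →* ↥(sUnitsTop k N S)).range.index
        = p ^ (Nat.card (InfinitePlace N) + Nat.card (placesOver k N S)) ∧
    Nat.card (powMonoidHom p : ↥(sUnitsTop k N S) →* ↥(sUnitsTop k N S)).ker = p ∧
    (powMonoidHom p : ↥(sUnitsBase k S) →* ↥(sUnitsBase k S)).range.index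
        = p ^ (Nat.card (InfinitePlace k) + S.card) ∧
    Nat.card (powMonoidHom p : ↥(sUnitsBase k S) →* ↥(sUnitsBase k S)).ker = p

/-- (COUNT) The count of places: the places of `S` with a single place of `N` above form a set
`T` on which the local norm group is proper; the remaining places of `S` and the archimedean
places have `p` places above. -/
def PlaceCountKummerStatement : Prop :=
  ∀ (k N : Type u) [Field k] [NumberField k] [Field N] [NumberField N] [Algebra k N] (p : ℕ),
    p.Prime → p ≠ 2 → ∀ ζ : k, IsPrimitiveRoot ζ p → ∀ g : kˣ, g ∉ pPow p kˣ →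
    ∀ (_ : KummerLayer k N p g) (S : Finset (FinPlace k)),
    ∃ (T : Finset (FinPlace k)) (b : ℕ), T ⊆ S ∧ (∀ v ∈ T, kNl k p g v ≠ ⊤) ∧
      Nat.card (InfinitePlace k) + S.card = T.card + b ∧
      Nat.card (InfinitePlace N) + Nat.card (placesOver k N S) = T.card + p * b

/-- (LOCNORM) A global norm is a local norm at every finite place. -/
def GlobalNormLocalStatement : Prop :=
  ∀ (k N : Type u) [Field k] [NumberField k] [Field N] [NumberField N] [Algebra k N] (p : ℕ),
    p.Prime → ∀ g : kˣ, g ∉ pPow p kˣ → ∀ (_ : KummerLayer k N p g) (x : Nˣ) (v : FinPlace k),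
    finLoc k v (Units.map (Algebra.norm k : N →* k) x) ∈ kNl k p g v

/-- (CLASS) For `S` large (trivial `S`-class groups of `k` and `N`, `S ⊇` the places above `p`
and the places where `g` is not a unit): every idele of `k` which is everywhere a local norm
agrees outside `S`, up to units, with a global element that is a local norm at the places
of `S`. -/
def SClassStatement : Prop :=
  ∀ (k N : Type u) [Field k] [NumberField k] [Field N] [NumberField N] [Algebra k N] (p : ℕ),
    p.Prime → p ≠ 2 → ∀ ζ : k, IsPrimitiveRoot ζ p → ∀ g : kˣ, g ∉ pPow p kˣ →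
    ∀ (_ : KummerLayer k N p g),
    ∃ S₁ : Finset (FinPlace k), ∀ S : Finset (FinPlace k), S₁ ⊆ S →
      ∀ x ∈ NmLoc (finU k) (kNl k p g), ∃ c : kˣ,
        (∀ v ∈ S, finLoc k v c ∈ kNl k p g v) ∧
        ∀ v, v ∉ S → x v / finLoc k v c ∈ finU k v

/-! ### Assembly -/

section Assembly

/-- The Galois group of a cyclic extension of degree `p` with generator `σ`, enumerated by the
powers of `σ`. -/
theorem prod_aut_eq_prod_pow {k N : Type u} [Field k] [Field N] [Algebra k N]
    [FiniteDimensional k N] (σ : N ≃ₐ[k] N) (hgen : ∀ τ : N ≃ₐ[k] N, τ ∈ Subgroup.zpowers σ)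
    (p : ℕ) (hcard : Nat.card (N ≃ₐ[k] N) = p) (x : N) :
    ∏ τ : N ≃ₐ[k] N, τ x = ∏ j ∈ Finset.range p, (σ ^ j) x := by
  classical
  have hord : orderOf σ = p := by
    rw [orderOf_eq_card_of_forall_mem_zpowers hgen, hcard]
  have hinj : Set.InjOn (fun j : ℕ => σ ^ j) (Finset.range p : Set ℕ) := by
    intro a ha b hb hab
    rw [Finset.coe_range, ← hord] at ha hb
    exact pow_injOn_Iio_orderOf ha hb hab
  have himg : (Finset.range p).image (fun j : ℕ => σ ^ j) = Finset.univ := by
    apply Finset.eq_univ_of_card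
    rw [Finset.card_image_of_injOn hinj, Finset.card_range, ← Nat.card_eq_fintype_card, hcard]
  rw [← himg, Finset.prod_image hinj]

/-- **C6 assembly**: the first inequality from the leaves. -/
theorem firstIneqStatement_of_leaves
    (hKEX : KummerLayerExistsStatement.{u}) (hST : SUnitStructStatement.{u})
    (hH90 : SUnitHilbert90Statement.{u}) (hIDX : SUnitIndexStatement.{u})
    (hCNT : PlaceCountKummerStatement.{u}) (hLN : GlobalNormLocalStatement.{u})
    (hCL : SClassStatement.{u}) : FirstIneqStatement.{u} := by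
  classical
  intro k _ _ p hp hp2 ζ hζ g hg
  obtain ⟨N, _, _, _, ⟨L⟩⟩ := hKEX k p hp ζ hζ g hg
  obtain ⟨S₀, hS₀⟩ := hH90 k N p hp g L
  obtain ⟨S₁, hS₁⟩ := hCL k N p hp hp2 ζ hζ g hg L
  set S : Finset (FinPlace k) := S₀ ∪ S₁ with hS
  have : IsGalois k N := L.isGalois
  obtain ⟨hst1, hst2, hst3⟩ := hST k N S
  obtain ⟨hE, hEt, hG, hGt⟩ := hIDX k N p hp ζ hζ S
  obtain ⟨T, b, hTS, hTne, hc1, hc2⟩ := hCNT k N p hp hp2 ζ hζ g hg L S
  have : FiniteDimensional k N :=
    Module.finite_of_finrank_pos (by rw [L.finrank_eq]; exact hp.pos)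
  have hcard : Nat.card (N ≃ₐ[k] N) = p := by
    rw [IsGalois.card_aut_eq_finrank, L.finrank_eq]
  have hσp : L.σ ^ p = 1 := by
    have h := pow_card_eq_one' (x := L.σ)
    rwa [hcard] at h
  -- the three maps
  let σE : ↥(sUnitsTop k N S) →* ↥(sUnitsTop k N S) :=
    ((Units.map (L.σ : N →* N)).comp (sUnitsTop k N S).subtype).codRestrict (sUnitsTop k N S)
      (fun x => hst1 L.σ x x.2)
  let ιE : ↥(sUnitsBase k S) →* ↥(sUnitsTop k N S) :=
    ((Units.map (algebraMap k N : k →* N)).comp (sUnitsBase k S).subtype).codRestrict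
      (sUnitsTop k N S) (fun c => (hst2 c).1 c.2)
  let nmE : ↥(sUnitsTop k N S) →* ↥(sUnitsBase k S) :=
    ((Units.map (Algebra.norm k : N →* k)).comp (sUnitsTop k N S).subtype).codRestrict
      (sUnitsBase k S) (fun x => hst3 x x.2)
  have hσE : ∀ x : ↥(sUnitsTop k N S), (((σE x : ↥(sUnitsTop k N S)) : Nˣ) : N)
      = L.σ ((x : Nˣ) : N) := fun x => rfl
  have hιE : ∀ c : ↥(sUnitsBase k S), (((ιE c : ↥(sUnitsTop k N S)) : Nˣ) : N)
      = algebraMap k N ((c : kˣ) : k) := fun c => rfl
  have hnmE : ∀ x : ↥(sUnitsTop k N S), (((nmE x : ↥(sUnitsBase k S)) : kˣ) : k)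
      = Algebra.norm k ((x : Nˣ) : N) := fun x => rfl
  have hiter : ∀ (n : ℕ) (x : ↥(sUnitsTop k N S)),
      (((σE^[n] x : ↥(sUnitsTop k N S)) : Nˣ) : N) = (L.σ ^ n) ((x : Nˣ) : N) := by
    intro n
    induction n with
    | zero => intro x; rfl
    | succ n ih =>
      intro x
      rw [Function.iterate_succ_apply', hσE, ih, pow_succ', AlgEquiv.mul_apply]
  refine firstIneq_abstract_gen p hp (finU k) (finLoc k) (kNl k p g) S σE ιE nmE
    (Nat.card (InfinitePlace N) + Nat.card (placesOver k N S))
    (Nat.card (InfinitePlace k) + S.card) ?_ ?_ ?_ ?_ ?_ hE hEt hG hGt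
    ⟨T, b, hTS, hTne, hc1, hc2⟩ ?_ ?_ ?_
  · -- `σ^p = 1`
    intro x
    apply Subtype.ext
    apply Units.ext
    rw [hiter, hσp]
    rfl
  · -- `ι` injective
    intro a c hac
    apply Subtype.ext
    apply Units.ext
    apply (algebraMap k N).injective
    have := congrArg (fun z : ↥(sUnitsTop k N S) => ((z : Nˣ) : N)) hac
    exact this
  · -- fixed points
    intro x
    constructor
    · intro hx
      have hx' : L.σ ((x : Nˣ) : N) = ((x : Nˣ) : N) := by
        rw [← hσE, hx]
      have hall : ∀ τ : N ≃ₐ[k] N, τ ((x : Nˣ) : N) = ((x : Nˣ) : N) := by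
        intro τ
        have hle : Subgroup.zpowers L.σ ≤ MulAction.stabilizer (N ≃ₐ[k] N) (((x : Nˣ) : N)) := by
          rw [Subgroup.zpowers_le]
          exact hx'
        exact hle (L.gen τ)
      obtain ⟨c, hc⟩ := (IsGalois.mem_range_algebraMap_iff_fixed ((x : Nˣ) : N)).2 hall
      have hc0 : c ≠ 0 := by
        rintro rfl
        rw [map_zero] at hc
        exact (x : Nˣ).ne_zero hc.symm
      have hmem : Units.map (algebraMap k N : k →* N) (Units.mk0 c hc0) ∈ sUnitsTop k N S := by
        have : Units.map (algebraMap k N : k →* N) (Units.mk0 c hc0) = (x : Nˣ) :=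
          Units.ext hc
        rw [this]
        exact x.2
      refine ⟨⟨Units.mk0 c hc0, (hst2 _).2 hmem⟩, ?_⟩
      apply Subtype.ext
      apply Units.ext
      exact hc
    · rintro ⟨c, rfl⟩
      apply Subtype.ext
      apply Units.ext
      show L.σ (algebraMap k N ((c : kˣ) : k)) = algebraMap k N ((c : kˣ) : k)
      exact L.σ.commutes _
  · -- the norm
    intro x
    apply Subtype.ext
    apply Units.ext
    have hprod : (((∏ j ∈ Finset.range p, σE^[j] x : ↥(sUnitsTop k N S)) : Nˣ) : N)
        = ∏ j ∈ Finset.range p, (L.σ ^ j) ((x : Nˣ) : N) := by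
      rw [Subgroup.val_finsetProd, Units.coe_prod]
      exact Finset.prod_congr rfl (fun j _ => hiter j x)
    have hnorm : algebraMap k N (Algebra.norm k ((x : Nˣ) : N))
        = ∏ j ∈ Finset.range p, (L.σ ^ j) ((x : Nˣ) : N) := by
      rw [Algebra.norm_eq_prod_automorphisms]
      exact prod_aut_eq_prod_pow L.σ L.gen p hcard _
    exact hnorm.trans hprod.symm
  · -- Hilbert 90
    intro x hx
    have hx1 : Algebra.norm k ((x : Nˣ) : N) = 1 := by
      have h := congrArg (fun z : ↥(sUnitsBase k S) => ((z : kˣ) : k)) hx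
      exact h
    obtain ⟨y, hy, hxy⟩ := hS₀ S Finset.subset_union_left (x : Nˣ) x.2 hx1
    refine ⟨⟨y, hy⟩, ?_⟩
    apply Subtype.ext
    apply Units.ext
    have hdiv : (((σE ⟨y, hy⟩ / ⟨y, hy⟩ : ↥(sUnitsTop k N S)) : Nˣ) : N)
        = L.σ (y : N) / (y : N) := by
      rw [Subgroup.coe_div, Units.val_div_eq_div_val]
      rfl
    exact hxy.trans hdiv.symm
  · -- global norms are local norms
    intro x v _
    exact hLN k N p hp g hg L (x : Nˣ) v
  · -- `p`-th powers are local norms
    rintro v _ ⟨y, rfl⟩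
    exact Fermat.Agent.S55.H83.powLeNormStatement p hp v.field _ y
  · -- class group
    exact hS₁ S Finset.subset_union_right

end Assembly

end Fermat.Agent.S55.H50
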