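/-
S55 (Poitou–Tate), package C6 (first inequality), helper50: SECOND-LEVEL leaf statements for
the leaves (COUNT) and (CLASS) of `FirstIneqSpec.lean`, with the compiled assemblies
`placeCountKummerStatement_of` and `sClassStatement_of`, and the adapter for (KEX).

Notation: `τ_v = v.emb : k →+* PadicAlgCl q`, `F_v = v.field = ℚ_q(τ_v k)`.
-/
import Mathlib
import Fermat.Agent.S55.H50.FirstIneqSpec
import Fermat.Agent.S55.H73.KummerLayer

set_option autoImplicit false

open NumberField

noncomputable section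

namespace Fermat.Agent.S55.H50

open Fermat.Agent.S55.H8 Fermat.Agent.S55.H88

universe u

attribute [local instance] factOfPrimes'

/-- (KEX), from helper73's landed `exists_kummerLayer`. -/
theorem kummerLayerExistsStatement : KummerLayerExistsStatement.{u} :=
  fun k _ _ p hp ζ hζ g hg => by
    obtain ⟨N, i1, i2, i3, α, σ, h1, h2, h3, h4⟩ :=
      Fermat.Agent.S55.H73.exists_kummerLayer k p hp ζ hζ g hg
    exact ⟨N, i1, i2, i3, ⟨⟨α, σ, h1, h2, h3, h4⟩⟩⟩

/-! ### Definitions -/

/-- `g` is a `p`-th power in the completion at `v` ("`v` splits in `k(g^{1/p})`"). -/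
def IsLocalPow (k : Type u) [Field k] (p : ℕ) (g : kˣ) (v : FinPlace k) : Prop :=
  ∃ c : v.field, c ^ p = ((finLoc k v g : finX k v) : v.field)

/-- The places of `N` above a place `v` of `k`. -/
def fiberOver (k N : Type u) [Field k] [Field N] [Algebra k N] (v : FinPlace k) : Type u :=
  {w : FinPlace N // finRestrict k N w = v}

/-! ### Sub-leaves of (COUNT) -/

/-- (LNN) Local first inequality: if `g` is not a local `p`-th power at `v`, the local Kummer
norm group is proper.  (C3 `LeafNormIndex` for the cyclic extension `F_v(g^{1/p}) / F_v` of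
degree `p`, and helper83's field model `kummerNormGroup_eq_range_norm_of_not_pow`.) -/
def LocalNonNormStatement : Prop :=
  ∀ (k : Type u) [Field k] [NumberField k] (p : ℕ), p.Prime →
    ∀ ζ : k, IsPrimitiveRoot ζ p → ∀ (g : kˣ) (v : FinPlace k),
      ¬ IsLocalPow k p g v → kNl k p g v ≠ ⊤

/-- (FIBER) A place of `k` has one or `p` places of `N` above it, and `p` of them if `g` is a
local `p`-th power.  (C5 (C4) `PlaceCountStatement`; if `τ_v g = c^p` the `p` extensions
`α ↦ ζ^i c` of `τ_v` to `N` are pairwise non-conjugate under `Gal(PadicAlgCl q / ℚ_q)`, because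
an automorphism fixing `τ_v k` fixes `F_v ∋ ζ^i c`.) -/
def FiberCountStatement : Prop :=
  ∀ (k N : Type u) [Field k] [NumberField k] [Field N] [NumberField N] [Algebra k N] (p : ℕ),
    p.Prime → ∀ ζ : k, IsPrimitiveRoot ζ p → ∀ g : kˣ, g ∉ pPow p kˣ →
    ∀ (_ : KummerLayer k N p g) (v : FinPlace k),
      (Nat.card (fiberOver k N v) = 1 ∨ Nat.card (fiberOver k N v) = p) ∧
      (IsLocalPow k p g v → Nat.card (fiberOver k N v) = p)

/-- (SUMFIBER) The places above a finite set `S`, counted fibrewise. -/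
def SumFiberStatement : Prop :=
  ∀ (k N : Type u) [Field k] [NumberField k] [Field N] [NumberField N] [Algebra k N]
    (S : Finset (FinPlace k)),
    Nat.card (placesOver k N S) = ∑ v ∈ S, Nat.card (fiberOver k N v)

/-- (INFCOUNT) `k ∋ μ_p`, `p` odd, is totally complex, so each archimedean place of `k` has
`p` places of `N` above it. -/
def InfinitePlaceCountStatement : Prop :=
  ∀ (k N : Type u) [Field k] [NumberField k] [Field N] [NumberField N] [Algebra k N] (p : ℕ),
    p.Prime → p ≠ 2 → ∀ ζ : k, IsPrimitiveRoot ζ p → Module.finrank k N = p →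
      Nat.card (InfinitePlace N) = p * Nat.card (InfinitePlace k)

/-- (COUNT) from its sub-leaves. -/
theorem placeCountKummerStatement_of (hLNN : LocalNonNormStatement.{u})
    (hFIB : FiberCountStatement.{u}) (hSUM : SumFiberStatement.{u})
    (hINF : InfinitePlaceCountStatement.{u}) : PlaceCountKummerStatement.{u} := by
  classical
  intro k N _ _ _ _ _ p hp hp2 ζ hζ g hg L S
  set T : Finset (FinPlace k) := S.filter (fun v => Nat.card (fiberOver k N v) = 1) with hT
  have hTS : T ⊆ S := Finset.filter_subset _ _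
  have hle : T.card ≤ S.card := Finset.card_le_card hTS
  refine ⟨T, Nat.card (InfinitePlace k) + (S.card - T.card), hTS, ?_, by omega, ?_⟩
  · intro v hv
    have h1 : Nat.card (fiberOver k N v) = 1 := (Finset.mem_filter.1 hv).2
    apply hLNN k p hp ζ hζ g v
    intro hpow
    have h2 := (hFIB k N p hp ζ hζ g hg L v).2 hpow
    rw [h1] at h2
    exact hp.one_lt.ne h2
  · rw [hINF k N p hp hp2 ζ hζ L.finrank_eq, hSUM k N S]
    have hsplit : ∑ v ∈ S, Nat.card (fiberOver k N v)
        = ∑ v ∈ T, Nat.card (fiberOver k N v) + ∑ v ∈ S \ T, Nat.card (fiberOver k N v) :=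
      (Finset.sum_sdiff hTS).symm.trans (add_comm _ _)
    have h1 : ∑ v ∈ T, Nat.card (fiberOver k N v) = T.card := by
      rw [Finset.card_eq_sum_ones]
      exact Finset.sum_congr rfl (fun v hv => (Finset.mem_filter.1 hv).2)
    have h2 : ∑ v ∈ S \ T, Nat.card (fiberOver k N v) = p * (S.card - T.card) := by
      have : ∀ v ∈ S \ T, Nat.card (fiberOver k N v) = p := by
        intro v hv
        obtain ⟨hvS, hvT⟩ := Finset.mem_sdiff.1 hv
        rcases (hFIB k N p hp ζ hζ g hg L v).1 with h | h
        · exact absurd (Finset.mem_filter.2 ⟨hvS, h⟩) hvT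
        · exact h
      rw [Finset.sum_congr rfl this, Finset.sum_const, Finset.card_sdiff_of_subset hTS,
        smul_eq_mul, mul_comm]
    rw [hsplit, h1, h2]
    ring

/-! ### Sub-leaves of (CLASS) -/

/-- (CL-SPLIT) For `S` large and `v ∉ S` at which `g` is a local `p`-th power, every element of
`F_vˣ` agrees up to a unit with a global element which is a local norm at `S` and a unit
outside `S ∪ {v}`.  (Take the norm of an element `b ∈ Nˣ` given by the class number statement
for `N` at one of the `p` places above `v`; (LOCNORM), (C6) `NormProd`.) -/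
def ClassSplitStatement : Prop :=
  ∀ (k N : Type u) [Field k] [NumberField k] [Field N] [NumberField N] [Algebra k N] (p : ℕ),
    p.Prime → p ≠ 2 → ∀ ζ : k, IsPrimitiveRoot ζ p → ∀ g : kˣ, g ∉ pPow p kˣ →
    ∀ (_ : KummerLayer k N p g),
    ∃ S₁ : Finset (FinPlace k), ∀ S : Finset (FinPlace k), S₁ ⊆ S →
      ∀ v, v ∉ S → IsLocalPow k p g v → ∀ x : finX k v, ∃ c : kˣ,
        (∀ v' ∈ S, finLoc k v' c ∈ kNl k p g v') ∧
        (∀ v', v' ∉ S → v' ≠ v → finLoc k v' c ∈ finU k v') ∧ x / finLoc k v c ∈ finU k v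

/-- (CL-NONSPLIT) For `S` large and `v ∉ S` at which `g` is not a local `p`-th power, every
local norm at `v` agrees up to a unit with a global `p`-th power which is a unit outside
`S ∪ {v}`.  (`kNl v = U_v · F_v^p`: it contains `U_v` since `v ∤ p` and `g` is a unit at `v`, it
is proper by (LNN), and `F_vˣ / U_v F_v^p` has order `p`; class number statement for `k`.) -/
def ClassNonsplitStatement : Prop :=
  ∀ (k : Type u) [Field k] [NumberField k] (p : ℕ),
    p.Prime → p ≠ 2 → ∀ ζ : k, IsPrimitiveRoot ζ p → ∀ g : kˣ, g ∉ pPow p kˣ →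
    ∃ S₁ : Finset (FinPlace k), ∀ S : Finset (FinPlace k), S₁ ⊆ S →
      ∀ v, v ∉ S → ¬ IsLocalPow k p g v → ∀ x ∈ kNl k p g v, ∃ c : kˣ,
        (∀ v' ∈ S, finLoc k v' c ∈ kNl k p g v') ∧
        (∀ v', v' ∉ S → v' ≠ v → finLoc k v' c ∈ finU k v') ∧ x / finLoc k v c ∈ finU k v

/-- (CLASS) from its sub-leaves. -/
theorem sClassStatement_of (hSP : ClassSplitStatement.{u}) (hNS : ClassNonsplitStatement.{u}) :
    SClassStatement.{u} := by
  classical
  intro k N _ _ _ _ _ p hp hp2 ζ hζ g hg L
  obtain ⟨Sa, hSa⟩ := hSP k N p hp hp2 ζ hζ g hg L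
  obtain ⟨Sb, hSb⟩ := hNS k p hp hp2 ζ hζ g hg
  refine ⟨Sa ∪ Sb, fun S hS => ?_⟩
  have hSa' : Sa ⊆ S := Finset.union_subset_left hS
  have hSb' : Sb ⊆ S := Finset.union_subset_right hS
  apply exists_of_local_generators
  intro v hv x hx
  by_cases hpow : IsLocalPow k p g v
  · exact hSa S hSa' v hv hpow x
  · exact hSb S hSb' v hv hpow x hx

end Fermat.Agent.S55.H50
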