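/-
S55 (Poitou–Tate), package C6 (first inequality), helper50: leaf (LOCNORM), algebraic core.

A global norm from `N = k(g^{1/p})` is a local norm at every finite place: for a ring
homomorphism `φ : k → F` of fields, the norm of `F[X]/(X^p - φ g)` over `F` restricted along
`k[X]/(X^p - g) → F[X]/(X^p - φ g)` is `φ ∘ norm`.

Pure algebra (Mathlib + the shared norm group `H8.kummerNormGroup` + helper83's field model).
-/
import Mathlib
import Fermat.Agent.S55.H83.KummerNormH8

set_option autoImplicit false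

open Polynomial

noncomputable section

namespace Fermat.Agent.S55.H50

section BaseChange

variable {R S A B ι : Type*} [CommRing R] [CommRing S] [CommRing A] [CommRing B]
  [Algebra R A] [Algebra S B] [Fintype ι] [DecidableEq ι]

/-- Base change of the norm along a semilinear ring homomorphism matching two bases. -/
theorem norm_map_of_basis (φ : R →+* S) (Φ : A →+* B) (bA : Module.Basis ι R A)
    (bB : Module.Basis ι S B) (hsmul : ∀ (r : R) (a : A), Φ (r • a) = φ r • Φ a)
    (hb : ∀ i, Φ (bA i) = bB i) (a : A) :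
    Algebra.norm S (Φ a) = φ (Algebra.norm R a) := by
  have hrepr : ∀ (y : A) (i : ι), bB.repr (Φ y) i = φ (bA.repr y i) := by
    intro y i
    have hy : Φ y = ∑ l, φ (bA.repr y l) • bB l := by
      conv_lhs => rw [← bA.sum_repr y]
      rw [map_sum]
      exact Finset.sum_congr rfl (fun l _ => by rw [hsmul, hb])
    rw [hy, Module.Basis.repr_sum_self]
  rw [Algebra.norm_eq_matrix_det bB, Algebra.norm_eq_matrix_det bA, RingHom.map_det]
  congr 1
  ext i j
  rw [RingHom.mapMatrix_apply, Matrix.map_apply, Algebra.leftMulMatrix_eq_repr_mul,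
    Algebra.leftMulMatrix_eq_repr_mul, ← hb j, ← map_mul, hrepr]

end BaseChange

section Kummer

variable {k F : Type*} [Field k] [Field F]

/-- the power basis `1, r, …, r^(p-1)` of `k[X]/(X^p - g)`, indexed by `Fin p` -/
def kummerBasis (p : ℕ) (hp : p ≠ 0) (g : k) :
    Module.Basis (Fin p) k (AdjoinRoot (X ^ p - C g : k[X])) :=
  (AdjoinRoot.powerBasis' (monic_X_pow_sub_C g hp)).basis.reindex
    (finCongr (by rw [AdjoinRoot.powerBasis'_dim, natDegree_X_pow_sub_C]))

theorem kummerBasis_apply (p : ℕ) (hp : p ≠ 0) (g : k) (i : Fin p) :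
    kummerBasis p hp g i = (AdjoinRoot.root (X ^ p - C g : k[X])) ^ (i : ℕ) := by
  rw [kummerBasis, Module.Basis.reindex_apply, PowerBasis.basis_eq_pow, AdjoinRoot.powerBasis'_gen]
  rfl

theorem map_kummer_dvd (φ : k →+* F) (p : ℕ) (g : k) :
    (X ^ p - C (φ g) : F[X]) ∣ (X ^ p - C g : k[X]).map φ := by
  rw [Polynomial.map_sub, Polynomial.map_pow, map_X, map_C]

/-- The canonical map `k[X]/(X^p - g) → F[X]/(X^p - φ g)`. -/
def kummerMap (φ : k →+* F) (p : ℕ) (g : k) :
    AdjoinRoot (X ^ p - C g : k[X]) →+* AdjoinRoot (X ^ p - C (φ g) : F[X]) :=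
  AdjoinRoot.map φ _ _ (map_kummer_dvd φ p g)

/-- The norm commutes with the base change `k[X]/(X^p - g) → F[X]/(X^p - φ g)`. -/
theorem norm_kummerMap (φ : k →+* F) (p : ℕ) (hp : p ≠ 0) (g : k)
    (a : AdjoinRoot (X ^ p - C g : k[X])) :
    Algebra.norm F (kummerMap φ p g a) = φ (Algebra.norm k a) := by
  refine norm_map_of_basis φ (kummerMap φ p g) (kummerBasis p hp g) (kummerBasis p hp (φ g))
    ?_ ?_ a
  · intro r a
    rw [Algebra.smul_def, Algebra.smul_def, map_mul, AdjoinRoot.algebraMap_eq,
      AdjoinRoot.algebraMap_eq]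
    congr 1
    exact AdjoinRoot.map_of φ _ _ _ r
  · intro i
    rw [kummerBasis_apply, kummerBasis_apply, map_pow]
    congr 1
    exact AdjoinRoot.map_root φ _ _ _

/-- **Global norms are local norms**, field form: if `N / k` has degree `p` and contains a
`p`-th root of `g`, `g` not a `p`-th power in `k`, then for every ring homomorphism `φ : k → F`
into a field the image of a norm from `Nˣ` lies in the Kummer norm group of `φ g`. -/
theorem map_norm_mem_kummerNormGroup {N : Type*} [Field N] [Algebra k N] (φ : k →+* F)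
    {p : ℕ} (hp : p.Prime) {g : k} (hg : ∀ b : k, b ^ p ≠ g) (α : N)
    (hα : α ^ p = algebraMap k N g) (hdeg : Module.finrank k N = p) (x : Nˣ) :
    Units.map (φ : k →* F) (Units.map (Algebra.norm k : N →* k) x)
      ∈ Fermat.Agent.S55.H8.kummerNormGroup p (φ g) := by
  obtain ⟨e⟩ := Fermat.Agent.S55.H83.nonempty_kummerAlg_algEquiv_of_irreducible hp.ne_zero
    (X_pow_sub_C_irreducible_of_prime hp hg) α hα hdeg
  rw [Fermat.Agent.S55.H8.mem_kummerNormGroup]
  refine ⟨Units.map (kummerMap φ p g : AdjoinRoot (X ^ p - C g : k[X]) →*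
    AdjoinRoot (X ^ p - C (φ g) : F[X])) (Units.map (e.symm : N →* _) x), ?_⟩
  have h1 : Algebra.norm k (e.symm (x : N)) = Algebra.norm k (x : N) :=
    Algebra.norm_eq_of_algEquiv e.symm (x : N)
  show Algebra.norm F (kummerMap φ p g (e.symm (x : N))) = φ (Algebra.norm k (x : N))
  rw [norm_kummerMap φ p hp.ne_zero g, h1]

end Kummer

end Fermat.Agent.S55.H50
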