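/-
S55 (Poitou–Tate), package C6 (first inequality), helper50: leaf (LOCNORM) of
`FirstIneqSpec.lean`, from the algebraic core `LocNormCore.lean`.
-/
import Mathlib
import Fermat.Agent.S55.H50.LocNormCore
import Fermat.Agent.S55.H50.FirstIneqSpec

set_option autoImplicit false

noncomputable section

namespace Fermat.Agent.S55.H50

universe u

attribute [local instance] factOfPrimes'

/-- **Leaf (LOCNORM).** -/
theorem globalNormLocalStatement : GlobalNormLocalStatement.{u} := by
  intro k N _ _ _ _ _ p hp g hg L x v
  have hg' : ∀ b : k, b ^ p ≠ (g : k) := by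
    intro b hb
    have hb0 : b ≠ 0 := by
      rintro rfl
      rw [zero_pow hp.ne_zero] at hb
      exact g.ne_zero hb.symm
    exact hg ⟨Units.mk0 b hb0, Units.ext hb⟩
  exact map_norm_mem_kummerNormGroup
    (Fermat.Agent.S55.H88.locEmb (v.1 : ℕ) v.emb) hp hg' L.α L.root L.finrank_eq x

end Fermat.Agent.S55.H50
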