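/-
S55 (Poitou–Tate), package C6 (first inequality), helper50: leaf (CL-SPLIT) of
`FirstIneqSpec2.lean`.

At a place `v` of `k` where `g` is a local `p`-th power, the `p` extensions of `τ_v` to
`N = k(g^{1/p})` are pairwise non-conjugate (`eq_one_of_placeOf_comp_eq`).  Hence the norm of an
element `b ∈ Nˣ` which is a unit at all places above `v` but one, `w₁`, has at `v` the absolute
value of `b` at `w₁`; the class number statement for `N` provides such `b` with prescribed
absolute value at `w₁`.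
-/
import Mathlib
import Fermat.Agent.S55.H50.FirstIneqSpec2
import Fermat.Agent.S55.H50.LocNorm
import Fermat.Agent.S55.H24.SUnitStruct
import Fermat.Agent.S55.H83.EmbGlue
import Fermat.Agent.S55.H20.Decomp

set_option autoImplicit false

open NumberField

noncomputable section

namespace Fermat.Agent.S55.H50

open Fermat.Agent.S55.H8 Fermat.Agent.S55.H88

universe u

attribute [local instance] factOfPrimes'

/-- In a Kummer layer, a nontrivial automorphism moves the chosen root `α`. -/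
theorem KummerLayer.eq_one_of_apply_α {k N : Type u} [Field k] [Field N] [Algebra k N]
    {p : ℕ} (hp : p.Prime) {g : kˣ} (hg : g ∉ pPow p kˣ) (L : KummerLayer k N p g)
    (σ : N ≃ₐ[k] N) (hσ : σ L.α = L.α) : σ = 1 := by
  have hGal : IsGalois k N := L.isGalois
  have hfd : FiniteDimensional k N :=
    Module.finite_of_finrank_pos (by rw [L.finrank_eq]; exact hp.pos)
  have hcard : Nat.card (N ≃ₐ[k] N) = p := by
    rw [IsGalois.card_aut_eq_finrank, L.finrank_eq]
  by_contra hne
  have hpf : Fact p.Prime := ⟨hp⟩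
  have htop : Subgroup.zpowers σ = ⊤ := zpowers_eq_top_of_prime_card hcard hne
  have hall : ∀ τ : N ≃ₐ[k] N, τ L.α = L.α := by
    intro τ
    have hle : Subgroup.zpowers σ ≤ MulAction.stabilizer (N ≃ₐ[k] N) L.α := by
      rw [Subgroup.zpowers_le]
      exact hσ
    exact hle (htop ▸ Subgroup.mem_top τ)
  obtain ⟨c, hc⟩ := (IsGalois.mem_range_algebraMap_iff_fixed L.α).2 hall
  have hcp : c ^ p = (g : k) := by
    apply (algebraMap k N).injective
    rw [map_pow, hc, L.root]
  have hc0 : c ≠ 0 := by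
    rintro rfl
    rw [zero_pow hp.ne_zero] at hcp
    exact g.ne_zero hcp.symm
  exact hg ⟨Units.mk0 c hc0, Units.ext hcp⟩

/-- **Split places have trivial decomposition group.**  If `τ(g)` is a `p`-th power in the
completion of `k` at `τ|k`, then the embeddings `τ ∘ σ`, `σ ∈ Gal(N/k)`, are pairwise
non-conjugate. -/
theorem KummerLayer.eq_one_of_placeOf_comp_eq {k N : Type u} [Field k] [Field N] [Algebra k N]
    {p : ℕ} (hp : p.Prime) {ζ : k} (hζ : IsPrimitiveRoot ζ p) {g : kˣ} (hg : g ∉ pPow p kˣ)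
    (L : KummerLayer k N p g) (q : ℕ) [Fact q.Prime] (τ : N →+* PadicAlgCl q)
    (hpow : ∃ c : PadicAlgCl q, c ∈ locField q (τ.comp (algebraMap k N)) ∧
      c ^ p = τ (algebraMap k N (g : k)))
    (σ : N ≃ₐ[k] N)
    (h : placeOf q (τ.comp ((σ : N ≃+* N) : N →+* N)) = placeOf q τ) : σ = 1 := by
  obtain ⟨ρ, hρ⟩ := (Fermat.Agent.S55.H20.placeOf_eq_iff q _ _).1 h.symm
  -- `ρ` fixes the completion of `k`
  have hρk : (ρ : PadicAlgCl q →+* PadicAlgCl q).comp (τ.comp (algebraMap k N))
      = ((1 : PadicAlgCl q ≃ₐ[ℚ_[q]] PadicAlgCl q) : PadicAlgCl q →+* PadicAlgCl q).comp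
          (τ.comp (algebraMap k N)) := by
    refine RingHom.ext fun y => ?_
    have h1 : τ (σ (algebraMap k N y)) = ρ (τ (algebraMap k N y)) :=
      RingHom.congr_fun hρ (algebraMap k N y)
    rw [σ.commutes] at h1
    exact h1.symm
  have hfix : ∀ z ∈ locField q (τ.comp (algebraMap k N)), ρ z = z := fun z hz =>
    eqOn_locField q (τ.comp (algebraMap k N)) ρ 1 hρk hz
  -- `τ α` lies in the completion of `k`
  obtain ⟨c, hc, hcp⟩ := hpow
  have hτα : (τ L.α) ^ p = c ^ p := by
    rw [hcp, ← map_pow, L.root]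
  have hg0 : τ (algebraMap k N (g : k)) ≠ 0 := by
    rw [Ne, map_eq_zero, map_eq_zero]
    exact g.ne_zero
  have hc0 : c ≠ 0 := by
    rintro rfl
    rw [zero_pow hp.ne_zero] at hcp
    exact hg0 hcp.symm
  have hζ' : IsPrimitiveRoot (τ (algebraMap k N ζ)) p :=
    (hζ.map_of_injective (algebraMap k N).injective).map_of_injective τ.injective
  have hζmem : τ (algebraMap k N ζ) ∈ locField q (τ.comp (algebraMap k N)) :=
    IntermediateField.subset_adjoin ℚ_[q] _ ⟨ζ, rfl⟩
  have hdiv : (τ L.α / c) ^ p = 1 := by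
    rw [div_pow, hτα, div_self (pow_ne_zero _ hc0)]
  have hpne : NeZero p := ⟨hp.ne_zero⟩
  obtain ⟨i, -, hi⟩ := hζ'.eq_pow_of_pow_eq_one hdiv
  have hmem : τ L.α ∈ locField q (τ.comp (algebraMap k N)) := by
    have h1 : τ L.α = τ (algebraMap k N ζ) ^ i * c := by
      rw [hi, div_mul_cancel₀ _ hc0]
    rw [h1]
    exact mul_mem (pow_mem hζmem i) hc
  have h2 : τ (σ L.α) = ρ (τ L.α) := RingHom.congr_fun hρ L.α
  rw [hfix _ hmem] at h2
  exact L.eq_one_of_apply_α hp hg σ (τ.injective h2)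

/-- **Leaf (CL-SPLIT) of C6.** -/
theorem classSplitStatement : ClassSplitStatement.{u} := by
  classical
  intro k N _ _ _ _ _ p hp hp2 ζ hζ g hg L
  have hGal : IsGalois k N := L.isGalois
  have hfd : FiniteDimensional k N :=
    Module.finite_of_finrank_pos (by rw [L.finrank_eq]; exact hp.pos)
  obtain ⟨TN, hTN⟩ := Fermat.Agent.S55.H83.classNumberStatement (K := N)
  refine ⟨TN.image (finRestrict k N), fun S hS v hvS hpow x => ?_⟩
  -- an extension `τ` of `τ_v` to `N` and its place `w₁`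
  obtain ⟨τ, hτ⟩ := exists_extend (q := (v.1 : ℕ)) (k := k) (K := N) v.emb
  set w₁ : FinPlace N := ⟨v.1, placeOf (v.1 : ℕ) τ⟩ with hw₁
  have hw₁v : finRestrict k N w₁ = v := by
    rw [hw₁, Fermat.Agent.S55.H24.finRestrict_placeOf, hτ]
    exact (Fermat.Agent.S55.H24.finPlace_eq_placeOf v).symm
  -- a global element with the absolute value of `x`
  have hx0 : (((x : finX k v) : v.field) : PadicAlgCl (v.1 : ℕ)) ≠ 0 := by
    intro h0
    exact x.ne_zero (Subtype.ext h0)
  obtain ⟨a, ha⟩ := Fermat.Agent.S55.H83.exists_units_norm_eq (v.1 : ℕ) v.emb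
    ((x : finX k v) : v.field).2 hx0
  set aN : Nˣ := Units.map (algebraMap k N : k →* N) a with haN
  -- the idele of `N` with component `a` at `w₁` and `1` elsewhere
  set y : ∀ w : FinPlace N, finX N w := fun w => if w = w₁ then finLoc N w aN else 1 with hy
  have hyres : y ∈ resProd (finU N) := by
    rw [mem_resProd]
    refine (Set.finite_singleton w₁).subset ?_
    intro w hw
    by_contra hne
    apply hw
    have : y w = 1 := by
      rw [hy]
      exact if_neg hne
    rw [this]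
    exact (finU N w).one_mem
  obtain ⟨d, ⟨b, rfl⟩, z, hz, hdz⟩ := Subgroup.mem_sup.1 (hTN TN (Finset.Subset.refl TN) hyres)
  rw [mem_JS] at hz
  have hzw : ∀ w : FinPlace N, finLoc N w b * z w = y w := fun w => congrFun hdz w
  -- `b` is a unit at the places outside `TN` other than `w₁`
  have hU : ∀ (q : Nat.Primes) (τ' : N →+* PadicAlgCl (q : ℕ)),
      (⟨q, placeOf (q : ℕ) τ'⟩ : FinPlace N) ∉ TN →
      (⟨q, placeOf (q : ℕ) τ'⟩ : FinPlace N) ≠ w₁ → ‖τ' (b : N)‖ = 1 := by
    intro q' τ' hT hne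
    have h1 := hzw ⟨q', placeOf (q' : ℕ) τ'⟩
    have h2 : y ⟨q', placeOf (q' : ℕ) τ'⟩ = 1 := by
      rw [hy]
      exact if_neg hne
    rw [h2] at h1
    have h3 : finLoc N ⟨q', placeOf (q' : ℕ) τ'⟩ b = (z ⟨q', placeOf (q' : ℕ) τ'⟩)⁻¹ :=
      eq_inv_of_mul_eq_one_left h1
    have h4 : finLoc N ⟨q', placeOf (q' : ℕ) τ'⟩ b ∈ finU N ⟨q', placeOf (q' : ℕ) τ'⟩ := by
      rw [h3]
      exact (finU N _).inv_mem (hz _ (fun hmem => hT (Finset.mem_coe.1 hmem)))
    exact (Fermat.Agent.S55.H24.mem_finU_placeOf_iff q' τ' b).1 h4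
  -- the places above `v` are outside `TN`
  have hnotT : ∀ w : FinPlace N, finRestrict k N w ∉ S → w ∉ TN := by
    intro w hw hmem
    exact hw (hS (Finset.mem_image_of_mem _ hmem))
  -- at `w₁`, `b` has the absolute value of `x`
  have hb1 : ‖τ (b : N)‖ = ‖(((x : finX k v) : v.field) : PadicAlgCl (v.1 : ℕ))‖ := by
    have hw₁T : w₁ ∉ TN := hnotT w₁ (by rw [hw₁v]; exact hvS)
    have h1 := hzw w₁
    have h2 : y w₁ = finLoc N w₁ aN := by
      rw [hy]
      exact if_pos rfl
    rw [h2] at h1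
    have h3 : finLoc N w₁ (b⁻¹ * aN) = z w₁ := by
      rw [map_mul, map_inv, ← h1, inv_mul_cancel_left]
    have h4 : finLoc N w₁ (b⁻¹ * aN) ∈ finU N w₁ := by
      rw [h3]
      exact hz _ (fun hmem => hw₁T (Finset.mem_coe.1 hmem))
    have h5 : ‖τ (((b⁻¹ * aN : Nˣ)) : N)‖ = 1 :=
      (Fermat.Agent.S55.H24.mem_finU_placeOf_iff v.1 τ (b⁻¹ * aN)).1 h4
    have h6 : ‖τ ((aN : Nˣ) : N)‖ = ‖τ (b : N)‖ := by
      have hb0 : ‖τ (b : N)‖ ≠ 0 := by
        rw [norm_ne_zero_iff, Ne, map_eq_zero]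
        exact b.ne_zero
      rw [Units.val_mul, Units.val_inv_eq_inv_val, map_mul, map_inv₀, norm_mul, norm_inv] at h5
      field_simp at h5
      exact h5
    have h7 : τ ((aN : Nˣ) : N) = v.emb (a : k) := by
      rw [← hτ]
      rfl
    rw [← h6, h7, ha]
  refine ⟨Units.map (Algebra.norm k : N →* k) b, ?_, ?_, ?_⟩
  · intro v' _
    exact globalNormLocalStatement k N p hp g hg L b v'
  · intro v' hv'S hv'v
    rw [Fermat.Agent.S55.H24.mem_finU_iff]
    obtain ⟨τ', hτ'⟩ := exists_extend (q := (v'.1 : ℕ)) (k := k) (K := N) v'.emb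
    have h1 : v'.emb (Algebra.norm k (b : N)) = ∏ σ : N ≃ₐ[k] N, τ' (σ (b : N)) := by
      have h := norm_eq_finprod (q := (v'.1 : ℕ)) (k := k) τ' (b : N)
      rw [finprod_eq_prod_of_fintype] at h
      rw [← h, ← hτ']
      rfl
    show ‖v'.emb (Algebra.norm k (b : N))‖ = 1
    rw [h1, norm_prod]
    refine Finset.prod_eq_one fun σ _ => ?_
    have hcomp : (τ'.comp ((σ : N ≃+* N) : N →+* N)).comp (algebraMap k N) = v'.emb := by
      rw [← hτ']
      exact RingHom.ext fun c => congrArg τ' (σ.commutes c)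
    have hres : finRestrict k N ⟨v'.1, placeOf (v'.1 : ℕ) (τ'.comp ((σ : N ≃+* N) : N →+* N))⟩
        = v' := by
      rw [Fermat.Agent.S55.H24.finRestrict_placeOf, hcomp]
      exact (Fermat.Agent.S55.H24.finPlace_eq_placeOf v').symm
    refine hU v'.1 (τ'.comp ((σ : N ≃+* N) : N →+* N)) (hnotT _ (by rw [hres]; exact hv'S)) ?_
    intro heq
    apply hv'v
    rw [← hres, heq, hw₁v]
  · show ‖((((x / finLoc k v (Units.map (Algebra.norm k : N →* k) b) : finX k v)) : v.field) :
        PadicAlgCl (v.1 : ℕ))‖ = 1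
    have h1 : v.emb (Algebra.norm k (b : N)) = ∏ σ : N ≃ₐ[k] N, τ (σ (b : N)) := by
      have h := norm_eq_finprod (q := (v.1 : ℕ)) (k := k) τ (b : N)
      rw [finprod_eq_prod_of_fintype] at h
      rw [← h, ← hτ]
      rfl
    have h2 : ‖v.emb (Algebra.norm k (b : N))‖
        = ‖(((x : finX k v) : v.field) : PadicAlgCl (v.1 : ℕ))‖ := by
      rw [h1, norm_prod, Finset.prod_eq_single (1 : N ≃ₐ[k] N)]
      · exact hb1
      · intro σ _ hσ
        have hcomp : (τ.comp ((σ : N ≃+* N) : N →+* N)).comp (algebraMap k N) = v.emb := by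
          rw [← hτ]
          exact RingHom.ext fun c => congrArg τ (σ.commutes c)
        have hres : finRestrict k N ⟨v.1, placeOf (v.1 : ℕ) (τ.comp ((σ : N ≃+* N) : N →+* N))⟩
            = v := by
          rw [Fermat.Agent.S55.H24.finRestrict_placeOf, hcomp]
          exact (Fermat.Agent.S55.H24.finPlace_eq_placeOf v).symm
        refine hU v.1 (τ.comp ((σ : N ≃+* N) : N →+* N)) (hnotT _ (by rw [hres]; exact hvS)) ?_
        intro heq
        apply hσ
        have hpl : placeOf (v.1 : ℕ) (τ.comp ((σ : N ≃+* N) : N →+* N)) = placeOf (v.1 : ℕ) τ :=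
          eq_of_heq (Sigma.mk.inj heq).2
        refine L.eq_one_of_placeOf_comp_eq hp hζ hg (v.1 : ℕ) τ ?_ σ hpl
        obtain ⟨c, hc⟩ := hpow
        refine ⟨(c : PadicAlgCl (v.1 : ℕ)), ?_, ?_⟩
        · rw [hτ]
          exact c.2
        · have h3 := congrArg (fun t : v.field => (t : PadicAlgCl (v.1 : ℕ))) hc
          have h4 : τ (algebraMap k N (g : k)) = v.emb (g : k) := by
            rw [← hτ]
            rfl
          rw [h4]
          exact h3
      · intro h
        exact absurd (Finset.mem_univ _) h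
    have h3 : ((((x / finLoc k v (Units.map (Algebra.norm k : N →* k) b) : finX k v)) : v.field) :
        PadicAlgCl (v.1 : ℕ))
        = (((x : finX k v) : v.field) : PadicAlgCl (v.1 : ℕ)) / v.emb (Algebra.norm k (b : N)) := by
      rw [Units.val_div_eq_div_val]
      rfl
    rw [h3, norm_div, h2, div_self]
    rw [norm_ne_zero_iff]
    exact hx0

end Fermat.Agent.S55.H50
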