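/-
S55 (Poitou–Tate), package C6 (first inequality), helper50: the NORM INDEX of `S`-units.

* `index_range_norm_eq_pow` (abstract): in the situation of `firstIneq_abstract_gen`
  (Chevalley's count), the index of the norms in the `S`-units of the base is `p ^ (a - 1)`,
  `a` being the number of non-split places of `S`.
* `normIndex_of_leaves` (concrete, from the leaves (STRUCT), (H90S), (INDEX), (COUNT) of
  `FirstIneqSpec.lean`): for `S` large,
  `[E_S(k) : Nm E_S(N)] = p ^ e` with `T.card = e + 1`, `T ⊆ S` the set of (COUNT).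
-/
import Mathlib
import Fermat.Agent.S55.H50.FirstIneqSpec

set_option autoImplicit false

open NumberField

noncomputable section

namespace Fermat.Agent.S55.H50

open Fermat.Agent.S55.H8 Fermat.Agent.S55.H88 Finset

universe u

/-- **Chevalley's count, index form.**  `E` with an endomorphism `σ` of order `p`, `ι : E₀ → E`
an injection onto the fixed points, `nm : E → E₀` the norm, Hilbert 90 for `E`, and
`[E : E^p] = p^(a + p b)`, `#E[p] = p`, `[E₀ : E₀^p] = p^(a + b)`, `#E₀[p] = p`.  Then `a ≥ 1` and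
`[E₀ : nm E] = p^(a - 1)`. -/
theorem index_range_norm_eq_pow {E E₀ : Type*} [CommGroup E] [CommGroup E₀] (p : ℕ)
    (hp : p.Prime) (σ : E →* E) (ι : E₀ →* E) (nm : E →* E₀) (a b : ℕ)
    (hσ : ∀ x, σ^[p] x = x) (hι : Function.Injective ι)
    (hfix : ∀ x, σ x = x ↔ x ∈ ι.range)
    (hnm : ∀ x, ι (nm x) = ∏ j ∈ range p, σ^[j] x)
    (h90 : ∀ x, nm x = 1 → ∃ y, x = σ y / y)
    (hE : (powMonoidHom p : E →* E).range.index = p ^ (a + p * b))
    (hEtors : Nat.card (powMonoidHom p : E →* E).ker = p)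
    (hG : (powMonoidHom p : E₀ →* E₀).range.index = p ^ (a + b))
    (hGtors : Nat.card (powMonoidHom p : E₀ →* E₀).ker = p) :
    ∃ e, a = e + 1 ∧ nm.range.index = p ^ e := by
  have hp0 : p ≠ 0 := hp.ne_zero
  obtain ⟨-, -, -, -, hchev⟩ := chevalley_mul p hp σ hσ ι hι hfix nm hnm
    (by rw [hEtors]; exact hp0) (by rw [hE]; exact pow_ne_zero _ hp0)
  have hrel : (σ / MonoidHom.id E).range.relIndex nm.ker = 1 := by
    rw [Subgroup.relIndex_eq_one]
    intro x hx
    obtain ⟨y, hy⟩ := h90 x ((MonoidHom.mem_ker).1 hx)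
    exact ⟨y, hy.symm⟩
  rw [hrel, one_pow, one_mul, hE, hEtors, hG, hGtors] at hchev
  exact eq_pow_of_chevalley_count hp hchev

attribute [local instance] factOfPrimes'

/-- **The norm index of `S`-units** of a Kummer layer, from the leaves: for `S` large there is
`T ⊆ S` on which the local norm groups are proper, with `T.card = e + 1` and
`[E_S(k) : Nm E_S(N)] = p ^ e`. -/
theorem normIndex_of_leaves (hST : SUnitStructStatement.{u})
    (hH90 : SUnitHilbert90Statement.{u}) (hIDX : SUnitIndexStatement.{u})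
    (hCNT : PlaceCountKummerStatement.{u})
    (k N : Type u) [Field k] [NumberField k] [Field N] [NumberField N] [Algebra k N] (p : ℕ)
    (hp : p.Prime) (hp2 : p ≠ 2) (ζ : k) (hζ : IsPrimitiveRoot ζ p) (g : kˣ)
    (hg : g ∉ pPow p kˣ) (L : KummerLayer k N p g) :
    ∃ S₀ : Finset (FinPlace k), ∀ S : Finset (FinPlace k), S₀ ⊆ S →
      ∃ (T : Finset (FinPlace k)) (e : ℕ), T ⊆ S ∧ (∀ v ∈ T, kNl k p g v ≠ ⊤) ∧
        T.card = e + 1 ∧
        ((sUnitsTop k N S).map (Units.map (Algebra.norm k : N →* k))).relIndex (sUnitsBase k S)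
          = p ^ e := by
  classical
  obtain ⟨S₀, hS₀⟩ := hH90 k N p hp g L
  refine ⟨S₀, fun S hS => ?_⟩
  have : IsGalois k N := L.isGalois
  obtain ⟨hst1, hst2, hst3⟩ := hST k N S
  obtain ⟨hE, hEt, hG, hGt⟩ := hIDX k N p hp ζ hζ S
  obtain ⟨T, b, hTS, hTne, hc1, hc2⟩ := hCNT k N p hp hp2 ζ hζ g hg L S
  have : FiniteDimensional k N :=
    Module.finite_of_finrank_pos (by rw [L.finrank_eq]; exact hp.pos)
  have hcard : Nat.card (N ≃ₐ[k] N) = p := by
    rw [IsGalois.card_aut_eq_finrank, L.finrank_eq]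
  have hσp : L.σ ^ p = 1 := by
    have h := pow_card_eq_one' (x := L.σ)
    rwa [hcard] at h
  let σE : ↥(sUnitsTop k N S) →* ↥(sUnitsTop k N S) :=
    ((Units.map (L.σ : N →* N)).comp (sUnitsTop k N S).subtype).codRestrict (sUnitsTop k N S)
      (fun x => hst1 L.σ x x.2)
  let ιE : ↥(sUnitsBase k S) →* ↥(sUnitsTop k N S) :=
    ((Units.map (algebraMap k N : k →* N)).comp (sUnitsBase k S).subtype).codRestrict
      (sUnitsTop k N S) (fun c => (hst2 c).1 c.2)
  let nmE : ↥(sUnitsTop k N S) →* ↥(sUnitsBase k S) :=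
    ((Units.map (Algebra.norm k : N →* k)).comp (sUnitsTop k N S).subtype).codRestrict
      (sUnitsBase k S) (fun x => hst3 x x.2)
  have hσE : ∀ x : ↥(sUnitsTop k N S), (((σE x : ↥(sUnitsTop k N S)) : Nˣ) : N)
      = L.σ ((x : Nˣ) : N) := fun x => rfl
  have hnmE : ∀ x : ↥(sUnitsTop k N S), (((nmE x : ↥(sUnitsBase k S)) : kˣ) : k)
      = Algebra.norm k ((x : Nˣ) : N) := fun x => rfl
  have hiter : ∀ (n : ℕ) (x : ↥(sUnitsTop k N S)),
      (((σE^[n] x : ↥(sUnitsTop k N S)) : Nˣ) : N) = (L.σ ^ n) ((x : Nˣ) : N) := by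
    intro n
    induction n with
    | zero => intro x; rfl
    | succ n ih =>
      intro x
      rw [Function.iterate_succ_apply', hσE, ih, pow_succ', AlgEquiv.mul_apply]
  have hA1 : ∀ x : ↥(sUnitsTop k N S), σE^[p] x = x := by
    intro x
    apply Subtype.ext
    apply Units.ext
    rw [hiter, hσp]
    rfl
  have hA2 : Function.Injective ιE := by
    intro a c hac
    apply Subtype.ext
    apply Units.ext
    apply (algebraMap k N).injective
    have := congrArg (fun z : ↥(sUnitsTop k N S) => ((z : Nˣ) : N)) hac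
    exact this
  have hA3 : ∀ x : ↥(sUnitsTop k N S), σE x = x ↔ x ∈ ιE.range := by
    intro x
    constructor
    · intro hx
      have hx' : L.σ ((x : Nˣ) : N) = ((x : Nˣ) : N) := by
        rw [← hσE, hx]
      have hall : ∀ τ : N ≃ₐ[k] N, τ ((x : Nˣ) : N) = ((x : Nˣ) : N) := by
        intro τ
        have hle : Subgroup.zpowers L.σ ≤ MulAction.stabilizer (N ≃ₐ[k] N) (((x : Nˣ) : N)) := by
          rw [Subgroup.zpowers_le]
          exact hx'
        exact hle (L.gen τ)
      obtain ⟨c, hc⟩ := (IsGalois.mem_range_algebraMap_iff_fixed ((x : Nˣ) : N)).2 hall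
      have hc0 : c ≠ 0 := by
        rintro rfl
        rw [map_zero] at hc
        exact (x : Nˣ).ne_zero hc.symm
      have hmem : Units.map (algebraMap k N : k →* N) (Units.mk0 c hc0) ∈ sUnitsTop k N S := by
        have : Units.map (algebraMap k N : k →* N) (Units.mk0 c hc0) = (x : Nˣ) :=
          Units.ext hc
        rw [this]
        exact x.2
      refine ⟨⟨Units.mk0 c hc0, (hst2 _).2 hmem⟩, ?_⟩
      apply Subtype.ext
      apply Units.ext
      exact hc
    · rintro ⟨c, rfl⟩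
      apply Subtype.ext
      apply Units.ext
      show L.σ (algebraMap k N ((c : kˣ) : k)) = algebraMap k N ((c : kˣ) : k)
      exact L.σ.commutes _
  have hA4 : ∀ x : ↥(sUnitsTop k N S), ιE (nmE x) = ∏ j ∈ Finset.range p, σE^[j] x := by
    intro x
    apply Subtype.ext
    apply Units.ext
    have hprod : (((∏ j ∈ Finset.range p, σE^[j] x : ↥(sUnitsTop k N S)) : Nˣ) : N)
        = ∏ j ∈ Finset.range p, (L.σ ^ j) ((x : Nˣ) : N) := by
      rw [Subgroup.val_finsetProd, Units.coe_prod]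
      exact Finset.prod_congr rfl (fun j _ => hiter j x)
    have hnorm : algebraMap k N (Algebra.norm k ((x : Nˣ) : N))
        = ∏ j ∈ Finset.range p, (L.σ ^ j) ((x : Nˣ) : N) := by
      rw [Algebra.norm_eq_prod_automorphisms]
      exact prod_aut_eq_prod_pow L.σ L.gen p hcard _
    exact hnorm.trans hprod.symm
  have hA5 : ∀ x : ↥(sUnitsTop k N S), nmE x = 1 → ∃ y, x = σE y / y := by
    intro x hx
    have hx1 : Algebra.norm k ((x : Nˣ) : N) = 1 := by
      have h := congrArg (fun z : ↥(sUnitsBase k S) => ((z : kˣ) : k)) hx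
      exact h
    obtain ⟨y, hy, hxy⟩ := hS₀ S hS (x : Nˣ) x.2 hx1
    refine ⟨⟨y, hy⟩, ?_⟩
    apply Subtype.ext
    apply Units.ext
    have hdiv : (((σE ⟨y, hy⟩ / ⟨y, hy⟩ : ↥(sUnitsTop k N S)) : Nˣ) : N)
        = L.σ (y : N) / (y : N) := by
      rw [Subgroup.coe_div, Units.val_div_eq_div_val]
      rfl
    exact hxy.trans hdiv.symm
  obtain ⟨e, hTe, hidx⟩ := index_range_norm_eq_pow p hp σE ιE nmE T.card b hA1 hA2 hA3 hA4 hA5
    (by rw [hE, hc2]) hEt (by rw [hG, hc1]) hGt
  refine ⟨T, e, hTS, hTne, hTe, ?_⟩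
  rw [← hidx]
  -- the range of `nmE` is the norm group, seen inside the `S`-units of `k`
  have hmap : ((sUnitsTop k N S).map (Units.map (Algebra.norm k : N →* k)))
      = nmE.range.map (sUnitsBase k S).subtype := by
    ext c
    constructor
    · rintro ⟨x, hx, rfl⟩
      exact ⟨nmE ⟨x, hx⟩, ⟨⟨x, hx⟩, rfl⟩, rfl⟩
    · rintro ⟨_, ⟨x, rfl⟩, rfl⟩
      exact ⟨(x : Nˣ), x.2, rfl⟩
  rw [hmap]
  have h1 := Subgroup.relIndex_map_map_of_injective nmE.range (⊤ : Subgroup ↥(sUnitsBase k S))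
    (Subgroup.subtype_injective (sUnitsBase k S))
  rw [Subgroup.relIndex_top_right] at h1
  rw [← h1]
  congr 1
  exact (Subgroup.range_subtype _).symm.trans (MonoidHom.range_eq_map _)

end Fermat.Agent.S55.H50
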