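/-
S55 (Poitou–Tate), package C6 (first inequality), helper50: ASSEMBLY WITH THE LANDED LEAVES.

The leaves (KEX) (helper73), (STRUCT) (helper24), (INDEX) (helper59 + helper83), (LOCNORM)
(helper50) of `FirstIneqSpec.lean` are proved; what remains are

* (H90S)  `SUnitHilbert90Statement`   — Hilbert 90 for `S`-units, `S` large;
* (COUNT) `PlaceCountKummerStatement` — the place count;
* (CLASS) `SClassStatement`           — the class-number step.

`firstIneqStatement_of_open` is the first inequality from these three; `h8FirstIneq_of_open`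
is its form in helper8's package C7 and `secondIneq_of_open` the second inequality (C7) from
them.  `normIndex_of_open` is the norm index of `S`-units from (H90S) and (COUNT).
-/
import Mathlib
import Fermat.Agent.S55.H50.FirstIneqSpec2
import Fermat.Agent.S55.H50.FirstIneqIndex
import Fermat.Agent.S55.H50.LocNorm
import Fermat.Agent.S55.H24.SUnitStruct
import Fermat.Agent.S55.H59.SUnitIndex
import Fermat.Agent.S55.H83.EmbGlue
import Fermat.Agent.S55.H8.KummerFinal

set_option autoImplicit false

open NumberField

noncomputable section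

namespace Fermat.Agent.S55.H50

open Fermat.Agent.S55.H8 Fermat.Agent.S55.H88

universe u

/-- Leaf (INDEX) of C6, unconditionally (helper59's reduction + helper83's (B4)). -/
theorem sUnitIndexStatement_holds : SUnitIndexStatement.{u} :=
  Fermat.Agent.S55.H59.sUnitIndexStatement
    (fun K _ _ p => Fermat.Agent.S55.H83.sUnitIndexStatement K p)

/-- **C6 from its three open leaves** (H90S), (COUNT), (CLASS). -/
theorem firstIneqStatement_of_open (hH90 : SUnitHilbert90Statement.{u})
    (hCNT : PlaceCountKummerStatement.{u}) (hCLS : SClassStatement.{u}) :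
    FirstIneqStatement.{u} :=
  firstIneqStatement_of_leaves kummerLayerExistsStatement
    Fermat.Agent.S55.H24.sUnitStructStatement hH90 sUnitIndexStatement_holds hCNT
    globalNormLocalStatement hCLS

/-- The first inequality in the form consumed by package C7 (`H8.FirstIneqStatement k p`). -/
theorem h8FirstIneq_of_open (hH90 : SUnitHilbert90Statement.{u})
    (hCNT : PlaceCountKummerStatement.{u}) (hCLS : SClassStatement.{u})
    (k : Type u) [Field k] [NumberField k] {p : ℕ} (hp : p.Prime) (hp2 : p ≠ 2) {ζ : k}
    (hζ : IsPrimitiveRoot ζ p) : Fermat.Agent.S55.H8.FirstIneqStatement k p :=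
  fun g hg => firstIneqStatement_of_open hH90 hCNT hCLS k p hp hp2 ζ hζ g hg

/-- **The second inequality (C7) from the three open leaves of C6.** -/
theorem secondIneq_of_open (hH90 : SUnitHilbert90Statement.{u})
    (hCNT : PlaceCountKummerStatement.{u}) (hCLS : SClassStatement.{u})
    (k : Type u) [Field k] [NumberField k] {p : ℕ} (hp : p.Prime) (hp2 : p ≠ 2) {ζ : k}
    (hζ : IsPrimitiveRoot ζ p) : Fermat.Agent.S55.H8.SecondIneqStatement k p :=
  Fermat.Agent.S55.H8.second_inequality_of_firstIneq hp hp2 hζ
    (h8FirstIneq_of_open hH90 hCNT hCLS k hp hp2 hζ)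

/-- **The norm index of `S`-units** `[E_S(k) : Nm E_S(N)] = p ^ e`, `T.card = e + 1`, from the
open leaves (H90S) and (COUNT). -/
theorem normIndex_of_open (hH90 : SUnitHilbert90Statement.{u})
    (hCNT : PlaceCountKummerStatement.{u})
    (k N : Type u) [Field k] [NumberField k] [Field N] [NumberField N] [Algebra k N] (p : ℕ)
    (hp : p.Prime) (hp2 : p ≠ 2) (ζ : k) (hζ : IsPrimitiveRoot ζ p) (g : kˣ)
    (hg : g ∉ pPow p kˣ) (L : KummerLayer k N p g) :
    ∃ S₀ : Finset (FinPlace k), ∀ S : Finset (FinPlace k), S₀ ⊆ S →
      ∃ (T : Finset (FinPlace k)) (e : ℕ), T ⊆ S ∧ (∀ v ∈ T, kNl k p g v ≠ ⊤) ∧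
        T.card = e + 1 ∧
        ((sUnitsTop k N S).map (Units.map (Algebra.norm k : N →* k))).relIndex (sUnitsBase k S)
          = p ^ e :=
  normIndex_of_leaves Fermat.Agent.S55.H24.sUnitStructStatement hH90 sUnitIndexStatement_holds
    hCNT k N p hp hp2 ζ hζ g hg L

end Fermat.Agent.S55.H50
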