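/-
S55 (Poitou–Tate), package C6 (first inequality), helper50: THE FIRST INEQUALITY, unconditional.

For a number field `k ∋ μ_p`, `p` an odd prime, and `g ∈ kˣ` not a `p`-th power, the ideles of
`k` (finite-place system of helper88's embedding model) are NOT generated by the principal
ideles and the ideles that are everywhere local norms from `k(g^{1/p})`
(`firstIneqStatement`).  Consequently the second inequality of package C7 holds
(`secondIneq`), and the norm index of `S`-units of a Kummer layer is `p ^ (#T - 1)`
(`normIndex`).

Leaves: (KEX) helper73, (STRUCT) helper24, (H90S) helper82, (INDEX) helper59 + helper83,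
(COUNT) helper67, (LOCNORM) helper50, (CL-SPLIT) helper50, (CL-NONSPLIT) helper18.
-/
import Mathlib
import Fermat.Agent.S55.H50.FirstIneqAsm
import Fermat.Agent.S55.H50.ClassSplit
import Fermat.Agent.S55.H82.H90S
import Fermat.Agent.S55.H67.PlaceCount
import Fermat.Agent.S55.H18.ClassNonsplit

set_option autoImplicit false

open NumberField

noncomputable section

namespace Fermat.Agent.S55.H50

open Fermat.Agent.S55.H8 Fermat.Agent.S55.H88

universe u

/-- Leaf (CLASS) of C6. -/
theorem sClassStatement : SClassStatement.{u} :=
  sClassStatement_of classSplitStatement Fermat.Agent.S55.H18.classNonsplitStatement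

/-- **C6: the first inequality** for Kummer extensions of degree `p` (all leaves discharged). -/
theorem firstIneqStatement : FirstIneqStatement.{u} :=
  firstIneqStatement_of_open Fermat.Agent.S55.H82.sUnitHilbert90Statement
    Fermat.Agent.S55.H67.placeCountKummerStatement sClassStatement

/-- The first inequality in the form consumed by package C7. -/
theorem h8FirstIneq (k : Type u) [Field k] [NumberField k] {p : ℕ} (hp : p.Prime) (hp2 : p ≠ 2)
    {ζ : k} (hζ : IsPrimitiveRoot ζ p) : Fermat.Agent.S55.H8.FirstIneqStatement k p :=
  h8FirstIneq_of_open Fermat.Agent.S55.H82.sUnitHilbert90Statement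
    Fermat.Agent.S55.H67.placeCountKummerStatement sClassStatement k hp hp2 hζ

/-- **C7: the second inequality** for Kummer extensions of degree `p`, unconditionally: for
`a : kˣ`, the principal ideles and the everywhere-local-norm ideles from `k(a^{1/p})` generate
a subgroup of index dividing `p`. -/
theorem secondIneq (k : Type u) [Field k] [NumberField k] {p : ℕ} (hp : p.Prime) (hp2 : p ≠ 2)
    {ζ : k} (hζ : IsPrimitiveRoot ζ p) : Fermat.Agent.S55.H8.SecondIneqStatement k p :=
  secondIneq_of_open Fermat.Agent.S55.H82.sUnitHilbert90Statement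
    Fermat.Agent.S55.H67.placeCountKummerStatement sClassStatement k hp hp2 hζ

/-- **The norm index of `S`-units** of a Kummer layer: for `S` large there is `T ⊆ S` on which
the local norm groups are proper, with `T.card = e + 1` and `[E_S(k) : Nm E_S(N)] = p ^ e`. -/
theorem normIndex (k N : Type u) [Field k] [NumberField k] [Field N] [NumberField N]
    [Algebra k N] (p : ℕ) (hp : p.Prime) (hp2 : p ≠ 2) (ζ : k) (hζ : IsPrimitiveRoot ζ p)
    (g : kˣ) (hg : g ∉ pPow p kˣ) (L : KummerLayer k N p g) :
    ∃ S₀ : Finset (FinPlace k), ∀ S : Finset (FinPlace k), S₀ ⊆ S →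
      ∃ (T : Finset (FinPlace k)) (e : ℕ), T ⊆ S ∧ (∀ v ∈ T, kNl k p g v ≠ ⊤) ∧
        T.card = e + 1 ∧
        ((sUnitsTop k N S).map (Units.map (Algebra.norm k : N →* k))).relIndex (sUnitsBase k S)
          = p ^ e :=
  normIndex_of_open Fermat.Agent.S55.H82.sUnitHilbert90Statement
    Fermat.Agent.S55.H67.placeCountKummerStatement k N p hp hp2 ζ hζ g hg L

end Fermat.Agent.S55.H50
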