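/-
S55 (Poitou–Tate), package C8 (helper29's SPEC v2, part 2), leaf assembly (EX-PRIME), helper50:
existence of classes with prescribed local invariants for Kummer layers of degree `p`,

  `KummerLocalSymbolStatement → UnitNormStatement → FullPlaceStatement → RecStatement NFLayer p
     → PrimeExStatement p`,

by the counting core `H29.ex_of_secondIneq` applied to the finite-place idele system of `k`, the
local symbols `lam v`, the Kummer norm groups `H8.finNloc k p g`, and the second inequality
(package C7, unconditional: `H50.secondIneq`).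
-/
import Mathlib
import Fermat.Agent.S55.H29.C8Ex
import Fermat.Agent.S55.H52.KummerGen
import Fermat.Agent.S55.H80.ResIndexCor
import Fermat.Agent.S55.H50.FirstIneq

set_option autoImplicit false

open CategoryTheory groupCohomology Rep NumberField

noncomputable section

namespace Fermat.Agent.S55.H50

open Fermat.Agent.S55.H8 Fermat.Agent.S55.H88 Fermat.Agent.S55.H66 Fermat.Agent.S55.H29

/-- An element of order `p` in `ℚ/ℤ`. -/
theorem exists_QZ_order (p : ℕ) (hp : p.Prime) : ∃ z : QZ, p • z = 0 ∧ z ≠ 0 := by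
  have hp0 : (p : ℚ) ≠ 0 := Nat.cast_ne_zero.2 hp.ne_zero
  refine ⟨((1 / (p : ℚ) : ℚ) : AddCircle (1 : ℚ)), ?_, ?_⟩
  · rw [← AddCircle.coe_nsmul, nsmul_eq_mul, mul_one_div_cancel hp0]
    exact AddCircle.coe_period (1 : ℚ)
  · intro h
    obtain ⟨n, hn⟩ := (AddCircle.coe_eq_zero_iff (1 : ℚ)).1 h
    have h1 : (n : ℚ) * (p : ℚ) = 1 := by
      rw [zsmul_eq_mul, mul_one] at hn
      rw [hn, one_div, inv_mul_cancel₀ hp0]
    have h2 : (n * (p : ℤ) : ℤ) = 1 := by
      have : ((n * (p : ℤ) : ℤ) : ℚ) = ((1 : ℤ) : ℚ) := by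
        push_cast
        exact h1
      exact Int.cast_injective this
    have h3 : ((p : ℤ)) ∣ 1 := ⟨n, by rw [mul_comm]; exact h2.symm⟩
    have h4 : (p : ℤ) = 1 := Int.eq_one_of_dvd_one (Int.natCast_nonneg p) h3
    exact hp.one_lt.ne' (by exact_mod_cast h4)

/-- **(EX-PRIME), assembly, with the second inequality as a hypothesis.** -/
theorem primeExStatement_of_leaves' (p : ℕ) (hLS : KummerLocalSymbolStatement)
    (hUN : UnitNormStatement) (hFP : FullPlaceStatement) (hREC : RecStatement NFLayer p)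
    (hSI : ∀ (k : Type) [Field k] [NumberField k], (∃ ζ : k, IsPrimitiveRoot ζ p) →
      Fermat.Agent.S55.H8.SecondIneqStatement k p) :
    PrimeExStatement p := by
  classical
  intro hp hp2 k K _ _ _ _ _ _ hζex hdeg
  obtain ⟨ζ, hζ⟩ := hζex
  have hfd : FiniteDimensional k K :=
    Module.finite_of_finrank_pos (by rw [hdeg]; exact hp.pos)
  obtain ⟨g, β, σ, hg, hβ, -, hσ⟩ :=
    Fermat.Agent.S55.H52.exists_kummer_generator k K p hp ⟨ζ, hζ⟩ hdeg
  have hLS' := fun v => hLS k K p hp hp2 hdeg ζ hζ g hg β hβ σ hσ v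
  choose lam hlam1 hlam2 hlam3 using hLS'
  intro t ht hadm hsum
  -- the Galois group is cyclic of order `p`
  have hcard : Nat.card (K ≃ₐ[k] K) = p := by
    rw [IsGalois.card_aut_eq_finrank, hdeg]
  have hpf : Fact p.Prime := ⟨hp⟩
  have hcyc : IsCyclic (K ≃ₐ[k] K) := isCyclic_of_prime_card hcard
  -- a place with a nontrivial local symbol
  obtain ⟨v₀, hv₀⟩ := hFP k K p hp ⟨1, by rw [hdeg, pow_one]⟩
  obtain ⟨z₀, hz₀p, hz₀⟩ := exists_QZ_order p hp
  obtain ⟨y₀, hy₀⟩ := hlam2 v₀ z₀ (by rw [hv₀, hdeg]; exact hz₀p)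
  have hy₀' : lam v₀ y₀ ≠ 1 := by
    rw [hy₀]
    intro h
    exact hz₀ (Multiplicative.ofAdd.injective h)
  -- units are killed by almost all local symbols
  have hU : {v : FinPlace k | ¬ finU k v ≤ (lam v).ker}.Finite := by
    refine (hUN k p hp hp2 ζ hζ g).subset ?_
    intro v hv h
    exact hv (h.trans (hlam3 v))
  -- reciprocity for the cyclic classes
  have hrec : ∀ a : kˣ, ∑ᶠ v, Multiplicative.toAdd (lam v (finLoc k v a)) = 0 := by
    intro a
    have h1 : (layerOf k K).RecAt
        (cycClass (Rep.ofAlgebraAutOnUnits k K) σ (unitOfBase k K a)) := by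
      refine hREC (layerOf k K) ⟨k, K, inferInstance, inferInstance, inferInstance, inferInstance,
        inferInstance, inferInstance, rfl⟩ _ ⟨1, ?_⟩
      rw [pow_one]
      have h2 := Fermat.Agent.S55.H80.card_smul_eq_zero (Rep.ofAlgebraAutOnUnits k K) 2
        (Or.inr rfl) (cycClass (Rep.ofAlgebraAutOnUnits k K) σ (unitOfBase k K a))
      rw [hcard] at h2
      exact h2
    have h3 : (∑ᶠ v, Multiplicative.toAdd (lam v (finLoc k v a)))
        = ∑ᶠ v, (layerOf k K).linv v
            (cycClass (Rep.ofAlgebraAutOnUnits k K) σ (unitOfBase k K a)) :=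
      finsum_congr fun v => by rw [hlam1 v a]; rfl
    rw [h3]
    exact h1
  obtain ⟨a, ha⟩ := ex_of_secondIneq (finU k) (finLoc k) (Fermat.Agent.S55.H8.finNloc k p g) lam
    p hp hlam3 hU hrec (hSI k ⟨ζ, hζ⟩ g) v₀ y₀ hy₀' t ht
    (fun v => hlam2 v (t v) (hadm v)) hsum
  refine ⟨cycClass (Rep.ofAlgebraAutOnUnits k K) σ (unitOfBase k K a), fun v => ?_⟩
  have h := ha v
  rw [hlam1 v a] at h
  exact h

/-- **(EX-PRIME)**: existence for Kummer layers of degree `p` from the local symbols, the
unit-norm statement, the full-place statement and reciprocity (the second inequality being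
unconditional). -/
theorem primeExStatement_of_leaves (p : ℕ) (hLS : KummerLocalSymbolStatement)
    (hUN : UnitNormStatement) (hFP : FullPlaceStatement) (hREC : RecStatement NFLayer p) :
    PrimeExStatement p := fun hp hp2 =>
  primeExStatement_of_leaves' p hLS hUN hFP hREC
    (fun k _ _ hζ => by
      obtain ⟨ζ, hζ⟩ := hζ
      exact secondIneq k hp hp2 hζ) hp hp2

end Fermat.Agent.S55.H50
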