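/-
S55 (Poitou–Tate), package C8 (B4), helper50: the LOCAL NORM GROUP of a Kummer layer in the
embedding model of helper88, in the two forms needed to compare the FinPlace idele system of
packages C6/C7 with the idele module `H88.ideleRep`:

for a Kummer layer `K = k(α)`, `α ^ p = g`, an embedding `τ' : K →+* PadicAlgCl q` and
`τ₀ = τ'|k`, `F = locField q τ₀` (the completion of `k`), `D = decompGroup q k τ'`:

* `norm_eq_finprod_decompLift` : `N_{K_w/k_v}(d) = ∏_{σ ∈ D} σ̃(d)`;
* `mem_kummerNormGroup_of_finprod` : for a semi-local `f`, if `∏_{s ∈ Gal(K/k)} f(τ' ∘ s) = c ∈ Fˣ`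
  then `c` is a norm from the Kummer algebra `F[X]/(X^p - g)`;
* `exists_of_mem_kummerNormGroup` : conversely every such norm is `∏_{σ ∈ D} σ̃(d)` for some
  `d ≠ 0` in the completion `locField q τ'` of `K`.
-/
import Mathlib
import Fermat.Agent.S55.H50.ClassSplit
import Fermat.Agent.S55.H83.KummerNormH8

set_option autoImplicit false

open NumberField

noncomputable section

namespace Fermat.Agent.S55.H50

open Fermat.Agent.S55.H8 Fermat.Agent.S55.H88 Fermat.Agent.S55.H20

universe u

section Local

variable (q : ℕ) [Fact q.Prime] {k K : Type u} [Field k] [Field K] [Algebra k K]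

/-- The local norm is the product over the decomposition group. -/
theorem norm_eq_finprod_decompLift [FiniteDimensional k K] [Normal k K]
    (τ' : K →+* PadicAlgCl q)
    (d : IntermediateField.extendScalars (locField_comp_le q k τ')) :
    ((Algebra.norm (locField q (τ'.comp (algebraMap k K))) d :
        locField q (τ'.comp (algebraMap k K))) : PadicAlgCl q)
      = ∏ᶠ σ : decompGroup q k τ', decompLift q k τ' σ (d : PadicAlgCl q) := by
  have hfd := finiteDimensional_extendScalars q k τ'
  have h := Algebra.norm_eq_prod_embeddings (locField q (τ'.comp (algebraMap k K)))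
    (PadicAlgCl q) d
  rw [← finprod_eq_prod_of_fintype] at h
  have hbij : Function.Bijective (decompEmb q k τ') :=
    ⟨decompEmb_injective q k τ', decompEmb_surjective q k τ'⟩
  have h2 : (∏ᶠ σ : decompGroup q k τ', decompLift q k τ' σ (d : PadicAlgCl q))
      = ∏ᶠ φ : IntermediateField.extendScalars (locField_comp_le q k τ')
          →ₐ[locField q (τ'.comp (algebraMap k K))] PadicAlgCl q, φ d :=
    finprod_eq_of_bijective (decompEmb q k τ') hbij (fun σ => rfl)
  rw [h2, ← h]
  rfl

variable {q}

/-- At a split place the decomposition group is trivial. -/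
theorem decompGroup_eq_bot_of_pow {p : ℕ} (hp : p.Prime) {ζ : k} (hζ : IsPrimitiveRoot ζ p)
    {g : kˣ} (hg : g ∉ pPow p kˣ) (L : KummerLayer k K p g) (τ' : K →+* PadicAlgCl q)
    (hpow : ∃ c : PadicAlgCl q, c ∈ locField q (τ'.comp (algebraMap k K)) ∧
      c ^ p = τ' (algebraMap k K (g : k))) :
    decompGroup q k τ' = ⊥ := by
  rw [eq_bot_iff]
  rintro s ⟨g', hg'⟩
  rw [Subgroup.mem_bot]
  refine L.eq_one_of_placeOf_comp_eq hp hζ hg q τ' hpow s ?_
  exact ((placeOf_eq_iff q _ _).2 ⟨g', hg'⟩).symm

/-- At a non-split place the decomposition group is everything and the local degree is `p`. -/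
theorem decompGroup_eq_top_of_not_pow {p : ℕ} (hp : p.Prime) {g : kˣ}
    (L : KummerLayer k K p g) (τ' : K →+* PadicAlgCl q)
    (hnpow : ¬ ∃ c : PadicAlgCl q, c ∈ locField q (τ'.comp (algebraMap k K)) ∧
      c ^ p = τ' (algebraMap k K (g : k))) :
    decompGroup q k τ' = ⊤ ∧
      Module.finrank (locField q (τ'.comp (algebraMap k K)))
        (IntermediateField.extendScalars (locField_comp_le q k τ')) = p := by
  have hGal : IsGalois k K := L.isGalois
  have hfd : FiniteDimensional k K :=
    Module.finite_of_finrank_pos (by rw [L.finrank_eq]; exact hp.pos)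
  have hcardG : Nat.card (K ≃ₐ[k] K) = p := by
    rw [IsGalois.card_aut_eq_finrank, L.finrank_eq]
  have hcard := card_decompGroup q k τ'
  have hdvd : Nat.card (decompGroup q k τ') ∣ p := by
    rw [← hcardG]
    exact Subgroup.card_subgroup_dvd_card _
  rcases (Nat.dvd_prime hp).1 hdvd with h1 | h1
  · exfalso
    rw [h1] at hcard
    have hbot : IntermediateField.extendScalars (locField_comp_le q k τ') = ⊥ :=
      IntermediateField.finrank_eq_one_iff.1 hcard.symm
    have hmem : τ' L.α ∈ IntermediateField.extendScalars (locField_comp_le q k τ') :=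
      (locEmb q τ' L.α).2
    rw [hbot, IntermediateField.mem_bot] at hmem
    obtain ⟨c, hc⟩ := hmem
    refine hnpow ⟨(c : PadicAlgCl q), c.2, ?_⟩
    have hc' : (c : PadicAlgCl q) = τ' L.α := hc
    rw [hc', ← map_pow, L.root]
  · refine ⟨?_, ?_⟩
    · exact (Subgroup.card_eq_iff_eq_top _).1 (h1.trans hcardG.symm)
    · rw [← hcard, h1]

variable (q)

/-- **Local norms, first form.**  If the product of the values of a semi-local element over the
embeddings above `τ₀` is `c ∈ k_vˣ`, then `c` is a norm from the Kummer algebra over `k_v`. -/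
theorem mem_kummerNormGroup_of_finprod {p : ℕ} (hp : p.Prime) {ζ : k}
    (hζ : IsPrimitiveRoot ζ p) {g : kˣ} (L : KummerLayer k K p g)
    (τ₀ : k →+* PadicAlgCl q) (τ' : K →+* PadicAlgCl q)
    (hτ : τ'.comp (algebraMap k K) = τ₀) (f : semiLocal q K) (c : (locField q τ₀)ˣ)
    (h : ∏ᶠ s : K ≃ₐ[k] K, (f : (K →+* PadicAlgCl q) → PadicAlgCl q)
        (τ'.comp ((s : K ≃+* K) : K →+* K)) = ((c : locField q τ₀) : PadicAlgCl q)) :
    c ∈ kummerNormGroup p ((locEmb q τ₀ (g : k)) : locField q τ₀) := by
  subst hτ
  have hGal : IsGalois k K := L.isGalois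
  have hfd : FiniteDimensional k K :=
    Module.finite_of_finrank_pos (by rw [L.finrank_eq]; exact hp.pos)
  by_cases hpow : ∃ c₀ : PadicAlgCl q, c₀ ∈ locField q (τ'.comp (algebraMap k K)) ∧
      c₀ ^ p = τ' (algebraMap k K (g : k))
  · -- split: every unit is a norm
    obtain ⟨c₀, hc₀, hc₀p⟩ := hpow
    have hc₀0 : (⟨c₀, hc₀⟩ : locField q (τ'.comp (algebraMap k K))) ≠ 0 := by
      intro h0
      have h1 : c₀ = 0 := congrArg Subtype.val h0
      rw [h1, zero_pow hp.ne_zero] at hc₀p
      have h2 : τ' (algebraMap k K (g : k)) ≠ 0 := by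
        rw [Ne, map_eq_zero, map_eq_zero]
        exact g.ne_zero
      exact h2 hc₀p.symm
    have hζF : IsPrimitiveRoot (locEmb q (τ'.comp (algebraMap k K)) ζ) p :=
      hζ.map_of_injective (locEmb q (τ'.comp (algebraMap k K))).injective
    have htop := Fermat.Agent.S55.H83.normTopOfPowStatement p hp
      (locField q (τ'.comp (algebraMap k K))) _ hζF (Units.mk0 _ hc₀0)
    have hgc : locEmb q (τ'.comp (algebraMap k K)) (g : k)
        = ((Units.mk0 _ hc₀0 : (locField q (τ'.comp (algebraMap k K)))ˣ) :
            locField q (τ'.comp (algebraMap k K))) ^ p :=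
      Subtype.ext hc₀p.symm
    rw [hgc, htop]
    exact Subgroup.mem_top _
  · -- non-split: the product is the local norm of `f τ'`
    obtain ⟨hD, hdeg⟩ := decompGroup_eq_top_of_not_pow hp L τ' hpow
    have hg' : ∀ b : locField q (τ'.comp (algebraMap k K)),
        b ^ p ≠ locEmb q (τ'.comp (algebraMap k K)) (g : k) := by
      intro b hb
      exact hpow ⟨(b : PadicAlgCl q), b.2, congrArg Subtype.val hb⟩
    have hαmem : τ' L.α ∈ IntermediateField.extendScalars (locField_comp_le q k τ') :=
      (locEmb q τ' L.α).2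
    have hα : (⟨τ' L.α, hαmem⟩ : IntermediateField.extendScalars (locField_comp_le q k τ')) ^ p
        = algebraMap (locField q (τ'.comp (algebraMap k K)))
            (IntermediateField.extendScalars (locField_comp_le q k τ'))
            (locEmb q (τ'.comp (algebraMap k K)) (g : k)) := by
      apply Subtype.ext
      show (τ' L.α) ^ p = τ' (algebraMap k K (g : k))
      rw [← map_pow, L.root]
    rw [Fermat.Agent.S55.H83.kummerNormGroup_eq_range_norm_of_not_pow hp hg' _ hα hdeg]
    have hfmem : (f : (K →+* PadicAlgCl q) → PadicAlgCl q) τ' ∈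
        IntermediateField.extendScalars (locField_comp_le q k τ') :=
      semiLocal_apply_mem_locField q f τ'
    set d : IntermediateField.extendScalars (locField_comp_le q k τ') := ⟨_, hfmem⟩ with hd
    have hnorm : ((Algebra.norm (locField q (τ'.comp (algebraMap k K))) d :
        locField q (τ'.comp (algebraMap k K))) : PadicAlgCl q)
        = ((c : locField q (τ'.comp (algebraMap k K))) : PadicAlgCl q) := by
      rw [norm_eq_finprod_decompLift, ← h]
      have hval : ∀ σ : decompGroup q k τ', decompLift q k τ' σ (d : PadicAlgCl q)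
          = (f : (K →+* PadicAlgCl q) → PadicAlgCl q)
              (τ'.comp ((((σ : K ≃ₐ[k] K)) : K ≃+* K) : K →+* K)) := by
        intro σ
        rw [decompLift_spec q k τ' σ]
        exact (f.2 (decompLift q k τ' σ) τ').symm
      rw [finprod_congr hval]
      have hbij : Function.Bijective (Subtype.val : decompGroup q k τ' → (K ≃ₐ[k] K)) := by
        refine ⟨Subtype.val_injective, fun s => ⟨⟨s, ?_⟩, rfl⟩⟩
        rw [hD]
        exact Subgroup.mem_top s
      exact finprod_eq_of_bijective Subtype.val hbij (fun σ => rfl)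
    have hnorm' : Algebra.norm (locField q (τ'.comp (algebraMap k K))) d
        = (c : locField q (τ'.comp (algebraMap k K))) := Subtype.ext hnorm
    have hfd' := finiteDimensional_extendScalars q k τ'
    have hd0 : d ≠ 0 := by
      intro h0
      rw [h0, Algebra.norm_zero] at hnorm'
      exact c.ne_zero hnorm'.symm
    exact ⟨Units.mk0 d hd0, Units.ext hnorm'⟩

/-- **Local norms, second form.**  A norm `c` from the Kummer algebra over `k_v` is the product
over the decomposition group of the conjugates of a nonzero element of the completion of `K`. -/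
theorem exists_of_mem_kummerNormGroup {p : ℕ} (hp : p.Prime) {ζ : k}
    (hζ : IsPrimitiveRoot ζ p) {g : kˣ} (hg : g ∉ pPow p kˣ) (L : KummerLayer k K p g)
    (τ₀ : k →+* PadicAlgCl q) (τ' : K →+* PadicAlgCl q)
    (hτ : τ'.comp (algebraMap k K) = τ₀) (c : (locField q τ₀)ˣ)
    (hc : c ∈ kummerNormGroup p ((locEmb q τ₀ (g : k)) : locField q τ₀)) :
    ∃ d : PadicAlgCl q, d ∈ locField q τ' ∧ d ≠ 0 ∧
      ∏ᶠ σ : decompGroup q k τ', decompLift q k τ' σ d
        = ((c : locField q τ₀) : PadicAlgCl q) := by
  subst hτ
  have hGal : IsGalois k K := L.isGalois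
  have hfd : FiniteDimensional k K :=
    Module.finite_of_finrank_pos (by rw [L.finrank_eq]; exact hp.pos)
  have hc0 : ((c : locField q (τ'.comp (algebraMap k K))) : PadicAlgCl q) ≠ 0 := by
    intro h0
    exact c.ne_zero (Subtype.ext h0)
  by_cases hpow : ∃ c₀ : PadicAlgCl q, c₀ ∈ locField q (τ'.comp (algebraMap k K)) ∧
      c₀ ^ p = τ' (algebraMap k K (g : k))
  · have hD := decompGroup_eq_bot_of_pow hp hζ hg L τ' hpow
    have hmem : ((c : locField q (τ'.comp (algebraMap k K))) : PadicAlgCl q) ∈ locField q τ' :=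
      locField_comp_le q k τ' (c : locField q (τ'.comp (algebraMap k K))).2
    refine ⟨_, hmem, hc0, ?_⟩
    rw [finprod_eq_single _ (1 : decompGroup q k τ')]
    · exact decompLift_one_apply q k τ' hmem
    · intro σ hσ
      exfalso
      apply hσ
      apply Subtype.ext
      have h1 : ∀ s : K ≃ₐ[k] K, s ∈ decompGroup q k τ' → s = 1 := by
        intro s hs
        rw [hD, Subgroup.mem_bot] at hs
        exact hs
      exact h1 σ σ.2
  · obtain ⟨hD, hdeg⟩ := decompGroup_eq_top_of_not_pow hp L τ' hpow
    have hg' : ∀ b : locField q (τ'.comp (algebraMap k K)),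
        b ^ p ≠ locEmb q (τ'.comp (algebraMap k K)) (g : k) := by
      intro b hb
      exact hpow ⟨(b : PadicAlgCl q), b.2, congrArg Subtype.val hb⟩
    have hαmem : τ' L.α ∈ IntermediateField.extendScalars (locField_comp_le q k τ') :=
      (locEmb q τ' L.α).2
    have hα : (⟨τ' L.α, hαmem⟩ : IntermediateField.extendScalars (locField_comp_le q k τ')) ^ p
        = algebraMap (locField q (τ'.comp (algebraMap k K)))
            (IntermediateField.extendScalars (locField_comp_le q k τ'))
            (locEmb q (τ'.comp (algebraMap k K)) (g : k)) := by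
      apply Subtype.ext
      show (τ' L.α) ^ p = τ' (algebraMap k K (g : k))
      rw [← map_pow, L.root]
    rw [Fermat.Agent.S55.H83.kummerNormGroup_eq_range_norm_of_not_pow hp hg' _ hα hdeg] at hc
    obtain ⟨u, hu⟩ := hc
    have hu' : Algebra.norm (locField q (τ'.comp (algebraMap k K)))
        (u : IntermediateField.extendScalars (locField_comp_le q k τ'))
        = (c : locField q (τ'.comp (algebraMap k K))) := congrArg Units.val hu
    refine ⟨((u : IntermediateField.extendScalars (locField_comp_le q k τ')) : PadicAlgCl q),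
      (u : IntermediateField.extendScalars (locField_comp_le q k τ')).2, ?_, ?_⟩
    · intro h0
      exact u.ne_zero (Subtype.ext h0)
    · rw [← norm_eq_finprod_decompLift, hu']

/-- The absolute values in `exists_of_mem_kummerNormGroup`. -/
theorem norm_pow_card_of_finprod [Finite (K ≃ₐ[k] K)] (τ' : K →+* PadicAlgCl q)
    (d c : PadicAlgCl q)
    (h : ∏ᶠ σ : decompGroup q k τ', decompLift q k τ' σ d = c) :
    ‖d‖ ^ Nat.card (decompGroup q k τ') = ‖c‖ := by
  classical
  have : Fintype (decompGroup q k τ') := Fintype.ofFinite _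
  rw [finprod_eq_prod_of_fintype] at h
  rw [← h, norm_prod]
  have h1 : ∀ σ ∈ (Finset.univ : Finset (decompGroup q k τ')),
      ‖decompLift q k τ' σ d‖ = ‖d‖ := fun σ _ =>
    Fermat.Agent.S55.H24.norm_padicAlgEquiv q _ d
  rw [Finset.prod_congr rfl h1, Finset.prod_const, Finset.card_univ, Nat.card_eq_fintype_card]

end Local

end Fermat.Agent.S55.H50
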