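/-
S55 (Poitou–Tate), package C8 (B4), helper50: NORMS OF IDELES of a Kummer layer `K / k` of
degree `p` (model: helper88's `ideleGroup`, finite ideles as families of semi-local units)
versus the local Kummer norm groups `H8.finNloc k p g v` of packages C6/C7.

* `semiLocalUnitOf` : a nowhere vanishing Galois-equivariant function is a semi-local unit;
* `finLoc_mem_finNloc_of_norm` (b1) : if the norm of an idele of `K` is the principal idele of
  `a ∈ kˣ`, then `a` is a local Kummer norm at every finite place of `k`;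
* `exists_idele_norm` (b2) : every family `n ∈ NmLoc (finU k) (finNloc k p g)` of local norms is
  the norm of an idele of `K` (componentwise form, at all embeddings).
-/
import Mathlib
import Fermat.Agent.S55.H50.LocalKummerNorm
import Fermat.Agent.S55.H88.IdeleRep
import Fermat.Agent.S55.H8.KummerModel

set_option autoImplicit false

open NumberField

noncomputable section

namespace Fermat.Agent.S55.H50

open Fermat.Agent.S55.H8 Fermat.Agent.S55.H88 Fermat.Agent.S55.H20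

attribute [local instance] Fermat.Agent.S55.H88.factOfPrimes

/-- A nowhere vanishing Galois-equivariant function on the embeddings is a semi-local unit. -/
def semiLocalUnitOf {q : ℕ} [Fact q.Prime] {K : Type*} [Field K]
    (f : (K →+* PadicAlgCl q) → PadicAlgCl q)
    (hf : ∀ (g : PadicAlgCl q ≃ₐ[ℚ_[q]] PadicAlgCl q) (τ : K →+* PadicAlgCl q),
      f ((g : PadicAlgCl q →+* PadicAlgCl q).comp τ) = g (f τ))
    (h0 : ∀ τ, f τ ≠ 0) : (semiLocal q K)ˣ where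
  val := ⟨f, hf⟩
  inv := ⟨fun τ => (f τ)⁻¹, fun g τ => by
    show (f ((g : PadicAlgCl q →+* PadicAlgCl q).comp τ))⁻¹ = g ((f τ)⁻¹)
    rw [hf g τ, map_inv₀]⟩
  val_inv := Subtype.ext (funext fun τ => mul_inv_cancel₀ (h0 τ))
  inv_val := Subtype.ext (funext fun τ => inv_mul_cancel₀ (h0 τ))

@[simp] theorem coe_semiLocalUnitOf {q : ℕ} [Fact q.Prime] {K : Type*} [Field K]
    (f : (K →+* PadicAlgCl q) → PadicAlgCl q)
    (hf : ∀ (g : PadicAlgCl q ≃ₐ[ℚ_[q]] PadicAlgCl q) (τ : K →+* PadicAlgCl q),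
      f ((g : PadicAlgCl q →+* PadicAlgCl q).comp τ) = g (f τ))
    (h0 : ∀ τ, f τ ≠ 0) (τ : K →+* PadicAlgCl q) :
    (((semiLocalUnitOf f hf h0 : (semiLocal q K)ˣ) : semiLocal q K) :
      (K →+* PadicAlgCl q) → PadicAlgCl q) τ = f τ := rfl

section NormIdele

variable {k K : Type} [Field k] [Field K] [Algebra k K]
  (ext : ∀ (q : Nat.Primes), PlaceAbove (q : ℕ) k → (K →+* PadicAlgCl (q : ℕ)))
  (dd : ∀ (q : Nat.Primes), PlaceAbove (q : ℕ) k → PadicAlgCl (q : ℕ))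

open Classical in
/-- The function `ρ ∘ ext v ↦ ρ (dd v)`, `1` at the embeddings which are not conjugate to a
chosen one. -/
def normIdeleFun (q : Nat.Primes) (τ'' : K →+* PadicAlgCl (q : ℕ)) : PadicAlgCl (q : ℕ) :=
  if h : ∃ ρ : PadicAlgCl (q : ℕ) ≃ₐ[ℚ_[(q : ℕ)]] PadicAlgCl (q : ℕ),
      τ'' = (ρ : PadicAlgCl (q : ℕ) →+* PadicAlgCl (q : ℕ)).comp
        (ext q (placeOf (q : ℕ) (τ''.comp (algebraMap k K))))
  then (Classical.choose h) (dd q (placeOf (q : ℕ) (τ''.comp (algebraMap k K)))) else 1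

variable {ext dd}

theorem normIdeleFun_eq_one (q : Nat.Primes) (τ'' : K →+* PadicAlgCl (q : ℕ))
    (P : PlaceAbove (q : ℕ) k) (hP : placeOf (q : ℕ) (τ''.comp (algebraMap k K)) = P)
    (h : ¬ ∃ ρ : PadicAlgCl (q : ℕ) ≃ₐ[ℚ_[(q : ℕ)]] PadicAlgCl (q : ℕ),
      τ'' = (ρ : PadicAlgCl (q : ℕ) →+* PadicAlgCl (q : ℕ)).comp (ext q P)) :
    normIdeleFun ext dd q τ'' = 1 := by
  subst hP
  exact dif_neg h

variable (hext : ∀ (q : Nat.Primes) (P : PlaceAbove (q : ℕ) k),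
    (ext q P).comp (algebraMap k K) = P.emb)
  (hddmem : ∀ (q : Nat.Primes) (P : PlaceAbove (q : ℕ) k),
    dd q P ∈ locField (q : ℕ) (ext q P))

include hext in
theorem placeOf_comp_ext (q : Nat.Primes) (P : PlaceAbove (q : ℕ) k)
    (ρ : PadicAlgCl (q : ℕ) ≃ₐ[ℚ_[(q : ℕ)]] PadicAlgCl (q : ℕ)) (τ'' : K →+* PadicAlgCl (q : ℕ))
    (h : τ'' = (ρ : PadicAlgCl (q : ℕ) →+* PadicAlgCl (q : ℕ)).comp (ext q P)) :
    placeOf (q : ℕ) (τ''.comp (algebraMap k K)) = P := by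
  have h1 : τ''.comp (algebraMap k K)
      = (ρ : PadicAlgCl (q : ℕ) →+* PadicAlgCl (q : ℕ)).comp P.emb := by
    rw [h, RingHom.comp_assoc, hext q P]
  have h2 : placeOf (q : ℕ) P.emb = placeOf (q : ℕ) (τ''.comp (algebraMap k K)) :=
    (placeOf_eq_iff (q : ℕ) _ _).2 ⟨ρ, h1⟩
  exact h2.symm.trans (Quotient.out_eq P)

include hext hddmem in
theorem normIdeleFun_eq (q : Nat.Primes) (τ'' : K →+* PadicAlgCl (q : ℕ))
    (P : PlaceAbove (q : ℕ) k)
    (ρ : PadicAlgCl (q : ℕ) ≃ₐ[ℚ_[(q : ℕ)]] PadicAlgCl (q : ℕ))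
    (h : τ'' = (ρ : PadicAlgCl (q : ℕ) →+* PadicAlgCl (q : ℕ)).comp (ext q P)) :
    normIdeleFun ext dd q τ'' = ρ (dd q P) := by
  have hP := placeOf_comp_ext hext q P ρ τ'' h
  subst hP
  have hex : ∃ ρ' : PadicAlgCl (q : ℕ) ≃ₐ[ℚ_[(q : ℕ)]] PadicAlgCl (q : ℕ),
      τ'' = (ρ' : PadicAlgCl (q : ℕ) →+* PadicAlgCl (q : ℕ)).comp
        (ext q (placeOf (q : ℕ) (τ''.comp (algebraMap k K)))) := ⟨ρ, h⟩
  have h1 : normIdeleFun ext dd q τ''
      = (Classical.choose hex) (dd q (placeOf (q : ℕ) (τ''.comp (algebraMap k K)))) :=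
    dif_pos hex
  rw [h1]
  exact eqOn_locField (q : ℕ) (ext q (placeOf (q : ℕ) (τ''.comp (algebraMap k K)))) _ _
    ((Classical.choose_spec hex).symm.trans h) (hddmem _ _)

include hext hddmem in
theorem normIdeleFun_comp (q : Nat.Primes)
    (g : PadicAlgCl (q : ℕ) ≃ₐ[ℚ_[(q : ℕ)]] PadicAlgCl (q : ℕ))
    (τ'' : K →+* PadicAlgCl (q : ℕ)) :
    normIdeleFun ext dd q ((g : PadicAlgCl (q : ℕ) →+* PadicAlgCl (q : ℕ)).comp τ'')
      = g (normIdeleFun ext dd q τ'') := by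
  by_cases h : ∃ ρ : PadicAlgCl (q : ℕ) ≃ₐ[ℚ_[(q : ℕ)]] PadicAlgCl (q : ℕ),
      τ'' = (ρ : PadicAlgCl (q : ℕ) →+* PadicAlgCl (q : ℕ)).comp
        (ext q (placeOf (q : ℕ) (τ''.comp (algebraMap k K))))
  · obtain ⟨ρ, hρ⟩ := h
    have h1 : (g : PadicAlgCl (q : ℕ) →+* PadicAlgCl (q : ℕ)).comp τ''
        = ((g * ρ : PadicAlgCl (q : ℕ) ≃ₐ[ℚ_[(q : ℕ)]] PadicAlgCl (q : ℕ)) :
            PadicAlgCl (q : ℕ) →+* PadicAlgCl (q : ℕ)).comp
          (ext q (placeOf (q : ℕ) (τ''.comp (algebraMap k K)))) := by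
      refine RingHom.ext fun x => ?_
      have h2 := RingHom.congr_fun hρ x
      exact congrArg g h2
    rw [normIdeleFun_eq hext hddmem q _ _ (g * ρ) h1, normIdeleFun_eq hext hddmem q τ'' _ ρ hρ]
    rfl
  · have h1 : normIdeleFun ext dd q τ'' = 1 := normIdeleFun_eq_one q τ'' _ rfl h
    have hP : placeOf (q : ℕ)
        (((g : PadicAlgCl (q : ℕ) →+* PadicAlgCl (q : ℕ)).comp τ'').comp (algebraMap k K))
        = placeOf (q : ℕ) (τ''.comp (algebraMap k K)) :=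
      ((placeOf_eq_iff (q : ℕ) _ _).2 ⟨g, RingHom.comp_assoc _ _ _⟩).symm
    have h2 : normIdeleFun ext dd q ((g : PadicAlgCl (q : ℕ) →+* PadicAlgCl (q : ℕ)).comp τ'')
        = 1 := by
      refine normIdeleFun_eq_one q _ _ hP ?_
      rintro ⟨ρ', hρ'⟩
      refine h ⟨g⁻¹ * ρ', RingHom.ext fun x => ?_⟩
      have h3 : g (τ'' x) = ρ' (ext q (placeOf (q : ℕ) (τ''.comp (algebraMap k K))) x) :=
        RingHom.congr_fun hρ' x
      show τ'' x = g⁻¹ (ρ' (ext q (placeOf (q : ℕ) (τ''.comp (algebraMap k K))) x))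
      rw [← h3]
      exact (g.symm_apply_apply (τ'' x)).symm
    rw [h1, h2, map_one]

include hext hddmem in
theorem normIdeleFun_ne_zero
    (hdd0 : ∀ (q : Nat.Primes) (P : PlaceAbove (q : ℕ) k), dd q P ≠ 0) (q : Nat.Primes)
    (τ'' : K →+* PadicAlgCl (q : ℕ)) : normIdeleFun ext dd q τ'' ≠ 0 := by
  by_cases h : ∃ ρ : PadicAlgCl (q : ℕ) ≃ₐ[ℚ_[(q : ℕ)]] PadicAlgCl (q : ℕ),
      τ'' = (ρ : PadicAlgCl (q : ℕ) →+* PadicAlgCl (q : ℕ)).comp
        (ext q (placeOf (q : ℕ) (τ''.comp (algebraMap k K))))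
  · obtain ⟨ρ, hρ⟩ := h
    rw [normIdeleFun_eq hext hddmem q τ'' _ ρ hρ, Ne, map_eq_zero]
    exact hdd0 _ _
  · rw [normIdeleFun_eq_one q τ'' _ rfl h]
    exact one_ne_zero

include hext hddmem in
theorem norm_normIdeleFun (q : Nat.Primes) (τ'' : K →+* PadicAlgCl (q : ℕ))
    (h1 : ‖dd q (placeOf (q : ℕ) (τ''.comp (algebraMap k K)))‖ = 1) :
    ‖normIdeleFun ext dd q τ''‖ = 1 := by
  by_cases h : ∃ ρ : PadicAlgCl (q : ℕ) ≃ₐ[ℚ_[(q : ℕ)]] PadicAlgCl (q : ℕ),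
      τ'' = (ρ : PadicAlgCl (q : ℕ) →+* PadicAlgCl (q : ℕ)).comp
        (ext q (placeOf (q : ℕ) (τ''.comp (algebraMap k K))))
  · obtain ⟨ρ, hρ⟩ := h
    rw [normIdeleFun_eq hext hddmem q τ'' _ ρ hρ,
      Fermat.Agent.S55.H24.norm_padicAlgEquiv (q : ℕ) ρ]
    exact h1
  · rw [normIdeleFun_eq_one q τ'' _ rfl h]
    exact norm_one

include hext hddmem in
/-- The product of the values of `normIdeleFun` over the embeddings `ext v ∘ s` is the product
of the conjugates of `dd v` under the decomposition group. -/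
theorem finprod_normIdeleFun [Finite (K ≃ₐ[k] K)] (q : Nat.Primes) (P : PlaceAbove (q : ℕ) k) :
    ∏ᶠ s : K ≃ₐ[k] K, normIdeleFun ext dd q ((ext q P).comp ((s : K ≃+* K) : K →+* K))
      = ∏ᶠ σ : decompGroup (q : ℕ) k (ext q P),
          decompLift (q : ℕ) k (ext q P) σ (dd q P) := by
  classical
  have hin : ∀ σ : decompGroup (q : ℕ) k (ext q P),
      normIdeleFun ext dd q ((ext q P).comp ((((σ : K ≃ₐ[k] K)) : K ≃+* K) : K →+* K))
        = decompLift (q : ℕ) k (ext q P) σ (dd q P) := fun σ =>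
    normIdeleFun_eq hext hddmem q _ P _ (decompLift_spec (q : ℕ) k (ext q P) σ)
  have hout : ∀ s : K ≃ₐ[k] K, s ∉ decompGroup (q : ℕ) k (ext q P) →
      normIdeleFun ext dd q ((ext q P).comp ((s : K ≃+* K) : K →+* K)) = 1 := by
    intro s hs
    refine normIdeleFun_eq_one q _ P ?_ hs
    have h1 : ((ext q P).comp ((s : K ≃+* K) : K →+* K)).comp (algebraMap k K) = P.emb := by
      rw [← show (ext q P).comp (algebraMap k K) = P.emb from hext q P]
      exact RingHom.ext fun c => congrArg (ext q P) (s.commutes c)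
    rw [h1]
    exact Quotient.out_eq P
  rw [← finprod_congr hin,
    finprod_subtype_eq_finprod_cond (fun s : K ≃ₐ[k] K => s ∈ decompGroup (q : ℕ) k (ext q P))
      (f := fun s : K ≃ₐ[k] K =>
        normIdeleFun ext dd q ((ext q P).comp ((s : K ≃+* K) : K →+* K)))]
  refine finprod_congr fun s => ?_
  by_cases hs : s ∈ decompGroup (q : ℕ) k (ext q P)
  · rw [finprod_eq_if, if_pos hs]
  · rw [hout s hs, finprod_eq_if, if_neg hs]

end NormIdele

section Bridges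

variable (k K : Type) [Field k] [NumberField k] [Field K] [NumberField K] [Algebra k K]

/-- **Bridge (b1).**  If the norm of an idele `y` of `K` is, at every embedding, the value of
`a ∈ kˣ`, then `a` is a local norm from the Kummer algebra at every finite place of `k`. -/
theorem finLoc_mem_finNloc_of_norm {p : ℕ} (hp : p.Prime) {ζ : k} (hζ : IsPrimitiveRoot ζ p)
    {g : kˣ} (L : KummerLayer k K p g) (a : kˣ)
    (y : ∀ q : Nat.Primes, (semiLocal (q : ℕ) K)ˣ)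
    (h : ∀ (q : Nat.Primes) (τ'' : K →+* PadicAlgCl (q : ℕ)),
      ∏ᶠ s : K ≃ₐ[k] K, ((y q : semiLocal (q : ℕ) K) :
          (K →+* PadicAlgCl (q : ℕ)) → PadicAlgCl (q : ℕ))
        (τ''.comp ((s : K ≃+* K) : K →+* K)) = τ'' (algebraMap k K (a : k))) :
    ∀ v : FinPlace k, finLoc k v a ∈ finNloc k p g v := by
  intro v
  have hfd : FiniteDimensional k K :=
    Module.finite_of_finrank_pos (by rw [L.finrank_eq]; exact hp.pos)
  obtain ⟨τ', hτ'⟩ := exists_extend (q := (v.1 : ℕ)) (k := k) (K := K) v.emb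
  refine mem_kummerNormGroup_of_finprod (v.1 : ℕ) hp hζ L v.emb τ' hτ'
    (y v.1 : semiLocal (v.1 : ℕ) K) (finLoc k v a) ?_
  rw [h v.1 τ']
  show τ' (algebraMap k K (a : k)) = v.emb (a : k)
  rw [← hτ']
  rfl

/-- **Bridge (b2).**  Every family of local Kummer norms (units almost everywhere) is the norm
of an idele of `K`, in componentwise form: at an embedding `τ''` of `K` with
`τ''|k = ρ ∘ v.emb`, the product of the values of the idele at the conjugates `τ'' ∘ s` is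
`ρ (n v)`. -/
theorem exists_idele_norm {p : ℕ} (hp : p.Prime) {ζ : k} (hζ : IsPrimitiveRoot ζ p)
    {g : kˣ} (hg : g ∉ pPow p kˣ) (L : KummerLayer k K p g)
    (n : ∀ v : FinPlace k, finX k v) (hn : n ∈ NmLoc (finU k) (finNloc k p g)) :
    ∃ y : ideleGroup K, ∀ (v : FinPlace k)
      (ρ : PadicAlgCl (v.1 : ℕ) ≃ₐ[ℚ_[(v.1 : ℕ)]] PadicAlgCl (v.1 : ℕ))
      (τ'' : K →+* PadicAlgCl (v.1 : ℕ)),
      τ''.comp (algebraMap k K)
        = (ρ : PadicAlgCl (v.1 : ℕ) →+* PadicAlgCl (v.1 : ℕ)).comp v.emb →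
      ∏ᶠ s : K ≃ₐ[k] K, ((((y : ∀ q : Nat.Primes, (semiLocal (q : ℕ) K)ˣ) v.1 :
          (semiLocal (v.1 : ℕ) K)ˣ) : semiLocal (v.1 : ℕ) K) :
            (K →+* PadicAlgCl (v.1 : ℕ)) → PadicAlgCl (v.1 : ℕ))
          (τ''.comp ((s : K ≃+* K) : K →+* K))
        = ρ (((n v : finX k v) : v.field) : PadicAlgCl (v.1 : ℕ)) := by
  classical
  have hGal : IsGalois k K := L.isGalois
  have hfd : FiniteDimensional k K :=
    Module.finite_of_finrank_pos (by rw [L.finrank_eq]; exact hp.pos)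
  rw [mem_NmLoc] at hn
  obtain ⟨hnres, hnloc⟩ := hn
  -- extensions of the chosen embeddings and local norm preimages
  have hex : ∀ (q : Nat.Primes) (P : PlaceAbove (q : ℕ) k), ∃ τ' : K →+* PadicAlgCl (q : ℕ),
      τ'.comp (algebraMap k K) = P.emb := fun q P =>
    exists_extend (q := (q : ℕ)) (k := k) (K := K) P.emb
  choose ext hext using hex
  have hloc : ∀ (q : Nat.Primes) (P : PlaceAbove (q : ℕ) k), ∃ d : PadicAlgCl (q : ℕ),
      d ∈ locField (q : ℕ) (ext q P) ∧ d ≠ 0 ∧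
      ∏ᶠ σ : decompGroup (q : ℕ) k (ext q P), decompLift (q : ℕ) k (ext q P) σ d
        = (((n ⟨q, P⟩ : finX k ⟨q, P⟩) : FinPlace.field (⟨q, P⟩ : FinPlace k)) :
            PadicAlgCl (q : ℕ)) := fun q P =>
    exists_of_mem_kummerNormGroup (q : ℕ) hp hζ hg L P.emb (ext q P) (hext q P) (n ⟨q, P⟩)
      (hnloc ⟨q, P⟩)
  choose dd hddmem hdd0 hddprod using hloc
  -- `dd` is a unit where `n` is
  have hddunit : ∀ (q : Nat.Primes) (P : PlaceAbove (q : ℕ) k),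
      n ⟨q, P⟩ ∈ finU k ⟨q, P⟩ → ‖dd q P‖ = 1 := by
    intro q P hv
    have h1 := norm_pow_card_of_finprod (q : ℕ) (k := k) (ext q P) (dd q P) _ (hddprod q P)
    have h2 : ‖(((n ⟨q, P⟩ : finX k ⟨q, P⟩) : FinPlace.field (⟨q, P⟩ : FinPlace k)) :
        PadicAlgCl (q : ℕ))‖ = 1 := hv
    rw [h2] at h1
    exact (pow_eq_one_iff_of_nonneg (norm_nonneg _) Nat.card_pos.ne').1 h1
  -- the idele
  have hfin : {q : Nat.Primes |
      semiLocalUnitOf (normIdeleFun ext dd q) (normIdeleFun_comp hext hddmem q)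
        (normIdeleFun_ne_zero hext hddmem hdd0 q) ∉ semiLocalUnits (q : ℕ) K}.Finite := by
    have hfin0 : {v : FinPlace k | n v ∉ finU k v}.Finite := hnres
    refine (hfin0.image (fun v : FinPlace k => v.1)).subset ?_
    intro q hq
    by_contra hcon
    apply hq
    intro τ''
    refine norm_normIdeleFun hext hddmem q τ'' (hddunit _ _ ?_)
    by_contra hv
    exact hcon ⟨_, hv, rfl⟩
  refine ⟨⟨fun q => semiLocalUnitOf (normIdeleFun ext dd q) (normIdeleFun_comp hext hddmem q)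
    (normIdeleFun_ne_zero hext hddmem hdd0 q), hfin⟩, ?_⟩
  rintro ⟨q, P⟩ ρ τ'' hτ''
  show ∏ᶠ s : K ≃ₐ[k] K, normIdeleFun ext dd q (τ''.comp ((s : K ≃+* K) : K →+* K))
    = ρ (((n ⟨q, P⟩ : finX k ⟨q, P⟩) : FinPlace.field (⟨q, P⟩ : FinPlace k)) :
        PadicAlgCl (q : ℕ))
  have hτP : τ''.comp (algebraMap k K)
      = (ρ : PadicAlgCl (q : ℕ) →+* PadicAlgCl (q : ℕ)).comp P.emb := hτ''
  -- `τ'' = ρ ∘ ext v ∘ s₀`
  have h1 : (ext q P).comp (algebraMap k K)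
      = (((ρ⁻¹ : PadicAlgCl (q : ℕ) ≃ₐ[ℚ_[(q : ℕ)]] PadicAlgCl (q : ℕ)) :
          PadicAlgCl (q : ℕ) →+* PadicAlgCl (q : ℕ)).comp τ'').comp (algebraMap k K) := by
    rw [RingHom.comp_assoc, hτP, hext q P]
    refine RingHom.ext fun x => ?_
    show P.emb x = ρ⁻¹ (ρ (P.emb x))
    exact (ρ.symm_apply_apply _).symm
  obtain ⟨s₀, hs₀⟩ := exists_algEquiv_comp_eq (q : ℕ) (ext q P) _ h1
  have h2 : ∀ s : K ≃ₐ[k] K, τ''.comp ((s : K ≃+* K) : K →+* K)
      = (ρ : PadicAlgCl (q : ℕ) →+* PadicAlgCl (q : ℕ)).comp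
          ((ext q P).comp (((s₀ * s : K ≃ₐ[k] K) : K ≃+* K) : K →+* K)) := by
    intro s
    refine RingHom.ext fun x => ?_
    have h3 : ρ⁻¹ (τ'' (s x)) = ext q P (s₀ (s x)) := RingHom.congr_fun hs₀ (s x)
    show τ'' (s x) = ρ (ext q P (s₀ (s x)))
    rw [← h3]
    exact (ρ.apply_symm_apply _).symm
  have h4 : ∀ s : K ≃ₐ[k] K,
      normIdeleFun ext dd q (τ''.comp ((s : K ≃+* K) : K →+* K))
        = ρ (normIdeleFun ext dd q
            ((ext q P).comp (((s₀ * s : K ≃ₐ[k] K) : K ≃+* K) : K →+* K))) := by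
    intro s
    rw [h2 s]
    exact normIdeleFun_comp hext hddmem q ρ _
  rw [finprod_congr h4]
  have h5 : (∏ᶠ s : K ≃ₐ[k] K, ρ (normIdeleFun ext dd q
        ((ext q P).comp (((s₀ * s : K ≃ₐ[k] K) : K ≃+* K) : K →+* K))))
      = ρ (∏ᶠ s : K ≃ₐ[k] K, normIdeleFun ext dd q
        ((ext q P).comp (((s₀ * s : K ≃ₐ[k] K) : K ≃+* K) : K →+* K))) :=
    (map_finprod (ρ : PadicAlgCl (q : ℕ) →* PadicAlgCl (q : ℕ))
      (Set.toFinite _)).symm
  rw [h5]
  congr 1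
  have h6 : (∏ᶠ s : K ≃ₐ[k] K, normIdeleFun ext dd q
        ((ext q P).comp (((s₀ * s : K ≃ₐ[k] K) : K ≃+* K) : K →+* K)))
      = ∏ᶠ s : K ≃ₐ[k] K, normIdeleFun ext dd q
        ((ext q P).comp ((s : K ≃+* K) : K →+* K)) :=
    finprod_eq_of_bijective (fun s => s₀ * s) (Group.mulLeft_bijective s₀) (fun s => rfl)
  rw [h6, finprod_normIdeleFun hext hddmem q P]
  exact hddprod q P

end Bridges

end Fermat.Agent.S55.H50
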