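/-
S55 (Program C), package C8, part B4 — helper50: **CLS-PRIME**.

For a Galois layer `K / k` of number fields of prime degree `p` (`p` odd, `ζ_p ∈ k`), in
helper88's idele model (`H88.ideleRep`, `H88.ideleClassRep`):

* `clsPrime_H1` : `H¹(Gal(K/k), C_K) = 0`   (from (D5) `H¹(J_K) = 0` and the Hasse norm theorem);
* `clsPrime_H2` : `#H²(Gal(K/k), C_K) ∣ p`  (from Hilbert 90 and the second inequality C7);
* `clsPrime`    : both.

These are the prime-layer inputs of the `p`-tower induction `H99.pgroup_cls_devissage`.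
-/
import Mathlib
import Fermat.Agent.S55.H50.NormIdele
import Fermat.Agent.S55.H50.FirstIneq
import Fermat.Agent.S55.H37.CycLayer
import Fermat.Agent.S55.H37.PrimeHasse
import Fermat.Agent.S55.H8.HNT
import Fermat.Agent.S55.H8.IdeleDict
import Fermat.Agent.S55.H72.CycGlob
import Fermat.Agent.S55.H52.KummerGen
import Fermat.Agent.S55.H55.IdeleInv
import Fermat.Agent.S55.H39.IdeleFinal

set_option autoImplicit false

open NumberField CategoryTheory groupCohomology

noncomputable section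

namespace Fermat.Agent.S55.H50

open Fermat.Agent.S55.H8 Fermat.Agent.S55.H88 Fermat.Agent.S55.H20 Fermat.Agent.S55.H29

attribute [local instance] Fermat.Agent.S55.H88.factOfPrimes

/-! ### Values of ideles -/

section Val

variable (K : Type) [Field K]

/-- The value of an idele at the prime `q` and the embedding `τ`. -/
def ideleVal (q : Nat.Primes) (τ : K →+* PadicAlgCl (q : ℕ)) :
    ideleGroup K →* PadicAlgCl (q : ℕ) where
  toFun x := ((((x : ∀ q : Nat.Primes, (semiLocal (q : ℕ) K)ˣ) q : (semiLocal (q : ℕ) K)ˣ) :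
    semiLocal (q : ℕ) K) : (K →+* PadicAlgCl (q : ℕ)) → PadicAlgCl (q : ℕ)) τ
  map_one' := rfl
  map_mul' _ _ := rfl

variable {K}

theorem ideleVal_apply (q : Nat.Primes) (τ : K →+* PadicAlgCl (q : ℕ)) (x : ideleGroup K) :
    ideleVal K q τ x = ((((x : ∀ q : Nat.Primes, (semiLocal (q : ℕ) K)ˣ) q :
      (semiLocal (q : ℕ) K)ˣ) : semiLocal (q : ℕ) K) :
        (K →+* PadicAlgCl (q : ℕ)) → PadicAlgCl (q : ℕ)) τ := rfl

theorem idele_ext_val {x y : ideleGroup K}
    (h : ∀ (q : Nat.Primes) (τ : K →+* PadicAlgCl (q : ℕ)), ideleVal K q τ x = ideleVal K q τ y) :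
    x = y :=
  Subtype.ext (funext fun q => Units.ext (Subtype.ext (funext fun τ => h q τ)))

theorem ideleVal_smul {k : Type} [Field k] [Algebra k K] (s : K ≃ₐ[k] K) (x : ideleGroup K)
    (q : Nat.Primes) (τ : K →+* PadicAlgCl (q : ℕ)) :
    ideleVal K q τ (s • x) = ideleVal K q (τ.comp ((s : K ≃+* K) : K →+* K)) x := rfl

theorem ideleVal_diag [NumberField K] (u : Kˣ) (q : Nat.Primes) (τ : K →+* PadicAlgCl (q : ℕ)) :
    ideleVal K q τ (ideleDiagHom K u) = τ (u : K) := rfl

theorem ideleVal_comp (q : Nat.Primes) (τ : K →+* PadicAlgCl (q : ℕ))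
    (ρ : PadicAlgCl (q : ℕ) ≃ₐ[ℚ_[(q : ℕ)]] PadicAlgCl (q : ℕ)) (x : ideleGroup K) :
    ideleVal K q ((ρ : PadicAlgCl (q : ℕ) →+* PadicAlgCl (q : ℕ)).comp τ) x
      = ρ (ideleVal K q τ x) :=
  (((x : ∀ q : Nat.Primes, (semiLocal (q : ℕ) K)ˣ) q : (semiLocal (q : ℕ) K)ˣ) :
    semiLocal (q : ℕ) K).2 ρ τ

theorem ideleVal_ideleMap {k : Type} [Field k] [Algebra k K] [Algebra.IsAlgebraic k K]
    (x : ideleGroup k) (q : Nat.Primes) (τ : K →+* PadicAlgCl (q : ℕ)) :
    ideleVal K q τ (H55.IdeleInv.ideleMap k K x) = ideleVal k q (τ.comp (algebraMap k K)) x := rfl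

end Val

/-! ### The idele representation -/

section RepVal

variable (k K : Type) [Field k] [Field K] [Algebra k K]

/-- The idele underlying an element of the idele representation. -/
def ideleOfRep (y : ideleRep k K) : ideleGroup K :=
  Additive.toMul (show Additive (ideleGroup K) from y)

/-- The element of the idele representation given by an idele. -/
def repOfIdele (x : ideleGroup K) : ideleRep k K :=
  (show (ideleRep k K : Type) from (Additive.ofMul x : Additive (ideleGroup K)))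

variable {k K}

@[simp] theorem ideleOfRep_repOfIdele (x : ideleGroup K) :
    ideleOfRep k K (repOfIdele k K x) = x := rfl

@[simp] theorem repOfIdele_ideleOfRep (y : ideleRep k K) :
    repOfIdele k K (ideleOfRep k K y) = y := rfl

theorem ideleOfRep_injective : Function.Injective (ideleOfRep k K) := fun a b h => by
  rw [← repOfIdele_ideleOfRep a, ← repOfIdele_ideleOfRep b, h]

theorem ideleOfRep_add (y z : ideleRep k K) :
    ideleOfRep k K (y + z) = ideleOfRep k K y * ideleOfRep k K z := rfl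

theorem ideleOfRep_rho (s : K ≃ₐ[k] K) (y : ideleRep k K) :
    ideleOfRep k K ((ideleRep k K).ρ s y) = s • ideleOfRep k K y := rfl

theorem ideleOfRep_sum {ι : Type*} (t : Finset ι) (f : ι → ideleRep k K) :
    ideleOfRep k K (∑ i ∈ t, f i) = ∏ i ∈ t, ideleOfRep k K (f i) := by
  classical
  induction t using Finset.induction_on with
  | empty => rfl
  | insert a t ha ih =>
    rw [Finset.sum_insert ha, Finset.prod_insert ha, ideleOfRep_add, ih]

theorem ideleOfRep_diag [NumberField K] (u : Rep.ofAlgebraAutOnUnits k K) :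
    ideleOfRep k K ((ideleDiag k K).hom u)
      = ideleDiagHom K (Additive.toMul (Rep.toAdditive u) : Kˣ) := rfl

/-- The value of the norm `∑_s s • y` of an element of the idele representation. -/
theorem ideleVal_sum_rho [Fintype (K ≃ₐ[k] K)] (y : ideleRep k K) (q : Nat.Primes)
    (τ : K →+* PadicAlgCl (q : ℕ)) :
    ideleVal K q τ (ideleOfRep k K (∑ s : K ≃ₐ[k] K, (ideleRep k K).ρ s y))
      = ∏ s : K ≃ₐ[k] K,
          ideleVal K q (τ.comp ((s : K ≃+* K) : K →+* K)) (ideleOfRep k K y) := by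
  rw [ideleOfRep_sum, map_prod]
  rfl

end RepVal

/-! ### `H¹(C_K) = 0` -/

section H1

variable (k K : Type) [Field k] [NumberField k] [Field K] [NumberField K] [Algebra k K]
  [IsGalois k K]

/-- **CLS-PRIME, part 1.**  `H¹(Gal(K/k), C_K) = 0` for a Galois layer of prime degree `p`
(`p` odd, `ζ_p ∈ k`), from `H¹(Gal(K/k), J_K) = 0`. -/
theorem clsPrime_H1_of {p : ℕ} (hp : p.Prime) (hp2 : p ≠ 2)
    (hζ : ∃ ζ : k, IsPrimitiveRoot ζ p) (hdeg : Module.finrank k K = p)
    (hD5 : IdeleH1Statement k K) :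
    Limits.IsZero (groupCohomology (ideleClassRep k K) 1) := by
  have : FiniteDimensional k K := Module.finite_of_finrank_pos (by rw [hdeg]; exact hp.pos)
  obtain ⟨g, β, σ, hg, hβ, -, hσ⟩ := H52.exists_kummer_generator k K p hp hζ hdeg
  obtain ⟨ζ, hζ⟩ := hζ
  let L : KummerLayer k K p g := ⟨β, σ, hβ, hdeg, inferInstance, hσ⟩
  let _ : Fintype (K ≃ₐ[k] K) := Fintype.ofFinite _
  refine H37.isZero_H1_of_normPrinciple (ideleShortComplex_shortExact k K) σ hσ hD5 ?_
  rintro u hu ⟨y, hy⟩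
  obtain ⟨a, rfl⟩ := H37.exists_unitOfBase_of_invariant k K u hu
  -- `a` is a local norm everywhere
  have hloc : ∀ v : FinPlace k, finLoc k v a ∈ finNloc k p g v := by
    refine finLoc_mem_finNloc_of_norm k K hp hζ L a
      ((ideleOfRep k K y : ideleGroup K) : ∀ q : Nat.Primes, (semiLocal (q : ℕ) K)ˣ) ?_
    intro q τ''
    have h1 := congrArg (fun z : ideleRep k K => ideleVal K q τ'' (ideleOfRep k K z)) hy
    have h2 : ideleVal K q τ'' (ideleOfRep k K (∑ s : K ≃ₐ[k] K, (ideleRep k K).ρ s y))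
        = τ'' (algebraMap k K (a : k)) := h1
    rw [finprod_eq_prod_of_fintype]
    exact (ideleVal_sum_rho (k := k) y q τ'').symm.trans h2
  have hnorm : a ∈ kummerNormGroup p (g : k) := hasseNormStatement k p hp hp2 ζ hζ g hg a hloc
  obtain ⟨b, hb⟩ := H72.cycGlob k K p hp hdeg g hg β hβ a hnorm
  refine ⟨b, ?_⟩
  rw [← hb, finsum_eq_sum_of_fintype]
  rfl

/-- **CLS-PRIME, part 1**, unconditional. -/
theorem clsPrime_H1 {p : ℕ} (hp : p.Prime) (hp2 : p ≠ 2)
    (hζ : ∃ ζ : k, IsPrimitiveRoot ζ p) (hdeg : Module.finrank k K = p) :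
    Limits.IsZero (groupCohomology (ideleClassRep k K) 1) := by
  have : FiniteDimensional k K := Module.finite_of_finrank_pos (by rw [hdeg]; exact hp.pos)
  exact clsPrime_H1_of k K hp hp2 hζ hdeg (H39.ideleH1Statement k K)

end H1

/-! ### `#H²(C_K) ∣ p` -/

section H2

variable (k K : Type) [Field k] [NumberField k] [Field K] [NumberField K] [Algebra k K]
  [IsGalois k K]

omit [NumberField k] [NumberField K] [IsGalois k K] in
/-- Ideles coming from the base field are Galois-invariant. -/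
theorem smul_ideleMap_base [Algebra.IsAlgebraic k K] (s : K ≃ₐ[k] K) (x : ideleGroup k) :
    s • H55.IdeleInv.ideleMap k K x = H55.IdeleInv.ideleMap k K x := by
  refine idele_ext_val fun q τ => ?_
  have h : (τ.comp ((s : K ≃+* K) : K →+* K)).comp (algebraMap k K) = τ.comp (algebraMap k K) :=
    RingHom.ext fun a => congrArg τ (s.commutes a)
  rw [ideleVal_smul, ideleVal_ideleMap, ideleVal_ideleMap, h]

omit [IsGalois k K] in
/-- An idele of `k` whose image in the finite-place idele system lies in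
`kˣ · (local norms)` becomes, in `J_K`, a principal idele times a norm. -/
theorem ideleMap_eq_diag_mul_norm [Fintype (K ≃ₐ[k] K)] [Algebra.IsAlgebraic k K]
    {p : ℕ} (hp : p.Prime) {ζ : k} (hζ : IsPrimitiveRoot ζ p)
    {g : kˣ} (hg : g ∉ pPow p kˣ) (L : KummerLayer k K p g) (h : ideleGroup k)
    (hh : ideleToFin k h ∈ principal (finLoc k) ⊔ NmLoc (finU k) (finNloc k p g)) :
    ∃ (a : kˣ) (z : ideleGroup K), H55.IdeleInv.ideleMap k K h
      = ideleDiagHom K (Units.map (algebraMap k K : k →* K) a) * ∏ s : K ≃ₐ[k] K, s • z := by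
  obtain ⟨P, ⟨a, rfl⟩, n, hn, hPn⟩ := Subgroup.mem_sup.1 hh
  obtain ⟨z, hz⟩ := exists_idele_norm k K hp hζ hg L n hn
  refine ⟨a, z, ?_⟩
  have key : ∀ (v : FinPlace k)
      (ρ : PadicAlgCl (v.1 : ℕ) ≃ₐ[ℚ_[(v.1 : ℕ)]] PadicAlgCl (v.1 : ℕ))
      (τ'' : K →+* PadicAlgCl (v.1 : ℕ)),
      τ''.comp (algebraMap k K)
        = (ρ : PadicAlgCl (v.1 : ℕ) →+* PadicAlgCl (v.1 : ℕ)).comp v.emb →
      ideleVal K v.1 τ'' (H55.IdeleInv.ideleMap k K h)
        = ideleVal K v.1 τ'' (ideleDiagHom K (Units.map (algebraMap k K : k →* K) a)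
            * ∏ s : K ≃ₐ[k] K, s • z) := by
    intro v ρ τ'' hτ
    have h1 := hz v ρ τ'' hτ
    rw [finprod_eq_prod_of_fintype] at h1
    have h2 : ideleVal k v.1 v.emb h
        = v.emb (a : k) * (((n v : finX k v) : v.field) : PadicAlgCl (v.1 : ℕ)) := by
      have h3 : ideleAt k v h = finLoc k v a * n v := (congrFun hPn v).symm
      have h4 : ideleVal k v.1 v.emb h
          = (((ideleAt k v h : finX k v) : v.field) : PadicAlgCl (v.1 : ℕ)) := rfl
      rw [h4, h3]
      rfl
    rw [map_mul, map_prod, ideleVal_diag, ideleVal_ideleMap, hτ, ideleVal_comp, h2, map_mul]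
    congr 1
    · exact (congrArg (fun f : k →+* PadicAlgCl (v.1 : ℕ) => f (a : k)) hτ).symm
    · exact h1.symm
  refine idele_ext_val fun q τ'' => ?_
  obtain ⟨ρ, hρ⟩ := exists_eq_comp_emb (q : ℕ) (τ''.comp (algebraMap k K))
  exact key ⟨q, placeOf (q : ℕ) (τ''.comp (algebraMap k K))⟩ ρ τ'' hρ

/-- **CLS-PRIME, part 2.**  `#H²(Gal(K/k), C_K) ∣ p` for a Galois layer of prime degree `p`
(`p` odd, `ζ_p ∈ k`): Hilbert 90 and the second inequality. -/
theorem clsPrime_H2 {p : ℕ} (hp : p.Prime) (hp2 : p ≠ 2)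
    (hζ : ∃ ζ : k, IsPrimitiveRoot ζ p) (hdeg : Module.finrank k K = p) :
    Nat.card (groupCohomology (ideleClassRep k K) 2) ∣ p := by
  have : FiniteDimensional k K := Module.finite_of_finrank_pos (by rw [hdeg]; exact hp.pos)
  obtain ⟨g, β, σ, hg, hβ, -, hσ⟩ := H52.exists_kummer_generator k K p hp hζ hdeg
  obtain ⟨ζ, hζ⟩ := hζ
  let L : KummerLayer k K p g := ⟨β, σ, hβ, hdeg, inferInstance, hσ⟩
  let _ : Fintype (K ≃ₐ[k] K) := Fintype.ofFinite _
  have h90 : Limits.IsZero (groupCohomology (Rep.ofAlgebraAutOnUnits k K) 1) :=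
    ModuleCat.isZero_of_subsingleton _
  let f : ideleGroup k →* ideleGroup K := H55.IdeleInv.ideleMap k K
  let H : Subgroup (∀ v : FinPlace k, finX k v) :=
    principal (finLoc k) ⊔ NmLoc (finU k) (finNloc k p g)
  let H₀ : Subgroup (ideleGroup k) := H.comap (ideleToFin k)
  have hH₀ : H₀.index ∣ p := by
    rw [Subgroup.index_comap, range_ideleToFin]
    exact secondIneq k hp hp2 hζ g
  have hrel : (H₀.map f).relIndex f.range ∣ p := by
    rw [MonoidHom.range_eq_map, Subgroup.relIndex_map_map_of_injective _ _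
      (H55.IdeleInv.ideleMap_injective k K), Subgroup.relIndex_top_right]
    exact hH₀
  let I₀ : AddSubgroup (Additive (ideleGroup K)) := Subgroup.toAddSubgroup f.range
  let D₀ : AddSubgroup (Additive (ideleGroup K)) := Subgroup.toAddSubgroup (H₀.map f)
  have hrel' : D₀.relIndex I₀ ∣ p := hrel
  refine H37.natCard_H2_dvd_of_relIndex (ideleShortComplex_shortExact k K) σ hσ h90
    I₀ D₀ ?_ ?_ p hrel'
  · -- the invariants of `J_K` are the ideles of `k`
    intro y
    constructor
    · rintro ⟨x, hx⟩ s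
      refine ideleOfRep_injective ?_
      have hx' : f x = ideleOfRep k K y := hx
      show s • ideleOfRep k K y = ideleOfRep k K y
      rw [← hx']
      exact smul_ideleMap_base k K s x
    · intro hy
      obtain ⟨x, hx⟩ := H55.IdeleInv.exists_ideleMap_eq k K (ideleOfRep k K y) (fun s q =>
        congrArg (fun z : ideleRep k K => ((((ideleOfRep k K z : ideleGroup K) :
          ∀ q : Nat.Primes, (semiLocal (q : ℕ) K)ˣ) q : (semiLocal (q : ℕ) K)ˣ) :
            semiLocal (q : ℕ) K)) (hy s))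
      exact ⟨x, hx⟩
  · -- `j(H₀) ⊆ Kˣ · N(J_K)`
    rintro y ⟨h, hh, hy⟩
    obtain ⟨a, z, hz⟩ := ideleMap_eq_diag_mul_norm k K hp hζ hg L h hh
    refine ⟨unitOfBase k K a, repOfIdele k K z, ideleOfRep_injective ?_⟩
    have hy' : f h = ideleOfRep k K y := hy
    rw [← hy']
    show f h = ideleOfRep k K ((ideleDiag k K).hom (unitOfBase k K a))
      * ideleOfRep k K (∑ s : K ≃ₐ[k] K, (ideleRep k K).ρ s (repOfIdele k K z))
    rw [ideleOfRep_sum]
    exact hz

/-- **CLS-PRIME.**  For a Galois layer `K / k` of number fields of prime degree `p` (`p` odd,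
`ζ_p ∈ k`): `H¹(Gal(K/k), C_K) = 0` and `#H²(Gal(K/k), C_K) ∣ p`. -/
theorem clsPrime {p : ℕ} (hp : p.Prime) (hp2 : p ≠ 2)
    (hζ : ∃ ζ : k, IsPrimitiveRoot ζ p) (hdeg : Module.finrank k K = p) :
    Limits.IsZero (groupCohomology (ideleClassRep k K) 1) ∧
      Nat.card (groupCohomology (ideleClassRep k K) 2) ∣ p :=
  ⟨clsPrime_H1 k K hp hp2 hζ hdeg, clsPrime_H2 k K hp hp2 hζ hdeg⟩

end H2

end Fermat.Agent.S55.H50
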