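/-
S55 (Poitou–Tate), packages C6 + C7, helper50: helper8's `S`-unit Hasse norm principle
`H8.HasseNormSUnitStatement` (file `S55/H8/HasseNormSUnit.lean`) UNCONDITIONALLY, all leaves of
C6 being discharged (`S55/H50/FirstIneq.lean`).
-/
import Mathlib
import Fermat.Agent.S55.H50.FirstIneq
import Fermat.Agent.S55.H8.HasseNormSUnit

set_option autoImplicit false

open NumberField

noncomputable section

namespace Fermat.Agent.S55.H50

open Fermat.Agent.S55.H8 Fermat.Agent.S55.H88

universe u

/-- **The `S`-unit Hasse norm principle for Kummer layers of degree `p`**, with the exact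
finite-`S` norm index `p` (helper8's statement; all leaves discharged). -/
theorem hasseNormSUnitStatement : Fermat.Agent.S55.H8.HasseNormSUnitStatement.{u} :=
  Fermat.Agent.S55.H8.hasseNormSUnitStatement_of_leaves
    Fermat.Agent.S55.H24.sUnitStructStatement Fermat.Agent.S55.H82.sUnitHilbert90Statement
    sUnitIndexStatement_holds Fermat.Agent.S55.H67.placeCountKummerStatement sClassStatement

end Fermat.Agent.S55.H50
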